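import Mathlib

/-!
# P-SS, row SSH-9, part 3: a valuative Kummer–Dedekind lemma (helper59)

Mathlib only.  `L / K` a field extension, `W` a valuation subring of `K` which is discrete with
uniformiser `t` (`KDBase`), `L = K[β]`, `P ∈ W[X]` with `P(β) = 0`, `b ∈ W` a SIMPLE root of `P`
modulo the maximal ideal (`P'(b)` a unit of `W`).

If `V` is a valuation subring of `L` above `W` with `β - b ∈ 𝔪_V`, then

* `V = { g₁(β) / g₂(β) : g₁, g₂ ∈ W[X], g₂(b) ∈ Wˣ }` (`KDData.mem_iff`); in particular `V` is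
  the ONLY valuation subring of `L` above `W` with `β - b ∈ 𝔪_V` (`KDData.unique`);
* `V / W` is unramified: `t` is a uniformiser of `V` (`KDData.div_mem`);
* the residue field does not grow: every element of `V` is congruent modulo `𝔪_V` to an element
  of `W` (`KDData.exists_residue`).

The proof is elementary (no integral closure, no trace form, no completion): with
`P = P(b) + (X - b) Q`, `Q(b) = P'(b)`, every `g(β) ∈ 𝔪_V` satisfies `g(β) Q(β) = t g'(β)`.
-/

set_option autoImplicit false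
set_option linter.unusedSectionVars false

noncomputable section

namespace Fermat.Agent.H59.SS

open Polynomial

section KD

variable {K L : Type*} [Field K] [Field L] [Algebra K L]

/-- The coefficient homomorphism `W → L`. -/
def kdHom (W : ValuationSubring K) : W →+* L := (algebraMap K L).comp W.subtype

theorem kdHom_apply (W : ValuationSubring K) (w : W) :
    kdHom (L := L) W w = algebraMap K L (w : K) := rfl

/-- The candidate ring: quotients `g₁(β) / g₂(β)` with `g₁, g₂ ∈ W[X]`, `g₂(b)` a unit. -/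
def kdSet (W : ValuationSubring K) (β : L) (b : W) : Set L :=
  {z | ∃ g₁ g₂ : W[X], IsUnit (g₂.eval b) ∧
    z * g₂.eval₂ (kdHom W) β = g₁.eval₂ (kdHom W) β}

/-- The base data: `W` is discrete with uniformiser `t`. -/
structure KDBase (W : ValuationSubring K) (t : W) : Prop where
  /-- `t ≠ 0` -/
  ne_zero : t ≠ 0
  /-- `t` is a non-unit -/
  not_unit : ¬ IsUnit t
  /-- every non-unit is divisible by `t` -/
  dvd : ∀ w : W, ¬ IsUnit w → t ∣ w
  /-- `K = W[1/t]` -/
  denom : ∀ c : K, ∃ m : ℕ, c * (t : K) ^ m ∈ W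

/-- The data of the lemma: a valuation subring `V` of `L = K[β]` above `W` with `β ≡ b`, where
`b` is a simple root modulo `𝔪_W` of `P ∈ W[X]`, `P(β) = 0`. -/
structure KDData (W : ValuationSubring K) (t : W) (β : L) (b : W) (P : W[X])
    (V : ValuationSubring L) : Prop where
  /-- the base is discrete -/
  base : KDBase W t
  /-- `V` lies above `W` -/
  comap : V.comap (algebraMap K L) = W
  /-- `β ≡ b` -/
  cong : β - algebraMap K L (b : K) ∈ V.nonunits
  /-- `P(β) = 0` -/
  root : P.eval₂ (kdHom W) β = 0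
  /-- `b` is a simple root modulo the maximal ideal -/
  simple : IsUnit (P.derivative.eval b)
  /-- `L = K[β]` -/
  gen : Algebra.adjoin K ({β} : Set L) = ⊤

variable {W : ValuationSubring K} {t : W} {β : L} {b : W} {P : W[X]} {V : ValuationSubring L}

theorem KDData.hom_mem (h : KDData W t β b P V) (w : W) : kdHom (L := L) W w ∈ V := by
  have : (w : K) ∈ V.comap (algebraMap K L) := by
    rw [h.comap]
    exact w.2
  exact this

theorem KDData.beta_mem (h : KDData W t β b P V) : β ∈ V := by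
  have h1 : β - algebraMap K L (b : K) ∈ V := V.nonunits_subset h.cong
  have h2 : algebraMap K L (b : K) ∈ V := h.hom_mem b
  have := V.add_mem _ _ h1 h2
  simpa using this

theorem KDData.eval_mem (h : KDData W t β b P V) (g : W[X]) : g.eval₂ (kdHom W) β ∈ V := by
  rw [Polynomial.eval₂_eq_sum_range]
  exact V.toSubring.sum_mem fun i _ => V.mul_mem _ _ (h.hom_mem _) (V.pow_mem h.beta_mem _)

/-- non-units of `W` are exactly the elements of `W` which are non-units of `V` -/
theorem KDData.hom_mem_nonunits_iff (h : KDData W t β b P V) (w : W) :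
    kdHom (L := L) W w ∈ V.nonunits ↔ ¬ IsUnit w := by
  rw [← mem_nonunits_iff, ← IsLocalRing.mem_maximalIdeal, ← ValuationSubring.coe_mem_nonunits_iff,
    ValuationSubring.mem_nonunits_iff_or, ValuationSubring.mem_nonunits_iff_or, kdHom_apply,
    map_eq_zero, ← map_inv₀]
  have key : ∀ x : K, algebraMap K L x ∈ V ↔ x ∈ W := by
    intro x
    have hc := h.comap
    constructor
    · intro hx
      rw [← hc]
      exact hx
    · intro hx
      rw [← hc] at hx
      exact hx
  rw [key]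

theorem KDData.isUnit_hom (h : KDData W t β b P V) {w : W} (hw : IsUnit w) :
    V.valuation (kdHom (L := L) W w) = 1 := by
  have h1 : kdHom (L := L) W w ∉ V.nonunits := fun hn => (h.hom_mem_nonunits_iff w).1 hn hw
  rw [ValuationSubring.mem_nonunits_iff, not_lt] at h1
  exact le_antisymm ((V.valuation_le_one_iff _).2 (h.hom_mem w)) h1

theorem kd_mul_mem_nonunits (V : ValuationSubring L) {x z : L} (hx : x ∈ V.nonunits)
    (hz : z ∈ V) : x * z ∈ V.nonunits := by
  rw [ValuationSubring.mem_nonunits_iff] at hx ⊢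
  rw [map_mul]
  have hz1 : V.valuation z ≤ 1 := (V.valuation_le_one_iff z).2 hz
  calc V.valuation x * V.valuation z ≤ V.valuation x * 1 := mul_le_mul_right hz1 _
    _ = V.valuation x := mul_one _
    _ < 1 := hx

/-- `g(β) ≡ g(b)` modulo the maximal ideal of `V`. -/
theorem KDData.eval_sub_mem (h : KDData W t β b P V) (g : W[X]) :
    g.eval₂ (kdHom W) β - kdHom (L := L) W (g.eval b) ∈ V.nonunits := by
  obtain ⟨hq, hhq⟩ := X_sub_C_dvd_sub_C_eval (a := b) (p := g)
  have e : g.eval₂ (kdHom W) β - kdHom (L := L) W (g.eval b) =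
      (β - algebraMap K L (b : K)) * hq.eval₂ (kdHom W) β := by
    have := congrArg (Polynomial.eval₂ (kdHom (L := L) W) β) hhq
    rw [eval₂_sub, eval₂_C, eval₂_mul, eval₂_sub, eval₂_X, eval₂_C] at this
    exact this
  rw [e]
  exact kd_mul_mem_nonunits V h.cong (h.eval_mem hq)

/-- If `g(b)` is a unit of `W` then `g(β)` is a unit of `V`. -/
theorem KDData.eval_val_eq_one (h : KDData W t β b P V) (g : W[X]) (hg : IsUnit (g.eval b)) :
    V.valuation (g.eval₂ (kdHom W) β) = 1 := by
  have h1 := h.isUnit_hom hg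
  have h2 := (ValuationSubring.mem_nonunits_iff V).1 (h.eval_sub_mem g)
  have e : g.eval₂ (kdHom W) β =
      kdHom (L := L) W (g.eval b) + (g.eval₂ (kdHom W) β - kdHom (L := L) W (g.eval b)) := by
    ring
  rw [e, Valuation.map_add_eq_of_lt_left _ (by rw [h1]; exact h2), h1]

theorem KDData.eval_ne_zero (h : KDData W t β b P V) (g : W[X]) (hg : IsUnit (g.eval b)) :
    g.eval₂ (kdHom W) β ≠ 0 := by
  intro h0
  have := h.eval_val_eq_one g hg
  rw [h0, map_zero] at this
  exact zero_ne_one this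

theorem KDData.eval_inv_mem (h : KDData W t β b P V) (g : W[X]) (hg : IsUnit (g.eval b)) :
    (g.eval₂ (kdHom W) β)⁻¹ ∈ V := by
  rw [← V.valuation_le_one_iff, map_inv₀, h.eval_val_eq_one g hg, inv_one]

/-- If `g(β)` is a non-unit of `V` then `g(b)` is a non-unit of `W`. -/
theorem KDData.not_isUnit_eval (h : KDData W t β b P V) (g : W[X])
    (hg : g.eval₂ (kdHom W) β ∈ V.nonunits) : ¬ IsUnit (g.eval b) := by
  intro hu
  have := h.eval_val_eq_one g hu
  rw [ValuationSubring.mem_nonunits_iff, this] at hg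
  exact lt_irrefl _ hg

/-- **Key identity**: there is `Q ∈ W[X]` with `Q(b)` a unit such that every `g(β) ∈ 𝔪_V`
(`g ∈ W[X]`) satisfies `g(β) Q(β) = t g'(β)` for some `g' ∈ W[X]`. -/
theorem KDData.exists_key (h : KDData W t β b P V) :
    ∃ Q : W[X], IsUnit (Q.eval b) ∧ ∀ g : W[X], g.eval₂ (kdHom W) β ∈ V.nonunits →
      ∃ g' : W[X], g.eval₂ (kdHom W) β * Q.eval₂ (kdHom W) β =
        kdHom (L := L) W t * g'.eval₂ (kdHom W) β := by
  obtain ⟨Q, hQ⟩ := X_sub_C_dvd_sub_C_eval (a := b) (p := P)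
  -- `Q(b) = P'(b)`
  have hQb : Q.eval b = P.derivative.eval b := by
    have h1 := congrArg (fun p => (derivative p).eval b) hQ
    simp only [derivative_sub, derivative_C, sub_zero, derivative_mul, derivative_X, one_mul,
      eval_add, eval_mul, eval_sub, eval_X, eval_C, sub_self, zero_mul, add_zero] at h1
    exact h1.symm
  have hQu : IsUnit (Q.eval b) := hQb ▸ h.simple
  -- `(β - b) Q(β) = - P(b)`
  have e1 : (β - algebraMap K L (b : K)) * Q.eval₂ (kdHom W) β =
      -kdHom (L := L) W (P.eval b) := by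
    have := congrArg (Polynomial.eval₂ (kdHom (L := L) W) β) hQ
    rw [eval₂_sub, eval₂_C, eval₂_mul, eval₂_sub, eval₂_X, eval₂_C, h.root, zero_sub] at this
    exact this.symm
  -- `P(b) = t w₀`
  have hPb : ¬ IsUnit (P.eval b) := by
    rw [← h.hom_mem_nonunits_iff]
    have e2 : kdHom (L := L) W (P.eval b) =
        -((β - algebraMap K L (b : K)) * Q.eval₂ (kdHom W) β) := by
      rw [e1, neg_neg]
    rw [e2]
    exact V.nonunits.neg_mem (kd_mul_mem_nonunits V h.cong (h.eval_mem Q))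
  obtain ⟨w₀, hw₀⟩ := h.base.dvd _ hPb
  refine ⟨Q, hQu, ?_⟩
  intro g hg
  obtain ⟨w, hw⟩ := h.base.dvd _ (h.not_isUnit_eval g hg)
  obtain ⟨hq, hhq⟩ := X_sub_C_dvd_sub_C_eval (a := b) (p := g)
  have e3 : g.eval₂ (kdHom W) β =
      kdHom (L := L) W (g.eval b) + (β - algebraMap K L (b : K)) * hq.eval₂ (kdHom W) β := by
    have := congrArg (Polynomial.eval₂ (kdHom (L := L) W) β) hhq
    rw [eval₂_sub, eval₂_C, eval₂_mul, eval₂_sub, eval₂_X, eval₂_C] at this
    rw [← sub_eq_iff_eq_add']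
    exact this
  refine ⟨C w * Q - C w₀ * hq, ?_⟩
  rw [eval₂_sub, eval₂_mul, eval₂_mul, eval₂_C, eval₂_C]
  have e4 : kdHom (L := L) W (g.eval b) = kdHom (L := L) W t * kdHom (L := L) W w := by
    rw [← map_mul, hw]
  have e5 : kdHom (L := L) W (P.eval b) = kdHom (L := L) W t * kdHom (L := L) W w₀ := by
    rw [← map_mul, hw₀]
  rw [e5] at e1
  rw [e3, e4]
  linear_combination (hq.eval₂ (kdHom W) β) * e1

/-- every element of `L` is `g(β) / t ^ m` with `g ∈ W[X]` -/
theorem KDData.exists_repr (h : KDData W t β b P V) (z : L) :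
    ∃ (m : ℕ) (g : W[X]), z * kdHom (L := L) W t ^ m = g.eval₂ (kdHom W) β := by
  have key : ∀ p : K[X], ∃ (m : ℕ) (g : W[X]),
      Polynomial.aeval β p * kdHom (L := L) W t ^ m = g.eval₂ (kdHom W) β := by
    intro p
    induction p using Polynomial.induction_on' with
    | add p₁ p₂ h₁ h₂ =>
      obtain ⟨m₁, g₁, e₁⟩ := h₁
      obtain ⟨m₂, g₂, e₂⟩ := h₂
      refine ⟨m₁ + m₂, g₁ * C (t ^ m₂) + g₂ * C (t ^ m₁), ?_⟩
      rw [eval₂_add, eval₂_mul, eval₂_mul, eval₂_C, eval₂_C, ← e₁, ← e₂, map_pow, map_pow,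
        map_add]
      ring
    | monomial n c =>
      obtain ⟨m, hm⟩ := h.base.denom c
      refine ⟨m, C (⟨c * (t : K) ^ m, hm⟩ : W) * X ^ n, ?_⟩
      rw [eval₂_mul, eval₂_C, eval₂_pow, eval₂_X, aeval_monomial, kdHom_apply, kdHom_apply]
      show algebraMap K L c * β ^ n * algebraMap K L (t : K) ^ m =
        algebraMap K L (c * (t : K) ^ m) * β ^ n
      rw [map_mul, map_pow]
      ring
  have hz : z ∈ Algebra.adjoin K ({β} : Set L) := by
    rw [h.gen]
    exact Algebra.mem_top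
  rw [Algebra.adjoin_singleton_eq_range_aeval] at hz
  obtain ⟨p, hp⟩ := hz
  obtain ⟨m, g, hg⟩ := key p
  refine ⟨m, g, ?_⟩
  rw [← hg, ← hp]
  rfl

/-- `V ⊆ kdSet`, by induction on the exponent of the denominator. -/
theorem KDData.mem_kdSet_of_mul_pow (h : KDData W t β b P V) (m : ℕ) :
    ∀ (g : W[X]) (z : L), z ∈ V → z * kdHom (L := L) W t ^ m = g.eval₂ (kdHom W) β →
      z ∈ kdSet W β b := by
  obtain ⟨Q, hQu, hQ⟩ := h.exists_key
  have ht0 : kdHom (L := L) W t ≠ 0 := by
    rw [kdHom_apply]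
    intro h0
    apply h.base.ne_zero
    apply Subtype.ext
    exact (map_eq_zero _).1 h0
  have htn : kdHom (L := L) W t ∈ V.nonunits := (h.hom_mem_nonunits_iff t).2 h.base.not_unit
  induction m with
  | zero =>
    intro g z _ hzg
    refine ⟨g, 1, by simp, ?_⟩
    rw [eval₂_one, mul_one]
    rw [pow_zero, mul_one] at hzg
    exact hzg
  | succ m ih =>
    intro g z hz hzg
    have hgn : g.eval₂ (kdHom W) β ∈ V.nonunits := by
      rw [← hzg, pow_succ, ← mul_assoc, mul_comm]
      exact kd_mul_mem_nonunits V htn (V.mul_mem _ _ hz (V.pow_mem (V.nonunits_subset htn) m))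
    obtain ⟨g', hg'⟩ := hQ g hgn
    have e : (z * Q.eval₂ (kdHom W) β) * kdHom (L := L) W t ^ m = g'.eval₂ (kdHom W) β := by
      apply mul_left_cancel₀ ht0
      rw [← hg', ← hzg, pow_succ]
      ring
    obtain ⟨g₁, g₂, hg₂, he⟩ := ih g' (z * Q.eval₂ (kdHom W) β)
      (V.mul_mem _ _ hz (h.eval_mem Q)) e
    refine ⟨g₁, Q * g₂, ?_, ?_⟩
    · rw [eval_mul]
      exact hQu.mul hg₂
    · rw [eval₂_mul, ← he]
      ring

/-- **Description of `V`.** -/
theorem KDData.mem_iff (h : KDData W t β b P V) (z : L) : z ∈ V ↔ z ∈ kdSet W β b := by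
  constructor
  · intro hz
    obtain ⟨m, g, hg⟩ := h.exists_repr z
    exact h.mem_kdSet_of_mul_pow m g z hz hg
  · rintro ⟨g₁, g₂, hg₂, he⟩
    have h0 := h.eval_ne_zero g₂ hg₂
    have e : z = g₁.eval₂ (kdHom W) β * (g₂.eval₂ (kdHom W) β)⁻¹ := by
      rw [← he, mul_assoc, mul_inv_cancel₀ h0, mul_one]
    rw [e]
    exact V.mul_mem _ _ (h.eval_mem g₁) (h.eval_inv_mem g₂ hg₂)

/-- **Uniqueness**: `V` is the only valuation subring of `L` above `W` with `β ≡ b`. -/
theorem KDData.unique {V' : ValuationSubring L} (h : KDData W t β b P V)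
    (h' : KDData W t β b P V') : V = V' := by
  ext z
  rw [h.mem_iff, h'.mem_iff]

/-- **Unramifiedness**: every non-unit of `V` is divisible by `t`. -/
theorem KDData.div_mem (h : KDData W t β b P V) {z : L} (hz : z ∈ V.nonunits) :
    z / kdHom (L := L) W t ∈ V := by
  obtain ⟨Q, hQu, hQ⟩ := h.exists_key
  have ht0 : kdHom (L := L) W t ≠ 0 := by
    rw [kdHom_apply]
    intro h0
    apply h.base.ne_zero
    apply Subtype.ext
    exact (map_eq_zero _).1 h0
  obtain ⟨g₁, g₂, hg₂, he⟩ := (h.mem_iff z).1 (V.nonunits_subset hz)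
  have hg₁ : g₁.eval₂ (kdHom W) β ∈ V.nonunits := by
    rw [← he]
    exact kd_mul_mem_nonunits V hz (h.eval_mem g₂)
  obtain ⟨g', hg'⟩ := hQ g₁ hg₁
  have h2 := h.eval_ne_zero g₂ hg₂
  have hQ0 := h.eval_ne_zero Q hQu
  have e : z / kdHom (L := L) W t =
      g'.eval₂ (kdHom W) β * ((g₂.eval₂ (kdHom W) β)⁻¹ * (Q.eval₂ (kdHom W) β)⁻¹) := by
    rw [← he] at hg'
    field_simp
    linear_combination hg'
  rw [e]
  exact V.mul_mem _ _ (h.eval_mem g') (V.mul_mem _ _ (h.eval_inv_mem g₂ hg₂)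
    (h.eval_inv_mem Q hQu))

/-- **The residue field does not grow**: every element of `V` is congruent to an element of
`W` modulo the maximal ideal of `V`. -/
theorem KDData.exists_residue (h : KDData W t β b P V) {z : L} (hz : z ∈ V) :
    ∃ w : W, z - kdHom (L := L) W w ∈ V.nonunits := by
  obtain ⟨g₁, g₂, hg₂, he⟩ := (h.mem_iff z).1 hz
  obtain ⟨u, hu⟩ := hg₂
  refine ⟨g₁.eval b * ↑u⁻¹, ?_⟩
  have h2 := h.eval_ne_zero g₂ ⟨u, hu⟩
  have hinv := h.eval_inv_mem g₂ ⟨u, hu⟩
  have hu1 : kdHom (L := L) W (g₂.eval b) * kdHom (L := L) W (↑u⁻¹ : W) = 1 := by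
    rw [← map_mul, ← hu, Units.mul_inv, map_one]
  have e : z - kdHom (L := L) W (g₁.eval b * ↑u⁻¹) =
      ((g₁.eval₂ (kdHom W) β - kdHom (L := L) W (g₁.eval b)) -
        kdHom (L := L) W (g₁.eval b) * kdHom (L := L) W (↑u⁻¹ : W) *
          (g₂.eval₂ (kdHom W) β - kdHom (L := L) W (g₂.eval b))) *
        (g₂.eval₂ (kdHom W) β)⁻¹ := by
    rw [map_mul]
    field_simp
    linear_combination he - (kdHom (L := L) W (g₁.eval b)) * hu1
  rw [e]
  refine kd_mul_mem_nonunits V (V.nonunits.sub_mem (h.eval_sub_mem g₁) ?_) hinv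
  rw [mul_comm]
  exact kd_mul_mem_nonunits V (h.eval_sub_mem g₂) (V.mul_mem _ _ (h.hom_mem _) (h.hom_mem _))

end KD

end Fermat.Agent.H59.SS
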