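import Mathlib
import Fermat.Agent.H45.SS.Hartogs
import Fermat.Agent.H60.SS.TubeVal

/-!
# P-SS, row SSH-9 (supersingular points), part 1: evaluation at a rational place (helper59)

Setting of `Fermat.Agent.H22.KL` / `Fermat.Agent.H45.SS.Hartogs`: `A` a discrete valuation ring
with uniformiser `ϖ`, `E` a field containing `A`, `y : E` a chart coordinate,
`B = chartClosure A E y`, `𝔪` a maximal ideal of `B` containing `ϖ`, `V` a place of `E`
centred at `𝔪`.

* `IsRatPlace A E V` : every element of `V` is congruent modulo `𝔪_V` to a constant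
  `a / b` (`a, b ∈ A`), i.e. the residue field of `V` is `Frac A`.
* `placeEval` : the evaluation `B →ₐ[A] A` at a rational place centred at `𝔪`
  (`placeEval_spec`, `placeEval_mem_maximalIdeal_iff`).
* `placeEval_evalEval` : evaluation commutes with bivariate polynomials.
-/

set_option autoImplicit false
set_option linter.unusedSectionVars false

noncomputable section

namespace Fermat.Agent.H59.SS

open Polynomial IsLocalRing
open scoped Polynomial.Bivariate
open Fermat.Agent.H22.KL Fermat.Agent.H45

/-- The place `V` is rational over `Frac A`: every element of `V` is congruent modulo the maximal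
ideal of `V` to a constant `a / b`, `a, b ∈ A`, `b ≠ 0`. -/
def IsRatPlace (A : Type) [CommRing A] (E : Type) [Field E] [Algebra A E]
    (V : ValuationSubring E) : Prop :=
  ∀ z ∈ V, ∃ a b : A, b ≠ 0 ∧ z - algebraMap A E a / algebraMap A E b ∈ V.nonunits

section Basic

variable {E : Type} [Field E] (V : ValuationSubring E)

theorem ssp_mul_mem_nonunits {x z : E} (hx : x ∈ V.nonunits) (hz : z ∈ V) :
    x * z ∈ V.nonunits := by
  rw [ValuationSubring.mem_nonunits_iff] at hx ⊢
  rw [map_mul]
  have hz1 : V.valuation z ≤ 1 := (V.valuation_le_one_iff z).2 hz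
  calc V.valuation x * V.valuation z ≤ V.valuation x * 1 := mul_le_mul_right hz1 _
    _ = V.valuation x := mul_one _
    _ < 1 := hx

theorem ssp_mul_mem_nonunits' {x z : E} (hz : z ∈ V) (hx : x ∈ V.nonunits) :
    z * x ∈ V.nonunits := by
  rw [mul_comm]
  exact ssp_mul_mem_nonunits V hx hz

theorem ssp_one_not_mem_nonunits : (1 : E) ∉ V.nonunits := by
  rw [ValuationSubring.mem_nonunits_iff, map_one]
  exact lt_irrefl _

end Basic

section Place

variable {A : Type} [CommRing A] {E : Type} [Field E] [Algebra A E]

/-- A place is trivial on the nonzero constants. -/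
theorem ssp_valuation_algebraMap (hinj : Function.Injective (algebraMap A E))
    {V : ValuationSubring E} (hV : IsPlace A E V) {a : A} (ha : a ≠ 0) :
    V.valuation (algebraMap A E a) = 1 := by
  obtain ⟨h1, h2⟩ := hV.2.2 a ha
  have hne : algebraMap A E a ≠ 0 := fun h => ha (hinj (by rw [h, map_zero]))
  have e1 : V.valuation (algebraMap A E a) ≤ 1 := (V.valuation_le_one_iff _).2 h1
  have e2 : V.valuation (algebraMap A E a)⁻¹ ≤ 1 := (V.valuation_le_one_iff _).2 h2
  rw [map_inv₀] at e2
  have hv0 : V.valuation (algebraMap A E a) ≠ 0 := (Valuation.ne_zero_iff _).2 hne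
  have e3 : 1 ≤ V.valuation (algebraMap A E a) := by
    rwa [inv_le_one₀ (zero_lt_iff.2 hv0)] at e2
  exact le_antisymm e1 e3

theorem ssp_algebraMap_mem {V : ValuationSubring E} (hV : IsPlace A E V) (a : A) :
    algebraMap A E a ∈ V := by
  by_cases ha : a = 0
  · rw [ha, map_zero]
    exact V.zero_mem
  · exact (hV.2.2 a ha).1

theorem ssp_algebraMap_not_mem_nonunits (hinj : Function.Injective (algebraMap A E))
    {V : ValuationSubring E} (hV : IsPlace A E V) {a : A} (ha : a ≠ 0) :
    algebraMap A E a ∉ V.nonunits := by
  rw [ValuationSubring.mem_nonunits_iff, ssp_valuation_algebraMap hinj hV ha]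
  exact lt_irrefl _

/-- The chart ring `A[y]` lies in every finite place. -/
theorem ssp_chartRing_le {y : E} {V : ValuationSubring E} (hV : IsFinitePlace A E y V)
    {s : E} (hs : s ∈ chartRing A E y) : s ∈ V := by
  let S : Subalgebra A E :=
    { V.toSubring with
      algebraMap_mem' := fun a => ssp_algebraMap_mem hV.1 a }
  have hle : chartRing A E y ≤ S := by
    unfold chartRing
    rw [Algebra.adjoin_le_iff]
    rintro x hx
    rw [Set.mem_singleton_iff] at hx
    rw [hx]
    exact hV.2
  exact hle hs

/-- The chart closure `B(y)` lies in every finite place. -/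
theorem ssp_chartClosure_le {y : E} {V : ValuationSubring E} (hV : IsFinitePlace A E y V)
    {s : E} (hs : s ∈ chartClosure A E y) : s ∈ V := by
  have hint : IsIntegral (chartRing A E y) s := hs
  obtain ⟨p, hpm, hp⟩ := hint
  let f : chartRing A E y →+* V :=
    { toFun := fun c => ⟨(c : E), ssp_chartRing_le hV c.2⟩
      map_one' := rfl
      map_mul' := fun _ _ => rfl
      map_zero' := rfl
      map_add' := fun _ _ => rfl }
  have hcomp : (algebraMap V E).comp f = algebraMap (chartRing A E y) E := by
    ext c
    rfl
  have hint' : IsIntegral V s := by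
    refine ⟨p.map f, hpm.map f, ?_⟩
    rw [Polynomial.eval₂_map, hcomp]
    exact hp
  obtain ⟨z, hz⟩ := (IsIntegrallyClosed.isIntegral_iff (R := V) (K := E)).1 hint'
  rw [← hz]
  exact z.2

end Place

section Eval

variable {A : Type} [CommRing A] [IsDomain A] [IsDiscreteValuationRing A]
  {E : Type} [Field E] [Algebra A E]

/-- The data of a rational place centred at a maximal ideal `𝔪 ∋ ϖ` of `B(y)`. -/
structure IsRatCentred (ϖ : A) (y : E) (𝔪 : Ideal (chartClosure A E y))
    (V : ValuationSubring E) : Prop where
  /-- `A ⊆ E` -/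
  inj : Function.Injective (algebraMap A E)
  /-- `ϖ` is a uniformiser of `A` -/
  irr : Irreducible ϖ
  /-- `𝔪` is maximal -/
  isMax : 𝔪.IsMaximal
  /-- `ϖ ∈ 𝔪` -/
  pi_mem : algebraMap A (chartClosure A E y) ϖ ∈ 𝔪
  /-- `V` is a place centred at `𝔪` -/
  centred : CentredAt A E y 𝔪 V
  /-- `V` is rational -/
  rational : IsRatPlace A E V

variable {ϖ : A} {y : E} {𝔪 : Ideal (chartClosure A E y)} {V : ValuationSubring E}

theorem IsRatCentred.isPlace (h : IsRatCentred ϖ y 𝔪 V) : IsPlace A E V := h.centred.1.1

theorem IsRatCentred.mem (h : IsRatCentred ϖ y 𝔪 V) (s : chartClosure A E y) : (s : E) ∈ V :=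
  ssp_chartClosure_le h.centred.1 s.2

/-- A unit of `A` does not lie in `𝔪`. -/
theorem ssp_unit_not_mem {𝔪 : Ideal (chartClosure A E y)} (h𝔪 : 𝔪.IsMaximal) {u : A}
    (hu : IsUnit u) : algebraMap A (chartClosure A E y) u ∉ 𝔪 := fun hmem =>
  h𝔪.ne_top (Ideal.eq_top_of_isUnit_mem _ hmem (hu.map _))

/-- **Existence of the value** of `s ∈ B(y)` at a rational place centred at `𝔪`: it is an
element of `A`. -/
theorem IsRatCentred.exists_value (h : IsRatCentred ϖ y 𝔪 V) (s : chartClosure A E y) :
    ∃ c : A, (s : E) - algebraMap A E c ∈ V.nonunits := by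
  obtain ⟨a, b, hb, hab⟩ := h.rational (s : E) (h.mem s)
  have hbE : algebraMap A E b ≠ 0 := fun h0 => hb (h.inj (by rw [h0, map_zero]))
  -- `b ∣ a`
  have hdvd : ∃ c : A, a = b * c := by
    obtain ⟨c, hc | hc⟩ := ValuationRing.cond a b
    · by_cases hcu : IsUnit c
      · obtain ⟨u, rfl⟩ := hcu
        exact ⟨↑u⁻¹, by rw [← hc, mul_assoc, Units.mul_inv, mul_one]⟩
      · exfalso
        have hcm : c ∈ maximalIdeal A := (mem_maximalIdeal c).2 hcu
        rw [h.irr.maximalIdeal_eq, Ideal.mem_span_singleton'] at hcm
        obtain ⟨c', hc'⟩ := hcm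
        have ha0 : a ≠ 0 := by
          rintro rfl
          exact hb (by rw [← hc, zero_mul])
        have haE : algebraMap A E a ≠ 0 := fun h0 => ha0 (h.inj (by rw [h0, map_zero]))
        -- the element `1 - ϖ c' s` of `B`
        set t : chartClosure A E y := 1 - algebraMap A (chartClosure A E y) (c' * ϖ) * s with ht
        have htE : (t : E) = -(algebraMap A E (c' * ϖ)) *
            ((s : E) - algebraMap A E a / algebraMap A E b) := by
          have e1 : (t : E) = 1 - algebraMap A E (c' * ϖ) * (s : E) := rfl
          have e2 : algebraMap A E b = algebraMap A E a * algebraMap A E (c' * ϖ) := by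
            rw [← map_mul, hc', hc]
          have hα : algebraMap A E (c' * ϖ) ≠ 0 := by
            intro h0
            rw [h0, mul_zero] at e2
            exact hbE e2
          rw [e1, e2]
          generalize algebraMap A E (c' * ϖ) = α at hα ⊢
          generalize algebraMap A E a = a' at haE ⊢
          generalize (s : E) = s'
          field_simp
          ring
        have htn : (t : E) ∈ V.nonunits := by
          rw [htE]
          exact ssp_mul_mem_nonunits' V (V.neg_mem _ (ssp_algebraMap_mem h.isPlace _)) hab
        have htm : t ∈ 𝔪 := h.centred.2 t htn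
        have h1 : (1 : chartClosure A E y) ∈ 𝔪 := by
          have e : (1 : chartClosure A E y) =
              t + algebraMap A (chartClosure A E y) ϖ *
                (algebraMap A (chartClosure A E y) c' * s) := by
            rw [ht, map_mul]
            ring
          rw [e]
          exact 𝔪.add_mem htm (𝔪.mul_mem_right _ h.pi_mem)
        exact h.isMax.ne_top ((Ideal.eq_top_iff_one _).2 h1)
    · exact ⟨c, hc.symm⟩
  obtain ⟨c, rfl⟩ := hdvd
  refine ⟨c, ?_⟩
  have e : algebraMap A E (b * c) / algebraMap A E b = algebraMap A E c := by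
    rw [map_mul]
    field_simp
  rwa [e] at hab

/-- **Uniqueness of the value.** -/
theorem IsRatCentred.value_unique (h : IsRatCentred ϖ y 𝔪 V) {z : E} {c c' : A}
    (hc : z - algebraMap A E c ∈ V.nonunits) (hc' : z - algebraMap A E c' ∈ V.nonunits) :
    c = c' := by
  by_contra hne
  have hsub : c' - c ≠ 0 := sub_ne_zero.2 (Ne.symm hne)
  have h1 : algebraMap A E (c' - c) ∈ V.nonunits := by
    have e : algebraMap A E (c' - c) = (z - algebraMap A E c) - (z - algebraMap A E c') := by
      rw [map_sub]
      ring
    rw [e]
    exact V.nonunits.sub_mem hc hc'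
  exact ssp_algebraMap_not_mem_nonunits h.inj h.isPlace hsub h1

/-- The value of `s ∈ B(y)` at the rational place `V`. -/
def IsRatCentred.value (h : IsRatCentred ϖ y 𝔪 V) (s : chartClosure A E y) : A :=
  Classical.choose (h.exists_value s)

theorem IsRatCentred.value_spec (h : IsRatCentred ϖ y 𝔪 V) (s : chartClosure A E y) :
    (s : E) - algebraMap A E (h.value s) ∈ V.nonunits :=
  Classical.choose_spec (h.exists_value s)

theorem IsRatCentred.value_eq (h : IsRatCentred ϖ y 𝔪 V) {s : chartClosure A E y} {c : A}
    (hc : (s : E) - algebraMap A E c ∈ V.nonunits) : h.value s = c :=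
  h.value_unique (h.value_spec s) hc

/-- **The evaluation homomorphism** `B(y) →ₐ[A] A` at a rational place centred at `𝔪`. -/
def placeEval (h : IsRatCentred ϖ y 𝔪 V) : chartClosure A E y →ₐ[A] A where
  toFun := h.value
  map_one' := h.value_eq (by
    have e : ((1 : chartClosure A E y) : E) - algebraMap A E 1 = 0 := by
      rw [map_one]
      exact sub_self _
    rw [e]
    exact V.nonunits.zero_mem)
  map_zero' := h.value_eq (by
    have e : ((0 : chartClosure A E y) : E) - algebraMap A E 0 = 0 := by
      rw [map_zero]
      exact sub_self _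
    rw [e]
    exact V.nonunits.zero_mem)
  map_add' := fun s t => h.value_eq (by
    have e : ((s + t : chartClosure A E y) : E) - algebraMap A E (h.value s + h.value t) =
        ((s : E) - algebraMap A E (h.value s)) + ((t : E) - algebraMap A E (h.value t)) := by
      rw [map_add]
      push_cast
      ring
    rw [e]
    exact V.nonunits.add_mem (h.value_spec s) (h.value_spec t))
  map_mul' := fun s t => h.value_eq (by
    have e : ((s * t : chartClosure A E y) : E) - algebraMap A E (h.value s * h.value t) =
        ((s : E) - algebraMap A E (h.value s)) * (t : E) +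
          algebraMap A E (h.value s) * ((t : E) - algebraMap A E (h.value t)) := by
      rw [map_mul]
      push_cast
      ring
    rw [e]
    exact V.nonunits.add_mem (ssp_mul_mem_nonunits V (h.value_spec s) (h.mem t))
      (ssp_mul_mem_nonunits' V (ssp_algebraMap_mem h.isPlace _) (h.value_spec t)))
  commutes' := fun a => h.value_eq (by
    have e : ((algebraMap A (chartClosure A E y) a : chartClosure A E y) : E) -
        algebraMap A E (algebraMap A A a) = 0 := sub_self _
    rw [e]
    exact V.nonunits.zero_mem)

theorem placeEval_spec (h : IsRatCentred ϖ y 𝔪 V) (s : chartClosure A E y) :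
    (s : E) - algebraMap A E (placeEval h s) ∈ V.nonunits :=
  h.value_spec s

theorem placeEval_eq (h : IsRatCentred ϖ y 𝔪 V) {s : chartClosure A E y} {c : A}
    (hc : (s : E) - algebraMap A E c ∈ V.nonunits) : placeEval h s = c :=
  h.value_eq hc

/-- `s ∈ 𝔪` if and only if the value of `s` lies in the maximal ideal of `A`. -/
theorem placeEval_mem_maximalIdeal_iff (h : IsRatCentred ϖ y 𝔪 V) (s : chartClosure A E y) :
    placeEval h s ∈ maximalIdeal A ↔ s ∈ 𝔪 := by
  have hsub : s - algebraMap A (chartClosure A E y) (placeEval h s) ∈ 𝔪 :=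
    h.centred.2 _ (placeEval_spec h s)
  constructor
  · intro hm
    rw [h.irr.maximalIdeal_eq, Ideal.mem_span_singleton'] at hm
    obtain ⟨c, hc⟩ := hm
    have e : s = (s - algebraMap A (chartClosure A E y) (placeEval h s)) +
        algebraMap A (chartClosure A E y) ϖ * algebraMap A (chartClosure A E y) c := by
      rw [← map_mul, mul_comm, hc]
      ring
    rw [e]
    exact 𝔪.add_mem hsub (𝔪.mul_mem_right _ h.pi_mem)
  · intro hs
    by_contra hnm
    have hu : IsUnit (placeEval h s) := by
      by_contra hnu
      exact hnm ((mem_maximalIdeal _).2 hnu)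
    apply ssp_unit_not_mem h.isMax hu
    have e : algebraMap A (chartClosure A E y) (placeEval h s) =
        s - (s - algebraMap A (chartClosure A E y) (placeEval h s)) := by ring
    rw [e]
    exact 𝔪.sub_mem hs hsub

/-- An element of `B(y)` is a non-unit of `V` if and only if its value is zero. -/
theorem placeEval_eq_zero_iff (h : IsRatCentred ϖ y 𝔪 V) (s : chartClosure A E y) :
    placeEval h s = 0 ↔ (s : E) ∈ V.nonunits := by
  constructor
  · intro h0
    have := placeEval_spec h s
    rwa [h0, map_zero, sub_zero] at this
  · intro hs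
    exact placeEval_eq h (by rwa [map_zero, sub_zero])

/-- Evaluation commutes with bivariate polynomials with coefficients in `A`. -/
theorem placeEval_evalEval (h : IsRatCentred ϖ y 𝔪 V) (P : A[X][Y])
    (s t : chartClosure A E y) :
    placeEval h ((P.map (mapRingHom (algebraMap A (chartClosure A E y)))).evalEval s t) =
      P.evalEval (placeEval h s) (placeEval h t) := by
  have h1 := map_mapRingHom_evalEval (f := (placeEval h : chartClosure A E y →+* A))
    (p := P.map (mapRingHom (algebraMap A (chartClosure A E y)))) s t
  rw [Polynomial.map_map, mapRingHom_comp] at h1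
  have hcomp : ((placeEval h : chartClosure A E y →+* A)).comp
      (algebraMap A (chartClosure A E y)) = RingHom.id A := by
    ext a
    exact (placeEval h).commutes a
  rw [hcomp] at h1
  have hid : P.map (mapRingHom (RingHom.id A)) = P := by
    have : mapRingHom (RingHom.id A) = RingHom.id A[X] := by
      ext <;> simp
    rw [this, Polynomial.map_id]
  rw [hid] at h1
  exact h1.symm

end Eval

end Fermat.Agent.H59.SS
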