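import Mathlib
import Fermat.Agent.H59.SS.PlaceEval

/-!
# P-SS, row SSH-9 (supersingular points), part 2: the values `(H(V), H_q(V))` (helper59)

`V` a rational place centred at a supersingular maximal ideal `𝔪` of `B(y)`:
`H, H_q ∈ B(y)` satisfy the equation `Φ(H, H_q) = 0`, `Φ = D (Y - X^q)(X - Y^q) - q Ψ`, with
`D(H,H_q), Ψ(H,H_q) ∉ 𝔪` and `X = H_q - H^q ∈ 𝔪`, `Y = H - H_q^q ∈ 𝔪`.

* `ssTube_point` : the values `(a, b) = (H(V), H_q(V)) ∈ A²` form a point of the tube
  (all hypotheses of `Fermat.Agent.H60.SS.tube_pd_ne_zero`, `tube_injective_curve`).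
* `ssTube_values_unique` : if `V'` is ANY place centred at `𝔪` (rational or not) at which
  `X - X(V)` vanishes, then `H - a` and `H_q - b` vanish at `V'`.
-/

set_option autoImplicit false
set_option linter.unusedSectionVars false
set_option linter.style.haveILetI false

noncomputable section

namespace Fermat.Agent.H59.SS

open Polynomial IsLocalRing
open scoped Polynomial.Bivariate
open Fermat.Agent.H22.KL Fermat.Agent.H45 Fermat.Agent.H60.SS

section MapLemmas

variable {R S : Type*} [CommRing R] [CommRing S]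

theorem ssp_tubeKernel_map (f : R →+* S) (q : ℕ) :
    (tubeKernel R q).map (mapRingHom f) = tubeKernel S q := by
  simp [tubeKernel, Polynomial.map_mul, Polynomial.map_sub, Polynomial.map_pow]

theorem ssp_tubeEq_map (f : R →+* S) (q : ℕ) (D Ψ : R[X][Y]) :
    (D * tubeKernel R q - C (C (q : R)) * Ψ).map (mapRingHom f) =
      D.map (mapRingHom f) * tubeKernel S q - C (C (q : S)) * Ψ.map (mapRingHom f) := by
  rw [Polynomial.map_sub, Polynomial.map_mul, Polynomial.map_mul, ssp_tubeKernel_map]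
  simp

end MapLemmas

section Abstract

universe u v

/-- A local domain receiving `B / P'` in which the image of the prime `𝔪 ⊇ P'` lies in the
maximal ideal. -/
theorem ssp_exists_local_domain {B : Type u} [CommRing B] (𝔪 P' : Ideal B) [𝔪.IsPrime]
    [P'.IsPrime] (hle : P' ≤ 𝔪) :
    ∃ (R : Type u) (_ : CommRing R) (_ : IsDomain R) (_ : IsLocalRing R) (ψ : B →+* R),
      (∀ s : B, ψ s = 0 ↔ s ∈ P') ∧ (∀ s ∈ 𝔪, ψ s ∈ maximalIdeal R) := by
  have h𝔪' : (𝔪.map (Ideal.Quotient.mk P')).IsPrime :=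
    Ideal.map_isPrime_of_surjective Ideal.Quotient.mk_surjective
      (by rw [Ideal.mk_ker]; exact hle)
  have hle' : (𝔪.map (Ideal.Quotient.mk P')).primeCompl ≤ nonZeroDivisors (B ⧸ P') :=
    Ideal.primeCompl_le_nonZeroDivisors _
  refine ⟨Localization.AtPrime (𝔪.map (Ideal.Quotient.mk P')), inferInstance,
    IsLocalization.isDomain_localization hle', inferInstance,
    (algebraMap (B ⧸ P') _).comp (Ideal.Quotient.mk P'), ?_, ?_⟩
  · intro s
    rw [RingHom.comp_apply, IsLocalization.to_map_eq_zero_iff _ hle',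
      Ideal.Quotient.eq_zero_iff_mem]
  · intro s hs
    rw [RingHom.comp_apply]
    exact (IsLocalization.AtPrime.to_map_mem_maximal_iff _
      (𝔪.map (Ideal.Quotient.mk P')) _).2 (Ideal.mem_map_of_mem _ hs)

/-- **The contraction lemma modulo a prime.**  `A` a local domain (the base), `B` an `A`-algebra,
`P' ⊆ 𝔪` primes of `B` with `𝔪` above the maximal ideal of `A` and `q ∉ P'`.  Let `(a, b) ∈ A²`
be a point of the tube and `(H, H_q) ∈ B²` a point of the curve with `H ≡ a` modulo `𝔪` and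
`X(H, H_q) ≡ X(a, b)` modulo `P'`.  Then `H ≡ a` and `H_q ≡ b` modulo `P'`. -/
theorem ssp_contraction_quot {A : Type v} {B : Type u} [CommRing A] [IsLocalRing A]
    [CommRing B] [Algebra A B] (𝔪 P' : Ideal B) [𝔪.IsPrime] [P'.IsPrime] (hle : P' ≤ 𝔪)
    (hA𝔪 : ∀ c ∈ maximalIdeal A, algebraMap A B c ∈ 𝔪) (q : ℕ)
    (hq0 : algebraMap A B ((q : ℕ) : A) ∉ P') (D Ψ : A[X][Y]) (a b : A)
    (hD : IsUnit (D.evalEval a b)) (hΨ : IsUnit (Ψ.evalEval a b))
    (hΦ : (D * tubeKernel A q - C (C (q : A)) * Ψ).evalEval a b = 0)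
    (hX : b - a ^ q ∈ maximalIdeal A) (hY : a - b ^ q ∈ maximalIdeal A) (H Hq : B)
    (hcurve : ((D * tubeKernel A q - C (C (q : A)) * Ψ).map
      (mapRingHom (algebraMap A B))).evalEval H Hq = 0)
    (haa : H - algebraMap A B a ∈ 𝔪)
    (hXX : (Hq - H ^ q) - algebraMap A B (b - a ^ q) ∈ P') :
    H - algebraMap A B a ∈ P' ∧ Hq - algebraMap A B b ∈ P' := by
  obtain ⟨R, _, _, _, ψ, hψ0, hψmax⟩ := ssp_exists_local_domain 𝔪 P' hle
  set f : A →+* R := ψ.comp (algebraMap A B) with hf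
  have hfmax : ∀ c : A, c ∈ maximalIdeal A → f c ∈ maximalIdeal R := fun c hc =>
    hψmax _ (hA𝔪 c hc)
  have hq0R : ((q : ℕ) : R) ≠ 0 := by
    intro h0
    apply hq0
    rw [← hψ0]
    have : ψ (algebraMap A B ((q : ℕ) : A)) = ((q : ℕ) : R) := by
      rw [map_natCast, map_natCast]
    rw [this, h0]
  have hD' : IsUnit ((D.map (mapRingHom f)).evalEval (f a) (f b)) := by
    rw [map_mapRingHom_evalEval]
    exact hD.map f
  have hΨ' : IsUnit ((Ψ.map (mapRingHom f)).evalEval (f a) (f b)) := by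
    rw [map_mapRingHom_evalEval]
    exact hΨ.map f
  have hΦ' : (D.map (mapRingHom f) * tubeKernel R q -
      C (C ((q : ℕ) : R)) * Ψ.map (mapRingHom f)).evalEval (f a) (f b) = 0 := by
    rw [← ssp_tubeEq_map, map_mapRingHom_evalEval, hΦ, map_zero]
  have hΦ'' : (D.map (mapRingHom f) * tubeKernel R q -
      C (C ((q : ℕ) : R)) * Ψ.map (mapRingHom f)).evalEval (ψ H) (ψ Hq) = 0 := by
    rw [← ssp_tubeEq_map]
    have e : (D * tubeKernel A q - C (C (q : A)) * Ψ).map (mapRingHom f) =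
        ((D * tubeKernel A q - C (C (q : A)) * Ψ).map
          (mapRingHom (algebraMap A B))).map (mapRingHom ψ) := by
      rw [Polynomial.map_map, mapRingHom_comp]
    rw [e, map_mapRingHom_evalEval, hcurve, map_zero]
  have hX' : f b - f a ^ q ∈ maximalIdeal R := by
    rw [← map_pow, ← map_sub]
    exact hfmax _ hX
  have hY' : f a - f b ^ q ∈ maximalIdeal R := by
    rw [← map_pow, ← map_sub]
    exact hfmax _ hY
  have haa' : f a - ψ H ∈ maximalIdeal R := by
    have e : f a - ψ H = -ψ (H - algebraMap A B a) := by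
      rw [map_sub, hf, RingHom.comp_apply]
      ring
    rw [e]
    exact neg_mem (hψmax _ haa)
  have hXX' : f b - f a ^ q = ψ Hq - ψ H ^ q := by
    have e1 : ψ ((Hq - H ^ q) - algebraMap A B (b - a ^ q)) = 0 := (hψ0 _).2 hXX
    rw [map_sub, map_sub, map_pow, sub_eq_zero] at e1
    rw [e1, ← map_pow, ← map_sub, hf, RingHom.comp_apply]
  obtain ⟨e1, e2⟩ := tube_injective_curve q hq0R (D.map (mapRingHom f)) (Ψ.map (mapRingHom f))
    hD' hΨ' hΦ' hΦ'' hX' hY' haa' hXX'
  constructor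
  · rw [← hψ0, map_sub, ← e1, hf, RingHom.comp_apply, sub_self]
  · rw [← hψ0, map_sub, ← e2, hf, RingHom.comp_apply, sub_self]

end Abstract

/-- The centre of a finite place on `B(y)`. -/
theorem ssp_centre {A : Type} [CommRing A] {E : Type} [Field E] [Algebra A E] {y : E}
    {V' : ValuationSubring E} (hV' : IsFinitePlace A E y V') :
    ∃ P' : Ideal (chartClosure A E y), P'.IsPrime ∧
      ∀ s : chartClosure A E y, s ∈ P' ↔ (s : E) ∈ V'.nonunits := by
  let ι : chartClosure A E y →+* V' :=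
    { toFun := fun s => ⟨(s : E), ssp_chartClosure_le hV' s.2⟩
      map_one' := rfl
      map_mul' := fun _ _ => rfl
      map_zero' := rfl
      map_add' := fun _ _ => rfl }
  refine ⟨(maximalIdeal V').comap ι, Ideal.comap_isPrime ι _, ?_⟩
  intro s
  rw [Ideal.mem_comap, ← ValuationSubring.coe_mem_nonunits_iff]
  rfl

section Tube

variable {A : Type} [CommRing A] [IsDomain A] [IsDiscreteValuationRing A]
  {E : Type} [Field E] [Algebra A E]
  {ϖ : A} {y : E} {𝔪 : Ideal (chartClosure A E y)} {V : ValuationSubring E}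

/-- **Supersingular data** at the maximal ideal `𝔪` of `B(y)`: `H, H_q ∈ B(y)` on the curve
`Φ = D (Y - X^q)(X - Y^q) - q Ψ = 0` with `D(H,H_q), Ψ(H,H_q) ∉ 𝔪` and
`X = H_q - H^q ∈ 𝔪`, `Y = H - H_q^q ∈ 𝔪`. -/
structure IsSSData (𝔪 : Ideal (chartClosure A E y)) (q : ℕ) (D Ψ : A[X][Y])
    (H Hq : chartClosure A E y) : Prop where
  /-- the equation of the curve -/
  curve : ((D * tubeKernel A q - C (C (q : A)) * Ψ).map
    (mapRingHom (algebraMap A (chartClosure A E y)))).evalEval H Hq = 0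
  /-- the denominator is a unit at `𝔪` -/
  D_not_mem : (D.map (mapRingHom (algebraMap A (chartClosure A E y)))).evalEval H Hq ∉ 𝔪
  /-- the remainder is a unit at `𝔪` -/
  Ψ_not_mem : (Ψ.map (mapRingHom (algebraMap A (chartClosure A E y)))).evalEval H Hq ∉ 𝔪
  /-- `X ∈ 𝔪` -/
  X_mem : Hq - H ^ q ∈ 𝔪
  /-- `Y ∈ 𝔪` -/
  Y_mem : H - Hq ^ q ∈ 𝔪

/-- The tube point `(a, b) = (H(V), H_q(V))` attached to a rational place centred at a
supersingular maximal ideal. -/
theorem ssTube_point (h : IsRatCentred ϖ y 𝔪 V) {q : ℕ} {D Ψ : A[X][Y]}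
    {H Hq : chartClosure A E y} (hs : IsSSData 𝔪 q D Ψ H Hq) :
    IsUnit (D.evalEval (placeEval h H) (placeEval h Hq)) ∧
    IsUnit (Ψ.evalEval (placeEval h H) (placeEval h Hq)) ∧
    (D * tubeKernel A q - C (C (q : A)) * Ψ).evalEval (placeEval h H) (placeEval h Hq) = 0 ∧
    placeEval h Hq - placeEval h H ^ q ∈ maximalIdeal A ∧
    placeEval h H - placeEval h Hq ^ q ∈ maximalIdeal A := by
  have hunit : ∀ P : A[X][Y],
      (P.map (mapRingHom (algebraMap A (chartClosure A E y)))).evalEval H Hq ∉ 𝔪 →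
      IsUnit (P.evalEval (placeEval h H) (placeEval h Hq)) := by
    intro P hP
    by_contra hnu
    apply hP
    rw [← placeEval_mem_maximalIdeal_iff h, placeEval_evalEval]
    exact (mem_maximalIdeal _).2 hnu
  refine ⟨hunit D hs.D_not_mem, hunit Ψ hs.Ψ_not_mem, ?_, ?_, ?_⟩
  · rw [← placeEval_evalEval, hs.curve, map_zero]
  · have := (placeEval_mem_maximalIdeal_iff h _).2 hs.X_mem
    rwa [map_sub, map_pow] at this
  · have := (placeEval_mem_maximalIdeal_iff h _).2 hs.Y_mem
    rwa [map_sub, map_pow] at this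

/-- The constants of the maximal ideal of `A` lie in `𝔪`. -/
theorem ssp_algebraMap_mem_of_mem (h : IsRatCentred ϖ y 𝔪 V) {c : A}
    (hc : c ∈ maximalIdeal A) : algebraMap A (chartClosure A E y) c ∈ 𝔪 := by
  rw [← placeEval_mem_maximalIdeal_iff h, AlgHom.commutes]
  exact hc

/-- **Uniqueness of the values on the tube, against all places.**  Let `V` be a rational place
centred at the supersingular maximal ideal `𝔪`, with values `(a, b) = (H(V), H_q(V))`.  If `V'`
is any place centred at `𝔪` such that `X - X(V)` is a non-unit of `V'`, then `H - a` and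
`H_q - b` are non-units of `V'`. -/
theorem ssTube_values_unique (h : IsRatCentred ϖ y 𝔪 V) {q : ℕ} (hq0 : (q : A) ≠ 0)
    {D Ψ : A[X][Y]} {H Hq : chartClosure A E y} (hs : IsSSData 𝔪 q D Ψ H Hq)
    {V' : ValuationSubring E} (hV' : CentredAt A E y 𝔪 V')
    (hXV' : ((Hq : E) - (H : E) ^ q) -
      algebraMap A E (placeEval h Hq - placeEval h H ^ q) ∈ V'.nonunits) :
    (H : E) - algebraMap A E (placeEval h H) ∈ V'.nonunits ∧
    (Hq : E) - algebraMap A E (placeEval h Hq) ∈ V'.nonunits := by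
  obtain ⟨hDu, hΨu, hΦ0, hXm, hYm⟩ := ssTube_point h hs
  obtain ⟨P', hP'prime, hP'mem⟩ := ssp_centre hV'.1
  haveI := hP'prime
  haveI := h.isMax.isPrime
  have hP'le : P' ≤ 𝔪 := fun s hs' => hV'.2 s ((hP'mem s).1 hs')
  have hq0' : algebraMap A (chartClosure A E y) ((q : ℕ) : A) ∉ P' := by
    rw [hP'mem]
    exact ssp_algebraMap_not_mem_nonunits h.inj hV'.1.1 hq0
  have haa : H - algebraMap A (chartClosure A E y) (placeEval h H) ∈ 𝔪 :=
    h.centred.2 _ (placeEval_spec h H)
  have hXX : (Hq - H ^ q) - algebraMap A (chartClosure A E y)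
      (placeEval h Hq - placeEval h H ^ q) ∈ P' := by
    rw [hP'mem]
    exact hXV'
  obtain ⟨e1, e2⟩ := ssp_contraction_quot 𝔪 P' hP'le
    (fun c hc => ssp_algebraMap_mem_of_mem h hc) q hq0' D Ψ _ _ hDu hΨu hΦ0 hXm hYm H Hq
    hs.curve haa hXX
  exact ⟨(hP'mem _).1 e1, (hP'mem _).1 e2⟩

end Tube

end Fermat.Agent.H59.SS
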