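import Mathlib
import Fermat.Agent.H59.SS.TubeValues
import Fermat.Agent.H59.SS.KummerDed
import Fermat.Agent.H88.KL.KummerBranch

/-!
# P-SS, row SSH-9 : SUPERSINGULAR POINTS (helper59)

Setting: `A` a DVR with uniformiser `ϖ`, `E` (level `q M'`) a finite extension of `E'`
(level `M'`), `y` a chart coordinate of `E`, `B = chartClosure A E y`, `𝔪 ∋ ϖ` a maximal ideal of
`B` which is SUPERSINGULAR (`IsSSData`): `H, H_q ∈ B` with `Φ(H, H_q) = 0`,
`Φ = D (Y - X^q)(X - Y^q) - q Ψ`, `D(H,H_q), Ψ(H,H_q) ∉ 𝔪`, `X = H_q - H^q ∈ 𝔪`,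
`Y = H - H_q^q ∈ 𝔪`; `H` comes from `E'` and `E = E'[H_q]`.

Input from level `M'` (`SSLocA`, the output shape of the ordinary/étale rows at level `M'` with
coordinate `H`): a place of `E` centred at `𝔪` at which `H - a₀` vanishes restricts to a place of
`E'` with uniformiser `H - a₀`, and this restriction depends only on `a₀`.

Output (`ssPoint_main`): for every RATIONAL place `V` centred at `𝔪`, with `a = X(V) ∈ A`:
* `X - a` is a uniformiser of `V`;
* every place `V'` centred at `𝔪` (rational or not) with `X - a ∈ 𝔪_{V'}` is equal to `V`.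
-/

set_option autoImplicit false
set_option linter.unusedSectionVars false
set_option linter.style.haveILetI false

noncomputable section

namespace Fermat.Agent.H59.SS

open Polynomial IsLocalRing
open scoped Polynomial.Bivariate
open Fermat.Agent.H22.KL Fermat.Agent.H45 Fermat.Agent.H60.SS Fermat.Agent.H88.KLB

section Unif

variable {E : Type} [Field E]

/-- An element with the valuation of a uniformiser is a uniformiser. -/
theorem ssp_isUniformiser_of_val_eq {V : ValuationSubring E} {t t' : E}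
    (ht : IsUniformiser E V t) (h : V.valuation t' = V.valuation t) : IsUniformiser E V t' := by
  obtain ⟨h0, h1, h2⟩ := ht
  have hv0 : V.valuation t ≠ 0 := (Valuation.ne_zero_iff _).2 h0
  refine ⟨?_, ?_, ?_⟩
  · intro h0'
    rw [h0', map_zero] at h
    exact hv0 h.symm
  · rw [ValuationSubring.mem_nonunits_iff, h, ← ValuationSubring.mem_nonunits_iff]
    exact h1
  · intro z hz
    rw [← V.valuation_le_one_iff, map_div₀, h, ← map_div₀, V.valuation_le_one_iff]
    exact h2 z hz

/-- The base data of the Kummer–Dedekind lemma from a place with a uniformiser. -/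
theorem ssp_kdBase {W : ValuationSubring E} (htop : W ≠ ⊤) (hpir : IsPrincipalIdealRing W)
    {t : W} (ht : IsUniformiser E W (t : E)) : KDBase W t := by
  obtain ⟨t₀, h₀⟩ := exists_discAt (presents_valuation W) htop hpir
  have hd := h₀.of_isUniformiser (presents_valuation W) ht
  refine ⟨?_, ?_, ?_, ?_⟩
  · intro h0
    exact ht.1 (by rw [h0]; rfl)
  · intro hu
    have : t ∈ maximalIdeal W := ValuationSubring.coe_mem_nonunits_iff.1 ht.2.1
    exact (mem_maximalIdeal _).1 this hu
  · intro w hw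
    have hw' : (w : E) ∈ W.nonunits :=
      ValuationSubring.coe_mem_nonunits_iff.2 ((mem_maximalIdeal _).2 hw)
    refine ⟨⟨(w : E) / (t : E), ht.2.2 _ hw'⟩, ?_⟩
    apply Subtype.ext
    show (w : E) = (t : E) * ((w : E) / (t : E))
    rw [mul_div_cancel₀ _ ht.1]
  · intro c
    rcases eq_or_ne c 0 with rfl | hc
    · exact ⟨0, by rw [zero_mul]; exact W.zero_mem⟩
    · obtain ⟨k, hk⟩ := hd.2.2 c hc
      refine ⟨(-k).toNat, ?_⟩
      rw [← W.valuation_le_one_iff, map_mul, map_pow, hk, ← zpow_natCast, ← zpow_add₀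
        ((Valuation.ne_zero_iff _).2 hd.1)]
      rw [hd.zpow_le_one_iff]
      have := Int.self_le_toNat (-k)
      omega

end Unif

section EvalLemma

variable {R S : Type*} [CommRing R] [CommRing S]

/-- `evalEval` of a mapped bivariate polynomial as an `eval₂`. -/
theorem ssp_evalEval_map_eq_eval₂ (f : R →+* S) (x y : S) (p : R[X][Y]) :
    (p.map (mapRingHom f)).evalEval x y = p.eval₂ (eval₂RingHom f x) y := by
  have h1 : (evalRingHom x).comp (mapRingHom f) = eval₂RingHom f x := by
    apply Polynomial.ringHom_ext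
    · intro a
      simp
    · simp
  rw [← h1]
  unfold evalEval
  rw [Polynomial.eval_map, ← coe_evalRingHom, Polynomial.hom_eval₂, coe_evalRingHom, eval_C]

end EvalLemma

section Main

variable {A : Type} [CommRing A] [IsDomain A] [IsDiscreteValuationRing A]
  {E' E : Type} [Field E'] [Field E] [Algebra A E'] [Algebra A E] [Algebra E' E]
  [IsScalarTower A E' E]

/-- **The level-`M'` input** (`LOC-a`): a place `V₁` of `E` centred at `𝔪` at which `H - a₀`
vanishes restricts to a place of `E'` with uniformiser `H' - a₀`, and the restriction depends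
only on `a₀`.  This is the output shape of the étale/ordinary rows at level `M'` with coordinate
`H'`, for the maximal ideal `𝔪 ∩ B'`. -/
def SSLocA (A : Type) [CommRing A] (E' E : Type) [Field E'] [Field E] [Algebra A E']
    [Algebra A E] [Algebra E' E] (y : E) (𝔪 : Ideal (chartClosure A E y)) (H' : E') : Prop :=
  ∀ V₁ : ValuationSubring E, CentredAt A E y 𝔪 V₁ → ∀ a₀ : A,
    algebraMap E' E H' - algebraMap A E a₀ ∈ V₁.nonunits →
    IsUniformiser E' (V₁.comap (algebraMap E' E)) (H' - algebraMap A E' a₀) ∧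
    ∀ V₂ : ValuationSubring E, CentredAt A E y 𝔪 V₂ →
      algebraMap E' E H' - algebraMap A E a₀ ∈ V₂.nonunits →
      V₂.comap (algebraMap E' E) = V₁.comap (algebraMap E' E)

variable {ϖ : A} {y : E} {𝔪 : Ideal (chartClosure A E y)} {V : ValuationSubring E}

/-- The curve equation in `E`, as an `eval₂`. -/
theorem ssp_curve_eval₂ {q : ℕ} {D Ψ : A[X][Y]} {H Hq : chartClosure A E y}
    (hs : IsSSData 𝔪 q D Ψ H Hq) :
    (D * tubeKernel A q - C (C (q : A)) * Ψ).eval₂
      (eval₂RingHom (algebraMap A E) (H : E)) (Hq : E) = 0 := by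
  rw [← ssp_evalEval_map_eq_eval₂]
  have h1 := map_mapRingHom_evalEval (f := (chartClosure A E y).val.toRingHom)
    (p := (D * tubeKernel A q - C (C (q : A)) * Ψ).map
      (mapRingHom (algebraMap A (chartClosure A E y)))) H Hq
  rw [Polynomial.map_map, mapRingHom_comp, hs.curve, map_zero] at h1
  exact h1

/-- **(LOC)**: under the level-`M'` input and `E = E'[H_q]`, a rational place `V` centred at the
supersingular `𝔪` has uniformiser `H - H(V)`, and it is the only place centred at `𝔪` at which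
`H - H(V)` and `H_q - H_q(V)` vanish. -/
theorem ssPoint_loc [Algebra.IsAlgebraic E' E] (h : IsRatCentred ϖ y 𝔪 V) {q : ℕ}
    (hq0 : (q : A) ≠ 0) {D Ψ : A[X][Y]} {H Hq : chartClosure A E y}
    (hs : IsSSData 𝔪 q D Ψ H Hq) {H' : E'} (hH' : (H : E) = algebraMap E' E H')
    (hgen : Algebra.adjoin E' ({(Hq : E)} : Set E) = ⊤)
    (hLoc : SSLocA A E' E y 𝔪 H') :
    IsUniformiser E V ((H : E) - algebraMap A E (placeEval h H)) ∧
    ∀ V' : ValuationSubring E, CentredAt A E y 𝔪 V' →
      (H : E) - algebraMap A E (placeEval h H) ∈ V'.nonunits →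
      (Hq : E) - algebraMap A E (placeEval h Hq) ∈ V'.nonunits → V' = V := by
  obtain ⟨hDu, hΨu, hΦ0, hXm, hYm⟩ := ssTube_point h hs
  obtain ⟨-, hpdY, -⟩ := tube_pd_ne_zero q hq0 D Ψ _ _ hDu hΨu hΦ0 hXm hYm
  set a₀ := placeEval h H with ha₀
  set b₀ := placeEval h Hq with hb₀
  set Φ := D * tubeKernel A q - C (C (q : A)) * Ψ with hΦ
  have hHa : algebraMap E' E H' - algebraMap A E a₀ ∈ V.nonunits := by
    rw [← hH']
    exact placeEval_spec h H
  obtain ⟨hunif, hrestr⟩ := hLoc V h.centred a₀ hHa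
  set W : ValuationSubring E' := V.comap (algebraMap E' E) with hW
  have hWplace : IsPlace A E' W := isPlace_comap h.isPlace
  -- the coefficient homomorphisms
  have hAW : ∀ a : A, algebraMap A E' a ∈ W := fun a => ssp_algebraMap_mem hWplace a
  have hH'W : H' ∈ W := by
    show algebraMap E' E H' ∈ V
    rw [← hH']
    exact h.mem H
  let algW : A →+* W := (algebraMap A E').codRestrict W.toSubring hAW
  let θ : A[X] →+* W := eval₂RingHom algW ⟨H', hH'W⟩
  have hθC : ∀ a : A, ((θ (C a) : W) : E') = algebraMap A E' a := by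
    intro a
    show ((eval₂ algW ⟨H', hH'W⟩ (C a) : W) : E') = _
    rw [eval₂_C]
    rfl
  have hθX : ((θ X : W) : E') = H' := by
    show ((eval₂ algW ⟨H', hH'W⟩ X : W) : E') = _
    rw [eval₂_X]
  have hcomp : (kdHom (L := E) W).comp θ = eval₂RingHom (algebraMap A E) (H : E) := by
    apply Polynomial.ringHom_ext
    · intro a
      rw [RingHom.comp_apply, kdHom_apply, hθC, ← IsScalarTower.algebraMap_apply]
      simp
    · rw [RingHom.comp_apply, kdHom_apply, hθX, ← hH']
      simp
  -- the data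
  set t : W := θ (X - C a₀) with ht
  have htE : (t : E') = H' - algebraMap A E' a₀ := by
    rw [ht, map_sub]
    show ((θ X : W) : E') - ((θ (C a₀) : W) : E') = _
    rw [hθX, hθC]
  set b : W := θ (C b₀) with hb
  have hbE : (b : E') = algebraMap A E' b₀ := hθC b₀
  set P : W[X] := Φ.map θ with hP
  have hbase : KDBase W t := by
    refine ssp_kdBase hWplace.1 hWplace.2.1 ?_
    rw [htE]
    exact hunif
  have hroot : P.eval₂ (kdHom W) (Hq : E) = 0 := by
    rw [hP, Polynomial.eval₂_map, hcomp]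
    exact ssp_curve_eval₂ hs
  have hsimple : IsUnit (P.derivative.eval b) := by
    rw [hP, Polynomial.derivative_map, hb, Polynomial.eval_map_apply]
    set r : A[X] := (derivative Φ).eval (C b₀) with hr
    have hra : r.eval a₀ = pdY Φ a₀ b₀ := rfl
    obtain ⟨s, hs'⟩ := X_sub_C_dvd_sub_C_eval (a := a₀) (p := r)
    have e : θ r = θ (C (r.eval a₀)) + t * θ s := by
      rw [ht, ← map_mul, ← hs', ← map_add]
      congr 1
      ring
    rw [e]
    refine isUnit_add_of_mem ?_ (Ideal.mul_mem_right _ _ ?_)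
    · by_contra hnu
      have hm : θ (C (r.eval a₀)) ∈ maximalIdeal W := (mem_maximalIdeal _).2 hnu
      rw [← ValuationSubring.coe_mem_nonunits_iff, hθC, mem_nonunits_comap,
        ← IsScalarTower.algebraMap_apply] at hm
      rw [hra] at hm
      exact ssp_algebraMap_not_mem_nonunits h.inj h.isPlace hpdY hm
    · rw [← ValuationSubring.coe_mem_nonunits_iff, htE]
      exact hunif.2.1
  have hcongV : ∀ V₁ : ValuationSubring E,
      (Hq : E) - algebraMap A E b₀ ∈ V₁.nonunits →
      (Hq : E) - algebraMap E' E (b : E') ∈ V₁.nonunits := by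
    intro V₁ hV₁
    rw [hbE, ← IsScalarTower.algebraMap_apply]
    exact hV₁
  have hdata : KDData W t (Hq : E) b P V :=
    ⟨hbase, rfl, hcongV V (placeEval_spec h Hq), hroot, hsimple, hgen⟩
  have htH : kdHom (L := E) W t = (H : E) - algebraMap A E a₀ := by
    rw [kdHom_apply, htE, map_sub, ← hH', ← IsScalarTower.algebraMap_apply]
  refine ⟨⟨?_, placeEval_spec h H, ?_⟩, ?_⟩
  · rw [← htH, kdHom_apply]
    exact (_root_.map_ne_zero _).2 (fun h0 => hbase.ne_zero (Subtype.ext h0))
  · intro z hz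
    rw [← htH]
    exact hdata.div_mem hz
  · intro V' hV' hHV' hHqV'
    have hcomap : V'.comap (algebraMap E' E) = W := by
      apply hrestr V' hV'
      rw [← hH']
      exact hHV'
    have hdata' : KDData W t (Hq : E) b P V' :=
      ⟨hbase, hcomap, hcongV V' hHqV', hroot, hsimple, hgen⟩
    exact (hdata.unique hdata').symm

/-- **SSH-9, SUPERSINGULAR POINTS.**  Let `V` be a rational place centred at the supersingular
maximal ideal `𝔪`, and `a = X(V) ∈ A` the value of `X = H_q - H^q` at `V`.  Then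

* `X - a` is a uniformiser of `V` (simple zero);
* every place `V'` centred at `𝔪` (rational or not) at which `X - a` vanishes is equal to `V`
  (injectivity of the tube coordinate `X`). -/
theorem ssPoint_main [Algebra.IsAlgebraic E' E] (h : IsRatCentred ϖ y 𝔪 V) {q : ℕ}
    (hq0 : (q : A) ≠ 0) {D Ψ : A[X][Y]} {H Hq : chartClosure A E y}
    (hs : IsSSData 𝔪 q D Ψ H Hq) {H' : E'} (hH' : (H : E) = algebraMap E' E H')
    (hgen : Algebra.adjoin E' ({(Hq : E)} : Set E) = ⊤)
    (hLoc : SSLocA A E' E y 𝔪 H') :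
    IsUniformiser E V (((Hq - H ^ q : chartClosure A E y) : E) -
      algebraMap A E (placeEval h (Hq - H ^ q))) ∧
    ∀ V' : ValuationSubring E, CentredAt A E y 𝔪 V' →
      ((Hq - H ^ q : chartClosure A E y) : E) -
        algebraMap A E (placeEval h (Hq - H ^ q)) ∈ V'.nonunits → V' = V := by
  obtain ⟨hDu, hΨu, hΦ0, hXm, hYm⟩ := ssTube_point h hs
  obtain ⟨hunif, huniq⟩ := ssPoint_loc h hq0 hs hH' hgen hLoc
  have hXE : ((Hq - H ^ q : chartClosure A E y) : E) = (Hq : E) - (H : E) ^ q := rfl
  have hXa : placeEval h (Hq - H ^ q) = placeEval h Hq - placeEval h H ^ q := by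
    rw [map_sub, map_pow]
  rw [hXE, hXa]
  constructor
  · refine ssp_isUniformiser_of_val_eq hunif ?_
    have hcurve : ((D * tubeKernel A q - C (C (q : A)) * Ψ).map
        (mapRingHom (algebraMap A E))).evalEval (H : E) (Hq : E) = 0 := by
      rw [ssp_evalEval_map_eq_eval₂]
      exact ssp_curve_eval₂ hs
    exact tube_simple_zero_val V (algebraMap A E)
      (fun x hx => ssp_valuation_algebraMap h.inj h.isPlace hx) q hq0 D Ψ _ _ hDu hΨu hΦ0 hXm hYm
      (H : E) (Hq : E)
      ((ValuationSubring.mem_nonunits_iff V).1 (placeEval_spec h H))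
      ((ValuationSubring.mem_nonunits_iff V).1 (placeEval_spec h Hq)) hcurve
  · intro V' hV' hX'
    obtain ⟨e1, e2⟩ := ssTube_values_unique h hq0 hs hV' hX'
    exact huniq V' hV' e1 e2

/-- **The level-`M'` tube** at a maximal ideal `𝔪'` of `B' = chartClosure A E' y'` with
coordinate `H'`: a place `W` centred at `𝔪'` at which `H' - a₀` vanishes has uniformiser
`H' - a₀` and is determined by `a₀`.  (Output shape of the étale / ordinary rows.) -/
def LevelTube (A : Type) [CommRing A] (E' : Type) [Field E'] [Algebra A E'] (y' : E')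
    (𝔪' : Ideal (chartClosure A E' y')) (H' : E') : Prop :=
  ∀ W : ValuationSubring E', CentredAt A E' y' 𝔪' W → ∀ a₀ : A,
    H' - algebraMap A E' a₀ ∈ W.nonunits →
    IsUniformiser E' W (H' - algebraMap A E' a₀) ∧
    ∀ W' : ValuationSubring E', CentredAt A E' y' 𝔪' W' →
      H' - algebraMap A E' a₀ ∈ W'.nonunits → W' = W

/-- The level-`M'` tube at `𝔪' ⊇ 𝔪 ∩ B'` gives the input `SSLocA` of `ssPoint_main`. -/
theorem ssLocA_of_levelTube [Algebra.IsAlgebraic E' E] (y' : E')
    (𝔪 : Ideal (chartClosure A E (algebraMap E' E y'))) (𝔪' : Ideal (chartClosure A E' y'))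
    (h𝔪' : ∀ (s' : chartClosure A E' y') (s : chartClosure A E (algebraMap E' E y')),
      (s : E) = algebraMap E' E (s' : E') → s ∈ 𝔪 → s' ∈ 𝔪')
    (H' : E') (hT : LevelTube A E' y' 𝔪' H') :
    SSLocA A E' E (algebraMap E' E y') 𝔪 H' := by
  have hcentre : ∀ V₁ : ValuationSubring E, CentredAt A E (algebraMap E' E y') 𝔪 V₁ →
      CentredAt A E' y' 𝔪' (V₁.comap (algebraMap E' E)) := by
    intro V₁ hV₁
    refine ⟨isFinitePlace_comap y' hV₁.1, ?_⟩
    intro s' hs'
    rw [mem_nonunits_comap] at hs'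
    have hmem : algebraMap E' E (s' : E') ∈ chartClosure A E (algebraMap E' E y') :=
      klss_map_chartClosure_le y' ⟨(s' : E'), s'.2, rfl⟩
    exact h𝔪' s' ⟨_, hmem⟩ rfl (hV₁.2 ⟨_, hmem⟩ hs')
  intro V₁ hV₁ a₀ ha₀
  have hn : ∀ V₂ : ValuationSubring E,
      algebraMap E' E H' - algebraMap A E a₀ ∈ V₂.nonunits →
      H' - algebraMap A E' a₀ ∈ (V₂.comap (algebraMap E' E)).nonunits := by
    intro V₂ h2
    rw [mem_nonunits_comap, map_sub, ← IsScalarTower.algebraMap_apply]
    exact h2
  obtain ⟨h1, h2⟩ := hT _ (hcentre V₁ hV₁) a₀ (hn V₁ ha₀)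
  exact ⟨h1, fun V₂ hV₂ ha₂ => h2 _ (hcentre V₂ hV₂) (hn V₂ ha₂)⟩

end Main

end Fermat.Agent.H59.SS
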