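import Mathlib
import Fermat.Agent.H59.SS.SSPoint
import Fermat.Agent.H45.SS.Model
import Fermat.Agent.H8.SS.Haupt4Kronecker

/-!
# P-SS, rows SSH-6 + SSH-9 : `SSPlaceGenCrossStatement` from three model inputs (helper59)

* `placeGenAt_of_ss` (abstract): `ssPoint_main` gives `Fermat.Agent.H45.PlaceGenAt` at a
  supersingular maximal ideal.
* Model inputs, exact Lean form (level `M q`, `4 ∣ M`, `q` odd, chart `x = j`):
  - `SSCrossDataStatement M q` (row SSH-6): at a crossing point `𝔪` the Hauptmodul `H` of level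
    `4` and `H_q = H(t^q)` lie in `B(x)` and form supersingular data (`IsSSData`);
  - `SSLocAModelStatement M q R` (level-`M` tube, chart `H`): `SSLocA` at a crossing point;
  - `SSGenStatement M q` : `E₀ = α(F_M)[H_q]`.
* `ssPlaceGenCross_of` : the three inputs give `Fermat.Agent.H45.SSPlaceGenCrossStatement`.
-/

set_option autoImplicit false
set_option linter.unusedSectionVars false
set_option linter.style.haveILetI false

noncomputable section

namespace Fermat.Agent.H59.SS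

open Polynomial IsLocalRing ModularCurve
open scoped Polynomial.Bivariate
open Fermat.Agent.H22.KL Fermat.Agent.H45 Fermat.Agent.H60.SS Fermat.Agent.H88.KLB
open Fermat.Agent.H82.SS Fermat.Agent.H8.SS

section Abstract

variable {A : Type} [CommRing A] [IsDomain A] [IsDiscreteValuationRing A]
  {E' E : Type} [Field E'] [Field E] [Algebra A E'] [Algebra A E] [Algebra E' E]
  [IsScalarTower A E' E]

/-- **Place generators at a supersingular point** (abstract form of rows SSH-6 + SSH-9). -/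
theorem placeGenAt_of_ss [Algebra.IsAlgebraic E' E] (hinj : Function.Injective (algebraMap A E))
    {ϖ : A} (hϖ : Irreducible ϖ) {y : E} {𝔪 : Ideal (chartClosure A E y)} (h𝔪 : 𝔪.IsMaximal)
    (hϖ𝔪 : algebraMap A (chartClosure A E y) ϖ ∈ 𝔪) {q : ℕ} (hq0 : (q : A) ≠ 0)
    {D Ψ : A[X][Y]} {H Hq : chartClosure A E y} (hs : IsSSData 𝔪 q D Ψ H Hq) {H' : E'}
    (hH' : (H : E) = algebraMap E' E H')
    (hgen : Algebra.adjoin E' ({(Hq : E)} : Set E) = ⊤)
    (hLoc : SSLocA A E' E y 𝔪 H') : PlaceGenAt A E y 𝔪 := by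
  intro V hV hrat
  have h : IsRatCentred ϖ y 𝔪 V := ⟨hinj, hϖ, h𝔪, hϖ𝔪, hV, hrat⟩
  obtain ⟨hunif, huniq⟩ := ssPoint_main h hq0 hs hH' hgen hLoc
  refine ⟨_, hunif, fun V' hV' hne => ?_⟩
  set t : E := ((Hq - H ^ q : chartClosure A E y) : E) -
    algebraMap A E (placeEval h (Hq - H ^ q)) with ht
  have htB : t ∈ chartClosure A E y :=
    Subalgebra.sub_mem _ (Hq - H ^ q).2 (Subalgebra.algebraMap_mem _ _)
  have htV' : t ∈ V' := ssp_chartClosure_le hV'.1 htB
  have hnn : t ∉ V'.nonunits := fun hn => hne (huniq V' hV' hn)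
  rw [ValuationSubring.mem_nonunits_iff_or, not_or, not_not] at hnn
  exact ⟨htV', hnn.2⟩

end Abstract

/-! ## The model -/

section Model

/-- The level-`M` model field as a subfield of the level-`M q` model field (via `α`). -/
abbrev ssAlgLevel (K₁ : Type) [Field K₁] [Algebra ℚ K₁] (M q : ℕ) [NeZero M] [NeZero q] :
    Algebra (ModelField K₁ M) (ModelField K₁ (M * q)) :=
  (heckeAlphaBar K₁ M q).toRingHom.toAlgebra

/-- The canonical `A₀`-algebra structure on the level-`M` model field. -/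
abbrev ssAlgBase (K₁ : Type) [Field K₁] [Algebra ℚ K₁] (M : ℕ) (A₀ : Type) [CommRing A₀]
    [Algebra A₀ K₁] : Algebra A₀ (ModelField K₁ M) :=
  ((algebraMap K₁ (ModelField K₁ M)).comp (algebraMap A₀ K₁)).toAlgebra

/-- **SSH-6, crossing points are supersingular** (model input 1): at a maximal ideal `𝔪 ∋ ϖ` of
`B(x)`, `x = j`, lying on both components, the Hauptmodul `H` of level `4` and `H_q = H(t^q)`
lie in `B(x)` and satisfy `Φ(H, H_q) = 0`, `Φ = D (Y - X^q)(X - Y^q) - q Ψ` with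
`D(H, H_q), Ψ(H, H_q) ∉ 𝔪`, `H_q - H^q ∈ 𝔪`, `H - H_q^q ∈ 𝔪`. -/
def SSCrossDataStatement (M q : ℕ) [NeZero M] [NeZero q] : Prop :=
  ∀ (K₁ : Type) [Field K₁] [Algebra ℚ K₁] [FiniteDimensional ℚ K₁]
    (A₀ : Type) [CommRing A₀] [IsDomain A₀] [IsDiscreteValuationRing A₀]
    [Algebra A₀ K₁] [IsFractionRing A₀ K₁]
    [Algebra A₀ (ModelField K₁ (M * q))] [IsScalarTower A₀ K₁ (ModelField K₁ (M * q))],
    ¬ IsUnit ((q : ℕ) : A₀) →
    ∀ (ϖ : A₀), Irreducible ϖ →
    ∀ (x : ModelField K₁ (M * q)), (x : LaurentSeries K₁) = coeffEmb K₁ jq →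
    ∀ (W : ModelField K₁ (M * q) ≃ₐ[K₁] ModelField K₁ (M * q)), IsAtkinLehnerModel K₁ M q W →
    ∀ 𝔪 : Ideal (chartClosure A₀ (ModelField K₁ (M * q)) x), 𝔪.IsMaximal →
      algebraMap A₀ (chartClosure A₀ (ModelField K₁ (M * q)) x) ϖ ∈ 𝔪 →
      SSOnInfty K₁ (M * q) A₀ ϖ x 𝔪 → SSOnZero K₁ (M * q) A₀ ϖ W x 𝔪 →
      ∃ (D Ψ : A₀[X][Y]) (H Hq : chartClosure A₀ (ModelField K₁ (M * q)) x),
        (((H : ModelField K₁ (M * q)) : LaurentSeries K₁) = h4S K₁) ∧
        (((Hq : ModelField K₁ (M * q)) : LaurentSeries K₁) = qExpand K₁ q (h4S K₁)) ∧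
        IsSSData 𝔪 q D Ψ H Hq

/-- **The level-`M` tube in the chart `H`** (model input 2): at a crossing point `𝔪`, a place of
level `M q` centred at `𝔪` at which `H - a₀` vanishes restricts to a place of level `M` with
uniformiser `H - a₀`, and the restriction depends only on `a₀`.  (From
`LevelTube A₀ (ModelField K₁ M) x' (𝔪 ∩ B_M) H` by `ssLocA_of_levelTube`.) -/
def SSLocAModelStatement (M q : ℕ) [NeZero M] [NeZero q] (R : ℕ) : Prop :=
  ∀ (K₁ : Type) [Field K₁] [Algebra ℚ K₁] [FiniteDimensional ℚ K₁]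
    (A₀ : Type) [CommRing A₀] [IsDomain A₀] [IsDiscreteValuationRing A₀]
    [Algebra A₀ K₁] [IsFractionRing A₀ K₁]
    [Algebra A₀ (ModelField K₁ (M * q))] [IsScalarTower A₀ K₁ (ModelField K₁ (M * q))],
    ¬ IsUnit ((q : ℕ) : A₀) →
    (∃ ζ : K₁, IsPrimitiveRoot ζ R) →
    ∀ (ϖ : A₀), Irreducible ϖ →
    ∀ (x : ModelField K₁ (M * q)), (x : LaurentSeries K₁) = coeffEmb K₁ jq →
    ∀ (W : ModelField K₁ (M * q) ≃ₐ[K₁] ModelField K₁ (M * q)), IsAtkinLehnerModel K₁ M q W →
    ∀ 𝔪 : Ideal (chartClosure A₀ (ModelField K₁ (M * q)) x), 𝔪.IsMaximal →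
      algebraMap A₀ (chartClosure A₀ (ModelField K₁ (M * q)) x) ϖ ∈ 𝔪 →
      SSOnInfty K₁ (M * q) A₀ ϖ x 𝔪 → SSOnZero K₁ (M * q) A₀ ϖ W x 𝔪 →
      ∀ H' : ModelField K₁ M, ((H' : LaurentSeries K₁) = h4S K₁) →
        letI := ssAlgLevel K₁ M q
        letI := ssAlgBase K₁ M A₀
        SSLocA A₀ (ModelField K₁ M) (ModelField K₁ (M * q)) x 𝔪 H'

/-- **Generation** (model input 3): the model field of level `M q` is generated over the model
field of level `M` by `H_q = H(t^q)`. -/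
def SSGenStatement (M q : ℕ) [NeZero M] [NeZero q] : Prop :=
  ∀ (K₁ : Type) [Field K₁] [Algebra ℚ K₁] [FiniteDimensional ℚ K₁],
    letI := ssAlgLevel K₁ M q
    ∀ Hq : ModelField K₁ (M * q), ((Hq : LaurentSeries K₁) = qExpand K₁ q (h4S K₁)) →
      Algebra.adjoin (ModelField K₁ M) ({Hq} : Set (ModelField K₁ (M * q))) = ⊤

/-- **SSH-6 + SSH-9 : place generators at the crossing points**, from the three model inputs. -/
theorem ssPlaceGenCross_of (M q : ℕ) [NeZero M] [NeZero q] (h4 : 4 ∣ M) (R : ℕ)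
    (hData : SSCrossDataStatement M q) (hLocA : SSLocAModelStatement M q R)
    (hGen : SSGenStatement M q) : SSPlaceGenCrossStatement M q jq R := by
  intro K₁ _ _ _ A₀ _ _ _ _ _ _ _ hq hζ ϖ hϖ x hx W hW 𝔪 h𝔪 hϖ𝔪 hInf hZero
  haveI : CharZero K₁ := charZero_of_injective_algebraMap (algebraMap ℚ K₁).injective
  have hinj : Function.Injective (algebraMap A₀ (ModelField K₁ (M * q))) := by
    rw [IsScalarTower.algebraMap_eq A₀ K₁ (ModelField K₁ (M * q))]
    exact (algebraMap K₁ (ModelField K₁ (M * q))).injective.comp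
      (IsFractionRing.injective A₀ K₁)
  have hq0 : ((q : ℕ) : A₀) ≠ 0 := by
    intro h0
    have h1 : algebraMap A₀ K₁ ((q : ℕ) : A₀) = 0 := by rw [h0, map_zero]
    rw [map_natCast] at h1
    exact NeZero.ne q (Nat.cast_injective (R := K₁) (by rw [h1, Nat.cast_zero]))
  obtain ⟨D, Ψ, H, Hq, hH, hHq, hs⟩ := hData K₁ A₀ hq ϖ hϖ x hx W hW 𝔪 h𝔪 hϖ𝔪 hInf hZero
  letI algL := ssAlgLevel K₁ M q
  letI algB := ssAlgBase K₁ M A₀
  haveI tower : IsScalarTower A₀ (ModelField K₁ M) (ModelField K₁ (M * q)) := by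
    refine IsScalarTower.of_algebraMap_eq (fun a => ?_)
    rw [IsScalarTower.algebraMap_apply A₀ K₁ (ModelField K₁ (M * q))]
    exact ((heckeAlphaBar K₁ M q).commutes (algebraMap A₀ K₁ a)).symm
  set H' : ModelField K₁ M := ⟨h4S K₁, h4S_mem_laurentBaseChange K₁ M h4⟩ with hH'def
  have hH' : ((H : ModelField K₁ (M * q))) = algebraMap (ModelField K₁ M) _ H' := by
    apply Subtype.ext
    rw [hH]
    exact (coe_heckeAlphaBar (L := K₁) (N := M) (ℓ := q) H').symm
  have hgen := hGen K₁ (Hq : ModelField K₁ (M * q)) hHq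
  have hLoc := hLocA K₁ A₀ hq hζ ϖ hϖ x hx W hW 𝔪 h𝔪 hϖ𝔪 hInf hZero H' rfl
  -- `E` is algebraic over `E'`
  have hxr : x ∈ (IsScalarTower.toAlgHom A₀ (ModelField K₁ M) (ModelField K₁ (M * q))).range := by
    have hjq : coeffEmb K₁ jq ∈ laurentBaseChange K₁ (modularFunctionFieldFull M) :=
      coeffEmb_mem_laurentBaseChange K₁ (by
        have h := jqd_mem_full M (one_dvd M)
        rwa [qExpand_one_apply] at h)
    refine ⟨⟨coeffEmb K₁ jq, hjq⟩, ?_⟩
    apply Subtype.ext
    rw [hx]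
    exact coe_heckeAlphaBar (L := K₁) (N := M) (ℓ := q) _
  have hle : chartRing A₀ (ModelField K₁ (M * q)) x ≤
      (IsScalarTower.toAlgHom A₀ (ModelField K₁ M) (ModelField K₁ (M * q))).range := by
    unfold chartRing
    rw [Algebra.adjoin_le_iff]
    rintro z hz
    rw [Set.mem_singleton_iff] at hz
    rw [hz]
    exact hxr
  have hHqint : IsIntegral (ModelField K₁ M) (Hq : ModelField K₁ (M * q)) := by
    have h1 : IsIntegral (chartRing A₀ (ModelField K₁ (M * q)) x)
        (Hq : ModelField K₁ (M * q)) := Hq.2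
    have hαinj : Function.Injective
        (IsScalarTower.toAlgHom A₀ (ModelField K₁ M) (ModelField K₁ (M * q))) :=
      (algebraMap (ModelField K₁ M) (ModelField K₁ (M * q))).injective
    let e := AlgEquiv.ofInjective
      (IsScalarTower.toAlgHom A₀ (ModelField K₁ M) (ModelField K₁ (M * q))) hαinj
    let φ : chartRing A₀ (ModelField K₁ (M * q)) x →+* ModelField K₁ M :=
      (e.symm : _ →+* ModelField K₁ M).comp (Subalgebra.inclusion hle).toRingHom
    have hφ : (algebraMap (ModelField K₁ M) (ModelField K₁ (M * q))).comp φ =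
        (RingHom.id (ModelField K₁ (M * q))).comp
          (algebraMap (chartRing A₀ (ModelField K₁ (M * q)) x) (ModelField K₁ (M * q))) := by
      apply RingHom.ext
      intro c
      have h2 : e (e.symm (Subalgebra.inclusion hle c)) = Subalgebra.inclusion hle c :=
        e.apply_symm_apply _
      exact congrArg Subtype.val h2
    exact IsIntegral.map_of_comp_eq φ (RingHom.id _) hφ h1
  haveI : Algebra.IsAlgebraic (ModelField K₁ M) (ModelField K₁ (M * q)) := by
    haveI : Algebra.IsIntegral (ModelField K₁ M) (ModelField K₁ (M * q)) := by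
      refine ⟨fun z => ?_⟩
      have hz : z ∈ Algebra.adjoin (ModelField K₁ M)
          ({(Hq : ModelField K₁ (M * q))} : Set (ModelField K₁ (M * q))) := by
        rw [hgen]
        exact Algebra.mem_top
      exact adjoin_le_integralClosure hHqint hz
    exact Algebra.IsIntegral.isAlgebraic
  exact placeGenAt_of_ss hinj hϖ h𝔪 hϖ𝔪 hq0 hs hH' hgen hLoc

end Model

end Fermat.Agent.H59.SS
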