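import Mathlib
import Fermat.Agent.H59.SS.CrossModel
import Fermat.Agent.H45.SS.Model2

/-!
# P-SS, row SSH-9 : adapter GEN (helper59)

`ssGen_of_modelGen` : the official generation statement
`Fermat.Agent.H45.ModelGenStatement M q (h4S ℚ)` (row SSH-17) gives the input
`SSGenStatement M q` of `ssPlaceGenCross_of`.
-/

set_option autoImplicit false
set_option linter.unusedSectionVars false
set_option linter.style.haveILetI false

noncomputable section

namespace Fermat.Agent.H59.SS

open Polynomial ModularCurve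
open Fermat.Agent.H22.KL Fermat.Agent.H45 Fermat.Agent.H8.SS

/-- **GEN adapter**: `ModelGenStatement M q (h4S ℚ)` gives `SSGenStatement M q` (`4 ∣ M`). -/
theorem ssGen_of_modelGen (M q : ℕ) [NeZero M] [NeZero q] (h4 : 4 ∣ M)
    (h : ModelGenStatement M q (h4S ℚ)) : SSGenStatement M q := by
  intro K₁ _ _ _
  letI algL := ssAlgLevel K₁ M q
  intro Hq hHq
  set H : ModelField K₁ M := ⟨h4S K₁, h4S_mem_laurentBaseChange K₁ M h4⟩ with hHdef
  have hH : (H : LaurentSeries K₁) = coeffEmb K₁ (h4S ℚ) := by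
    rw [coeffEmb, coeffMap_h4S]
  have hβ : heckeBetaBar K₁ M q H = Hq := by
    apply Subtype.ext
    rw [coe_heckeBetaBar, hHq]
  rw [eq_top_iff]
  intro z _
  obtain ⟨p, hp⟩ := h K₁ H hH z
  rw [hβ] at hp
  rw [hp]
  have h1 : p.eval₂ (heckeAlphaBar K₁ M q : ModelField K₁ M →+* ModelField K₁ (M * q)) Hq =
      Polynomial.aeval Hq p := rfl
  rw [h1]
  exact Polynomial.aeval_mem_adjoin_singleton _ _

end Fermat.Agent.H59.SS
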