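import Mathlib
import Fermat.Agent.H59.SS.SSPoint
import Fermat.Agent.H41.SS.TubeChart
import Fermat.Agent.H62.SS.HauptIntegral
import Fermat.Agent.H67.SS.LocalDVR

/-!
# P-SS, row SSH-9 : the level-`M'` input `SSLocA` from a tube coordinate in another chart
(helper59)

Setting: `A` a DVR, `E / E'` fields, `x : E` the chart of `E` (in the application `x = j`),
`y' : E'` a chart of `E'` (in the application the Hauptmodul `H` of level `4`) whose image in
`E` lies in `B(x)`.  Then `B'(y') → B(x)` (`sspIncl`), and a prime `𝔪 ∋ ϖ` of `B(x)` contracts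
to a prime `𝔪'` of `B'(y')`, which is maximal as soon as it contains some `y' - a₀`.

* `ssp_isAlgebraic_of_chart` : `E` is algebraic over `E'` if it is finite over `K₀(x)` and `x`
  comes from `E'`.
* `ssp_contract_isMaximal` : maximality of the contraction.
* `ssLocA_of_tubeCoord` : the tube coordinates `y' - a₀` of level `M'` (output shape
  `Fermat.Agent.H41.SS.IsTubeCoordAt` of the étale-point theorem) give `SSLocA`.
-/

set_option autoImplicit false
set_option linter.unusedSectionVars false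
set_option linter.style.haveILetI false

noncomputable section

namespace Fermat.Agent.H59.SS

open Polynomial IsLocalRing
open Fermat.Agent.H22.KL Fermat.Agent.H45 Fermat.Agent.H88.KLB Fermat.Agent.H41.SS

section Alg

variable {A : Type} [CommRing A] {E' E : Type} [Field E'] [Field E] [Algebra A E']
  [Algebra A E] [Algebra E' E] [IsScalarTower A E' E]

/-- `E` is algebraic over `E'` if it is finite over `K₀(x)` and `x` comes from `E'`. -/
theorem ssp_isAlgebraic_of_chart (x : E) (hx : x ∈ (algebraMap E' E).range)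
    (hfd : ∃ n : ℕ, Nonempty (Module.Basis (Fin n) (chartField A E x) E)) :
    Algebra.IsAlgebraic E' E := by
  obtain ⟨n, ⟨b⟩⟩ := hfd
  haveI : Module.Finite (chartField A E x) E := Module.Finite.of_basis b
  have hle : chartField A E x ≤ (algebraMap E' E).fieldRange := by
    unfold chartField
    rw [Subfield.closure_le]
    intro z hz
    have h1 : chartRing A E x ≤ (IsScalarTower.toAlgHom A E' E).range := by
      unfold chartRing
      rw [Algebra.adjoin_le_iff]
      rintro w hw
      rw [Set.mem_singleton_iff] at hw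
      rw [hw]
      obtain ⟨x', hx'⟩ := hx
      exact ⟨x', hx'⟩
    obtain ⟨z', hz'⟩ := h1 hz
    exact ⟨z', hz'⟩
  let e : E' ≃+* (algebraMap E' E).fieldRange :=
    RingEquiv.ofBijective (algebraMap E' E).rangeRestrictField
      (algebraMap E' E).rangeRestrictField_bijective
  let φ : chartField A E x →+* E' :=
    (e.symm : (algebraMap E' E).fieldRange →+* E').comp (Subfield.inclusion hle)
  have hφ : (algebraMap E' E).comp φ =
      (RingHom.id E).comp (algebraMap (chartField A E x) E) := by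
    apply RingHom.ext
    intro c
    have h2 : e (e.symm (Subfield.inclusion hle c)) = Subfield.inclusion hle c :=
      e.apply_symm_apply _
    exact congrArg Subtype.val h2
  haveI : Algebra.IsIntegral E' E := by
    refine ⟨fun z => ?_⟩
    have h1 : IsIntegral (chartField A E x) z := Algebra.IsIntegral.isIntegral z
    exact IsIntegral.map_of_comp_eq φ (RingHom.id _) hφ h1
  exact Algebra.IsIntegral.isAlgebraic

end Alg

section Main

variable {A : Type} [CommRing A] [IsDomain A] [IsDiscreteValuationRing A]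
  {E' E : Type} [Field E'] [Field E] [Algebra A E'] [Algebra A E] [Algebra E' E]
  [IsScalarTower A E' E]

/-- The ring homomorphism `B'(y') → B(x)` induced by `E' → E` when the image of `y'` lies in
`B(x)`. -/
def sspIncl (x : E) (y' : E') (hy : algebraMap E' E y' ∈ chartClosure A E x) :
    chartClosure A E' y' →+* chartClosure A E x where
  toFun s := ⟨algebraMap E' E (s : E'),
    Fermat.Agent.H62.SS.chartClosure_map_le (IsScalarTower.toAlgHom A E' E) y' x hy _ s.2⟩
  map_one' := Subtype.ext (map_one (algebraMap E' E))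
  map_mul' _ _ := Subtype.ext (map_mul (algebraMap E' E) _ _)
  map_zero' := Subtype.ext (map_zero (algebraMap E' E))
  map_add' _ _ := Subtype.ext (map_add (algebraMap E' E) _ _)

@[simp] theorem sspIncl_coe (x : E) (y' : E') (hy : algebraMap E' E y' ∈ chartClosure A E x)
    (s : chartClosure A E' y') :
    ((sspIncl x y' hy s : chartClosure A E x) : E) = algebraMap E' E (s : E') := rfl

theorem sspIncl_algebraMap (x : E) (y' : E') (hy : algebraMap E' E y' ∈ chartClosure A E x)
    (a : A) : sspIncl x y' hy (algebraMap A (chartClosure A E' y') a) =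
      algebraMap A (chartClosure A E x) a := by
  apply Subtype.ext
  show algebraMap E' E (algebraMap A E' a) = algebraMap A E a
  rw [← IsScalarTower.algebraMap_apply]

variable [CharZero E']

/-- **Maximality of the contraction**: a prime of `B'(y')` containing `ϖ` and `y' - a₀` is
maximal. -/
theorem ssp_contract_isMaximal {ϖ : A} (hϖ : Irreducible ϖ) (y' : E') (a₀ : A)
    (𝔪' : Ideal (chartClosure A E' y')) (h𝔪' : 𝔪'.IsPrime)
    (hϖ𝔪' : algebraMap A (chartClosure A E' y') ϖ ∈ 𝔪')
    (ha : (⟨aeval y' (X - C a₀ : A[X]), etale_aeval_mem_chartClosure A E' y' _⟩ :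
      chartClosure A E' y') ∈ 𝔪') : 𝔪'.IsMaximal := by
  letI algP : Algebra A[X] (chartClosure A E' y') :=
    (Fermat.Agent.H67.SS.evB (A := A) y').toAlgebra
  haveI : Algebra.IsIntegral A[X] (chartClosure A E' y') :=
    ⟨fun b => Fermat.Agent.H67.SS.evB_isIntegral y' b⟩
  have hgirr : Irreducible ((X - C a₀ : A[X]).map (IsLocalRing.residue A)) := by
    rw [Polynomial.map_sub, Polynomial.map_X, Polynomial.map_C]
    exact Polynomial.irreducible_X_sub_C _
  have hmax := Fermat.Agent.H91.KLNorm.isMaximal_span_pair A hϖ hgirr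
  have hle : Ideal.span {(C ϖ : A[X]), X - C a₀} ≤
      𝔪'.comap (algebraMap A[X] (chartClosure A E' y')) := by
    rw [Ideal.span_le]
    rintro p (rfl | rfl)
    · show Fermat.Agent.H67.SS.evB (A := A) y' (C ϖ) ∈ 𝔪'
      rw [Fermat.Agent.H67.SS.evB_C]
      exact hϖ𝔪'
    · show Fermat.Agent.H67.SS.evB (A := A) y' (X - C a₀) ∈ 𝔪'
      exact ha
  have hne : 𝔪'.comap (algebraMap A[X] (chartClosure A E' y')) ≠ ⊤ :=
    (Ideal.comap_isPrime _ 𝔪').ne_top
  have heq := hmax.eq_of_le hne hle
  have hcm : (𝔪'.comap (algebraMap A[X] (chartClosure A E' y'))).IsMaximal := by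
    rw [← heq]
    exact hmax
  exact Ideal.isMaximal_of_isIntegral_of_isMaximal_comap 𝔪' hcm

/-- **`SSLocA` from tube coordinates of level `M'` in the chart `y'`.**  `P a₀` is any property
of the values `a₀ = y'(V)` at the places centred at `𝔪` (in the application: `a₀` and `a₀ + 16`
are units, i.e. `𝔪` is not cuspidal). -/
theorem ssLocA_of_tubeCoord [Algebra.IsAlgebraic E' E] {ϖ : A} (hϖ : Irreducible ϖ) (x : E)
    (y' : E') (hy : algebraMap E' E y' ∈ chartClosure A E x)
    (𝔪 : Ideal (chartClosure A E x)) (h𝔪 : 𝔪.IsPrime)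
    (hϖ𝔪 : algebraMap A (chartClosure A E x) ϖ ∈ 𝔪) (P : A → Prop)
    (hP : ∀ a₀ : A, (⟨algebraMap E' E y', hy⟩ - algebraMap A (chartClosure A E x) a₀ :
      chartClosure A E x) ∈ 𝔪 → P a₀)
    (hT : ∀ a₀ : A, P a₀ → ∀ 𝔪' : Ideal (chartClosure A E' y'), 𝔪'.IsMaximal →
      algebraMap A (chartClosure A E' y') ϖ ∈ 𝔪' →
      (⟨aeval y' (X - C a₀ : A[X]), etale_aeval_mem_chartClosure A E' y' _⟩ :
        chartClosure A E' y') ∈ 𝔪' →
      IsTubeCoordAt A E' ϖ y' 𝔪' (aeval y' (X - C a₀ : A[X]))) :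
    SSLocA A E' E x 𝔪 y' := by
  set 𝔪' : Ideal (chartClosure A E' y') := 𝔪.comap (sspIncl x y' hy) with h𝔪'def
  have h𝔪'p : 𝔪'.IsPrime := Ideal.comap_isPrime _ 𝔪
  have hϖ𝔪' : algebraMap A (chartClosure A E' y') ϖ ∈ 𝔪' := by
    rw [h𝔪'def, Ideal.mem_comap, sspIncl_algebraMap]
    exact hϖ𝔪
  have hcentre : ∀ V₁ : ValuationSubring E, CentredAt A E x 𝔪 V₁ →
      CentredAt A E' y' 𝔪' (V₁.comap (algebraMap E' E)) := by
    intro V₁ hV₁
    refine ⟨⟨isPlace_comap hV₁.1.1, ?_⟩, ?_⟩
    · rw [ValuationSubring.mem_comap]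
      exact ssp_chartClosure_le hV₁.1 hy
    · intro s' hs'
      rw [mem_nonunits_comap] at hs'
      rw [h𝔪'def, Ideal.mem_comap]
      exact hV₁.2 (sspIncl x y' hy s') hs'
  intro V₁ hV₁ a₀ ha₀
  have haev : aeval y' (X - C a₀ : A[X]) = y' - algebraMap A E' a₀ := by
    rw [map_sub, aeval_X, aeval_C]
  have hmem𝔪 : (⟨algebraMap E' E y', hy⟩ - algebraMap A (chartClosure A E x) a₀ :
      chartClosure A E x) ∈ 𝔪 := hV₁.2 _ ha₀
  have hmem𝔪' : (⟨aeval y' (X - C a₀ : A[X]), etale_aeval_mem_chartClosure A E' y' _⟩ :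
      chartClosure A E' y') ∈ 𝔪' := by
    rw [h𝔪'def, Ideal.mem_comap]
    have h1 : sspIncl x y' hy ⟨aeval y' (X - C a₀ : A[X]),
        etale_aeval_mem_chartClosure A E' y' _⟩ =
        (⟨algebraMap E' E y', hy⟩ - algebraMap A (chartClosure A E x) a₀ :
          chartClosure A E x) := by
      apply Subtype.ext
      show algebraMap E' E (aeval y' (X - C a₀ : A[X])) =
        algebraMap E' E y' - algebraMap A E a₀
      rw [haev, map_sub, ← IsScalarTower.algebraMap_apply]
    rw [h1]
    exact hmem𝔪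
  have h𝔪'max : 𝔪'.IsMaximal := ssp_contract_isMaximal hϖ y' a₀ 𝔪' h𝔪'p hϖ𝔪' hmem𝔪'
  have hTube := hT a₀ (hP a₀ hmem𝔪) 𝔪' h𝔪'max hϖ𝔪' hmem𝔪'
  have hzero : aeval y' (X - C a₀ : A[X]) - algebraMap A E' (ϖ * 0) =
      y' - algebraMap A E' a₀ := by
    rw [mul_zero, map_zero, sub_zero, haev]
  have hn : ∀ V₂ : ValuationSubring E,
      algebraMap E' E y' - algebraMap A E a₀ ∈ V₂.nonunits →
      aeval y' (X - C a₀ : A[X]) - algebraMap A E' (ϖ * 0) ∈
        (V₂.comap (algebraMap E' E)).nonunits := by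
    intro V₂ h2
    rw [hzero, mem_nonunits_comap, map_sub, ← IsScalarTower.algebraMap_apply]
    exact h2
  obtain ⟨h1, h2⟩ := hTube _ (hcentre V₁ hV₁) 0 (hn V₁ ha₀)
  rw [hzero] at h1
  exact ⟨h1, fun V₂ hV₂ ha₂ => h2 _ (hcentre V₂ hV₂) (hn V₂ ha₂)⟩

end Main

end Fermat.Agent.H59.SS
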