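import Mathlib
import Fermat.Agent.H59.SS.LocAAbs
import Fermat.Agent.H59.SS.CrossModel
import Fermat.Agent.H59.SS.GenAdapter
import Fermat.Agent.H8.SS.CrossInterfaces
import Fermat.Agent.H58.KL.ModelTr
import Fermat.Agent.H57.SS.ModelFinite
import Fermat.Agent.H27.KLGB.ModelTower

/-!
# P-SS, row SSH-9 : the model input `SSLocAModelStatement` from the Hauptmodul rows (helper59)

* `ssLocAModel_of` : the good basis in the chart `H` (row 960,
  `ModelGoodBasisStatement M q (h4S ℚ)`) and the unramifiedness of the chart `H` off the cusps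
  (row 961, `Fermat.Agent.H8.SS.ModelUnramifiedH4Statement M`) give the level-`M` tube
  `SSLocAModelStatement M q R` (`q` an odd prime).
* `ssPlaceGenCross_of_rows` : `Fermat.Agent.H45.SSPlaceGenCrossStatement M q jq R` from the four
  open rows 647 (`SSCrossDataStatement`), 960, 961, 930 (`ModelGenStatement`).
-/

set_option autoImplicit false
set_option linter.unusedSectionVars false
set_option linter.style.haveILetI false

noncomputable section

namespace Fermat.Agent.H59.SS

open Polynomial IsLocalRing ModularCurve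
open Fermat.Agent.H22.KL Fermat.Agent.H45 Fermat.Agent.H88.KLB Fermat.Agent.H41.SS
open Fermat.Agent.H82.SS Fermat.Agent.H8.SS

section Units

variable {A : Type} [CommRing A] [IsDomain A] [IsDiscreteValuationRing A]

/-- In a DVR a non-unit is a multiple of the uniformiser. -/
theorem ssp_dvd_of_not_isUnit {ϖ : A} (hϖ : Irreducible ϖ) {a : A} (ha : ¬ IsUnit a) :
    ∃ c : A, a = c * ϖ := by
  have h1 : a ∈ maximalIdeal A := (mem_maximalIdeal a).2 ha
  rw [hϖ.maximalIdeal_eq, Ideal.mem_span_singleton'] at h1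
  obtain ⟨c, hc⟩ := h1
  exact ⟨c, hc.symm⟩

/-- `X + C b ∉ (ϖ, X - a₀)` if `a₀ + b` is a unit. -/
theorem ssp_not_mem_pair {ϖ : A} (hϖ : Irreducible ϖ) (a₀ b : A) (hu : IsUnit (a₀ + b)) :
    ¬ ∃ p r : A[X], (X + C b : A[X]) = C ϖ * p + (X - C a₀) * r := by
  rintro ⟨p, r, h⟩
  have h1 := congrArg (Polynomial.eval a₀) h
  simp only [eval_add, eval_X, eval_C, eval_mul, eval_sub, sub_self, zero_mul, add_zero] at h1
  rw [h1] at hu
  exact hϖ.not_isUnit (isUnit_of_mul_isUnit_left hu)

/-- **No cusp at a point of odd residue characteristic**: if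
`j H⁴ (H + 16) = (H² + 256 H + 4096)³` in a ring `B` and `𝔪` is a prime ideal of `B` which
contains no power of `2`, then `H ∉ 𝔪` and `H + 16 ∉ 𝔪`. -/
theorem ssp_h4_noncusp {A₁ B : Type} [CommRing A₁] [CommRing B] [Algebra A₁ B] (𝔪 : Ideal B)
    (h𝔪 : 𝔪.IsPrime) (xb Hb : B)
    (hrel : xb * Hb ^ 4 * (Hb + algebraMap A₁ B 16) =
      (Hb ^ 2 + algebraMap A₁ B 256 * Hb + algebraMap A₁ B 4096) ^ 3)
    (h2 : ∀ n : ℕ, algebraMap A₁ B ((2 : A₁) ^ n) ∉ 𝔪) :
    Hb ∉ 𝔪 ∧ Hb + algebraMap A₁ B 16 ∉ 𝔪 := by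
  constructor
  · intro hH𝔪
    have h1 : (Hb ^ 2 + algebraMap A₁ B 256 * Hb + algebraMap A₁ B 4096) ^ 3 ∈ 𝔪 := by
      rw [← hrel]
      exact Ideal.mul_mem_right _ _ (Ideal.mul_mem_left _ _ (Ideal.pow_mem_of_mem _ hH𝔪 4
        (by norm_num)))
    have h2' := h𝔪.mem_of_pow_mem 3 h1
    have h3 : algebraMap A₁ B 4096 ∈ 𝔪 := by
      have h4 : Hb ^ 2 + algebraMap A₁ B 256 * Hb ∈ 𝔪 :=
        Ideal.add_mem _ (Ideal.pow_mem_of_mem _ hH𝔪 2 (by norm_num))
          (Ideal.mul_mem_left _ _ hH𝔪)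
      have := Ideal.sub_mem _ h2' h4
      rwa [add_sub_cancel_left] at this
    have h5 := h2 12
    have h6 : ((2 : A₁) ^ 12) = 4096 := by norm_num
    rw [h6] at h5
    exact h5 h3
  · intro hH𝔪
    have h1 : (Hb ^ 2 + algebraMap A₁ B 256 * Hb + algebraMap A₁ B 4096) ^ 3 ∈ 𝔪 := by
      rw [← hrel]
      exact Ideal.mul_mem_left _ _ hH𝔪
    have h2' := h𝔪.mem_of_pow_mem 3 h1
    have h3 : algebraMap A₁ B 256 ∈ 𝔪 := by
      have h4 : (Hb + algebraMap A₁ B 16) * (Hb + algebraMap A₁ B 240) ∈ 𝔪 :=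
        Ideal.mul_mem_right _ _ hH𝔪
      have h7 : Hb ^ 2 + algebraMap A₁ B 256 * Hb + algebraMap A₁ B 4096 -
          (Hb + algebraMap A₁ B 16) * (Hb + algebraMap A₁ B 240) = algebraMap A₁ B 256 := by
        have e1 : algebraMap A₁ B 4096 = algebraMap A₁ B 16 * algebraMap A₁ B 240 +
            algebraMap A₁ B 256 := by
          rw [← map_mul, ← map_add]
          norm_num
        have e2 : algebraMap A₁ B 256 = algebraMap A₁ B 16 + algebraMap A₁ B 240 := by
          rw [← map_add]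
          norm_num
        rw [e1]
        nth_rewrite 1 [e2]
        ring
      have := Ideal.sub_mem _ h2' h4
      rwa [h7] at this
    have h5 := h2 8
    have h6 : ((2 : A₁) ^ 8) = 256 := by norm_num
    rw [h6] at h5
    exact h5 h3

end Units

section Model

/-- **The level-`M` tube in the chart `H`** from the good basis (row 960) and the
unramifiedness off the cusps (row 961). -/
theorem ssLocAModel_of (M q : ℕ) [NeZero M] [NeZero q] (hq : q.Prime) (hq2 : q ≠ 2) (R : ℕ)
    (hGB : ModelGoodBasisStatement M q (h4S ℚ)) (hUnr : ModelUnramifiedH4Statement M) :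
    SSLocAModelStatement M q R := by
  intro K₁ _ _ _ A₀ _ _ _ _ _ _ _ hqnu hζ ϖ hϖ x hx W hW 𝔪 h𝔪 hϖ𝔪 hInf hZero H' hH'
  letI algL := ssAlgLevel K₁ M q
  letI algB := ssAlgBase K₁ M A₀
  haveI towerB : IsScalarTower A₀ K₁ (ModelField K₁ M) :=
    IsScalarTower.of_algebraMap_eq (fun _ => rfl)
  haveI tower : IsScalarTower A₀ (ModelField K₁ M) (ModelField K₁ (M * q)) := by
    refine IsScalarTower.of_algebraMap_eq (fun a => ?_)
    rw [IsScalarTower.algebraMap_apply A₀ K₁ (ModelField K₁ (M * q))]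
    exact ((heckeAlphaBar K₁ M q).commutes (algebraMap A₀ K₁ a)).symm
  haveI : CharZero K₁ := charZero_of_injective_algebraMap (algebraMap ℚ K₁).injective
  haveI : CharZero (ModelField K₁ M) :=
    charZero_of_injective_algebraMap (algebraMap K₁ (ModelField K₁ M)).injective
  have hinj' : Function.Injective (algebraMap A₀ (ModelField K₁ M)) := by
    rw [IsScalarTower.algebraMap_eq A₀ K₁ (ModelField K₁ M)]
    exact (algebraMap K₁ (ModelField K₁ M)).injective.comp (IsFractionRing.injective A₀ K₁)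
  have hH'emb : (H' : LaurentSeries K₁) = coeffEmb K₁ (h4S ℚ) := by
    rw [hH', coeffEmb, coeffMap_h4S]
  -- `x` comes from level `M`
  have hxr : x ∈ (algebraMap (ModelField K₁ M) (ModelField K₁ (M * q))).range := by
    have hjq : coeffEmb K₁ jq ∈ laurentBaseChange K₁ (modularFunctionFieldFull M) :=
      coeffEmb_mem_laurentBaseChange K₁ (by
        have h := jqd_mem_full M (one_dvd M)
        rwa [qExpand_one_apply] at h)
    refine ⟨⟨coeffEmb K₁ jq, hjq⟩, ?_⟩
    apply Subtype.ext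
    rw [hx]
    exact coe_heckeAlphaBar (L := K₁) (N := M) (ℓ := q) _
  haveI : Algebra.IsAlgebraic (ModelField K₁ M) (ModelField K₁ (M * q)) :=
    ssp_isAlgebraic_of_chart (A := A₀) x hxr
      (Fermat.Agent.H57.SS.modelFinite (M * q) K₁ A₀ x hx)
  -- `H ∈ B(x)`
  have hαH : ((algebraMap (ModelField K₁ M) (ModelField K₁ (M * q)) H' :
      ModelField K₁ (M * q)) : LaurentSeries K₁) = h4S K₁ := by
    rw [← hH']
    exact coe_heckeAlphaBar (L := K₁) (N := M) (ℓ := q) H'
  have hy : algebraMap (ModelField K₁ M) (ModelField K₁ (M * q)) H' ∈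
      chartClosure A₀ (ModelField K₁ (M * q)) x :=
    Fermat.Agent.H62.SS.haupt4_mem_chartClosure (M * q) K₁ A₀ x _ hx hαH
  -- the constants `2 ^ n` are units
  have hunit2 : ∀ n : ℕ, IsUnit ((2 : A₀) ^ n) := fun n => by
    have h := Fermat.Agent.H27.KLGB.isUnit_intCast_of_not_dvd (A₀ := A₀) q hq hqnu _
      (Fermat.Agent.H27.KLGB.not_dvd_pow_of_prime_ne hq Nat.prime_two hq2 n)
    push_cast at h
    exact h
  have hnot𝔪 : ∀ c : A₀, IsUnit c →
      algebraMap A₀ (chartClosure A₀ (ModelField K₁ (M * q)) x) c ∉ 𝔪 := by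
    intro c hc hmem
    exact h𝔪.ne_top (Ideal.eq_top_of_isUnit_mem _ hmem (hc.map _))
  -- the relation `j H⁴ (H + 16) = (H² + 256 H + 4096)³` in `B(x)`
  have hxB : x ∈ chartClosure A₀ (ModelField K₁ (M * q)) x :=
    Fermat.Agent.H62.SS.chartRing_le_chartClosure x (Fermat.Agent.H62.SS.self_mem_chartRing x)
  have hrel : (⟨x, hxB⟩ : chartClosure A₀ (ModelField K₁ (M * q)) x) *
      (⟨algebraMap (ModelField K₁ M) (ModelField K₁ (M * q)) H', hy⟩ :
        chartClosure A₀ (ModelField K₁ (M * q)) x) ^ 4 *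
      ((⟨algebraMap (ModelField K₁ M) (ModelField K₁ (M * q)) H', hy⟩ :
        chartClosure A₀ (ModelField K₁ (M * q)) x) +
        algebraMap A₀ (chartClosure A₀ (ModelField K₁ (M * q)) x) 16) =
      ((⟨algebraMap (ModelField K₁ M) (ModelField K₁ (M * q)) H', hy⟩ :
        chartClosure A₀ (ModelField K₁ (M * q)) x) ^ 2 +
        algebraMap A₀ (chartClosure A₀ (ModelField K₁ (M * q)) x) 256 *
          (⟨algebraMap (ModelField K₁ M) (ModelField K₁ (M * q)) H', hy⟩ :
            chartClosure A₀ (ModelField K₁ (M * q)) x) +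
        algebraMap A₀ (chartClosure A₀ (ModelField K₁ (M * q)) x) 4096) ^ 3 := by
    apply Subtype.ext
    apply Subtype.ext
    have hj := h4S_j K₁
    have hxj : (x : LaurentSeries K₁) = jqModC K₁ := by
      rw [hx, coeffEmb, ← jqModC_rat, coeffMap_jqModC]
    have hc : ∀ c : A₀, (((algebraMap A₀ (chartClosure A₀ (ModelField K₁ (M * q)) x) c :
        chartClosure A₀ (ModelField K₁ (M * q)) x) : ModelField K₁ (M * q)) :
        LaurentSeries K₁) = algebraMap K₁ (LaurentSeries K₁) (algebraMap A₀ K₁ c) := by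
      intro c
      show ((algebraMap A₀ (ModelField K₁ (M * q)) c : ModelField K₁ (M * q)) :
        LaurentSeries K₁) = _
      rw [IsScalarTower.algebraMap_apply A₀ K₁ (ModelField K₁ (M * q))]
      rfl
    show (x : LaurentSeries K₁) *
        ((algebraMap (ModelField K₁ M) (ModelField K₁ (M * q)) H' :
          ModelField K₁ (M * q)) : LaurentSeries K₁) ^ 4 *
        (((algebraMap (ModelField K₁ M) (ModelField K₁ (M * q)) H' :
          ModelField K₁ (M * q)) : LaurentSeries K₁) +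
          (((algebraMap A₀ (chartClosure A₀ (ModelField K₁ (M * q)) x) 16 :
            chartClosure A₀ (ModelField K₁ (M * q)) x) : ModelField K₁ (M * q)) :
            LaurentSeries K₁)) =
      (((algebraMap (ModelField K₁ M) (ModelField K₁ (M * q)) H' :
          ModelField K₁ (M * q)) : LaurentSeries K₁) ^ 2 +
        (((algebraMap A₀ (chartClosure A₀ (ModelField K₁ (M * q)) x) 256 :
            chartClosure A₀ (ModelField K₁ (M * q)) x) : ModelField K₁ (M * q)) :
            LaurentSeries K₁) *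
          ((algebraMap (ModelField K₁ M) (ModelField K₁ (M * q)) H' :
          ModelField K₁ (M * q)) : LaurentSeries K₁) +
        (((algebraMap A₀ (chartClosure A₀ (ModelField K₁ (M * q)) x) 4096 :
            chartClosure A₀ (ModelField K₁ (M * q)) x) : ModelField K₁ (M * q)) :
            LaurentSeries K₁)) ^ 3
    rw [hc, hc, hc, hαH, hxj, map_ofNat, map_ofNat, map_ofNat, map_ofNat, map_ofNat, map_ofNat]
    exact hj
  obtain ⟨hHn, hH16n⟩ := ssp_h4_noncusp (A₁ := A₀) 𝔪 h𝔪.isPrime _ _ hrel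
    (fun n => hnot𝔪 _ (hunit2 n))
  refine ssLocA_of_tubeCoord hϖ x H' hy 𝔪 h𝔪.isPrime hϖ𝔪
    (fun a₀ => IsUnit a₀ ∧ IsUnit (a₀ + 16)) ?_ ?_
  · -- the values of `H` at a non-cuspidal point
    intro a₀ ha₀
    have hpi : ∀ c : A₀, ¬ IsUnit c →
        algebraMap A₀ (chartClosure A₀ (ModelField K₁ (M * q)) x) c ∈ 𝔪 := by
      intro c hc
      obtain ⟨d, hd⟩ := ssp_dvd_of_not_isUnit hϖ hc
      rw [hd, map_mul]
      exact Ideal.mul_mem_left _ _ hϖ𝔪
    constructor
    · by_contra hnu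
      apply hHn
      have := Ideal.add_mem _ ha₀ (hpi a₀ hnu)
      rwa [sub_add_cancel] at this
    · by_contra hnu
      apply hH16n
      have := Ideal.add_mem _ ha₀ (hpi (a₀ + 16) hnu)
      rw [map_add] at this
      have h0 : (⟨algebraMap (ModelField K₁ M) (ModelField K₁ (M * q)) H', hy⟩ :
          chartClosure A₀ (ModelField K₁ (M * q)) x) -
          algebraMap A₀ (chartClosure A₀ (ModelField K₁ (M * q)) x) a₀ +
          (algebraMap A₀ (chartClosure A₀ (ModelField K₁ (M * q)) x) a₀ +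
            algebraMap A₀ (chartClosure A₀ (ModelField K₁ (M * q)) x) 16) =
          (⟨algebraMap (ModelField K₁ M) (ModelField K₁ (M * q)) H', hy⟩ :
          chartClosure A₀ (ModelField K₁ (M * q)) x) +
            algebraMap A₀ (chartClosure A₀ (ModelField K₁ (M * q)) x) 16 := by ring
      rwa [h0] at this
  · -- the tube coordinate at level `M`
    rintro a₀ ⟨hu1, hu2⟩ 𝔪' h𝔪' hϖ𝔪' hg𝔪'
    have htr : Transcendental A₀ H' :=
      Fermat.Agent.H58.modelTranscendental_of_order_ne_zero M (h4S ℚ)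
        (by rw [h4S_order]; decide) K₁ A₀ H' hH'emb
    have hGB' : GoodBasis A₀ (ModelField K₁ M) ϖ H' := hGB K₁ A₀ hqnu ϖ hϖ H' hH'emb
    have hgirr : Irreducible ((X - C a₀ : A₀[X]).map (IsLocalRing.residue A₀)) := by
      rw [Polynomial.map_sub, Polynomial.map_X, Polynomial.map_C]
      exact Polynomial.irreducible_X_sub_C _
    have hne0 : ¬ ∃ p r : A₀[X], (X : A₀[X]) = C ϖ * p + (X - C a₀) * r := by
      have h := ssp_not_mem_pair hϖ a₀ 0 (by rwa [add_zero])
      rwa [map_zero, add_zero] at h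
    have hne16 : ¬ ∃ p r : A₀[X], (X + C 16 : A₀[X]) = C ϖ * p + (X - C a₀) * r :=
      ssp_not_mem_pair hϖ a₀ 16 hu2
    have hUN : UnramifiedNear A₀ (ModelField K₁ M) ϖ H' (X - C a₀) :=
      hUnr K₁ A₀ ϖ hϖ H' hH'emb (X - C a₀) (monic_X_sub_C a₀) hgirr hne0 hne16
    exact isTubeCoordAt_of_etale hinj' ϖ hϖ H' htr hGB' (X - C a₀) (monic_X_sub_C a₀) hgirr
      hUN 𝔪' h𝔪' hϖ𝔪' hg𝔪'

/-- **SSH-6 + SSH-9 : place generators at the crossing points**, from the four open rows:
647 (`SSCrossDataStatement`, crossing points are supersingular), 960 (good basis in the chart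
`H`), 961 (the chart `H` is unramified off the cusps), 930 (`ModelGenStatement`). -/
theorem ssPlaceGenCross_of_rows (M q : ℕ) [NeZero M] [NeZero q] (h4 : 4 ∣ M) (hq : q.Prime)
    (hq2 : q ≠ 2) (R : ℕ) (hData : SSCrossDataStatement M q)
    (hGB : ModelGoodBasisStatement M q (h4S ℚ)) (hUnr : ModelUnramifiedH4Statement M)
    (hGen : ModelGenStatement M q (h4S ℚ)) : SSPlaceGenCrossStatement M q jq R :=
  ssPlaceGenCross_of M q h4 R hData (ssLocAModel_of M q hq hq2 R hGB hUnr)
    (ssGen_of_modelGen M q h4 hGen)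

end Model

end Fermat.Agent.H59.SS
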