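import Mathlib
import Fermat.Agent.H59.SS.LocAModel
import Fermat.Agent.H32.SS.ModelGen
import Fermat.Agent.H98.SS.GoodBasisH4
import Fermat.Agent.H33.SS.ModelUnramifiedH4

/-!
# P-SS, row SSH-9 : `SSPlaceGenCrossStatement` from row SSH-6 alone (helper59)

With the landed rows 930 (`Fermat.Agent.H32.SSGen.modelGen`, helper32), 960
(`Fermat.Agent.H98.SS.modelGoodBasis_h4`, helper98) and 961
(`Fermat.Agent.H33.SS.modelUnramified_h4`, helper33) the only remaining input of the
supersingular-point row is `SSCrossDataStatement M q` (row SSH-6: crossing points are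
supersingular).

* `ssLocAModel` : the level-`M` tube in the chart `H` (unconditional).
* `ssGenModel` : `E₀ = α(F_M)[H(t^q)]` (unconditional).
* `ssPlaceGenCross_of_data` : `SSCrossDataStatement M q → SSPlaceGenCrossStatement M q jq R`
  (`4 ∣ M`, `q` an odd prime, `q ∤ M`).
-/

set_option autoImplicit false
set_option linter.unusedSectionVars false
set_option linter.style.haveILetI false

noncomputable section

namespace Fermat.Agent.H59.SS

open ModularCurve
open Fermat.Agent.H22.KL Fermat.Agent.H45 Fermat.Agent.H8.SS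

/-- **The level-`M` tube in the chart `H`**, unconditional (`4 ∣ M`, `q` an odd prime,
`q ∤ M`). -/
theorem ssLocAModel (M q : ℕ) [NeZero M] [NeZero q] (h4 : 4 ∣ M) (hq : q.Prime) (hq2 : q ≠ 2)
    (hqM : ¬ q ∣ M) (R : ℕ) : SSLocAModelStatement M q R :=
  ssLocAModel_of M q hq hq2 R (Fermat.Agent.H98.SS.modelGoodBasis_h4 M q hq hqM hq2)
    (Fermat.Agent.H33.SS.modelUnramified_h4 M h4)

/-- **Generation**, unconditional: `E₀ = α(F_M)[H(t^q)]` (`4 ∣ M`, `q` prime, `q ∤ M`). -/
theorem ssGenModel (M q : ℕ) [NeZero M] [NeZero q] (h4 : 4 ∣ M) (hq : q.Prime)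
    (hqM : ¬ q ∣ M) : SSGenStatement M q :=
  ssGen_of_modelGen M q h4
    (Fermat.Agent.H32.SSGen.modelGen_of_coeff_neg_one M q hq hqM (h4S ℚ)
      (by rw [h4S_coeff_neg_one]; exact one_ne_zero))

/-- **SSH-9 : place generators at the crossing points**, from row SSH-6
(`SSCrossDataStatement`) alone. -/
theorem ssPlaceGenCross_of_data (M q : ℕ) [NeZero M] [NeZero q] (h4 : 4 ∣ M) (hq : q.Prime)
    (hq2 : q ≠ 2) (hqM : ¬ q ∣ M) (R : ℕ) (hData : SSCrossDataStatement M q) :
    SSPlaceGenCrossStatement M q jq R :=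
  ssPlaceGenCross_of M q h4 R hData (ssLocAModel M q h4 hq hq2 hqM R)
    (ssGenModel M q h4 hq hqM)

end Fermat.Agent.H59.SS
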