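import Mathlib
import Fermat.Agent.H41.SS.OrdInterfaces

/-!
# P-SS2 row 900, input of (N) NodeGen: level-`M` regularity with the explicit Frobenius
parameter - the interface (helper59)

`ModelLevelRegFrobStatement M q h₀` : at level `M`, chart `j`, every maximal ideal `𝔫 ∋ ϖ` of
`B'(j)` which contains `U = H - H ^ (q ^ 2)` (`H` the function with expansion `h₀`) is locally
generated by `ϖ` and `U`.  Generic in the Hauptmodul series `h₀`; no roots of unity, any
uniformiser `ϖ`, any `A₀`-algebra structure on the model field compatible with `K₁`.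
-/

set_option autoImplicit false

noncomputable section

namespace Fermat.Agent.H59.SS

open ModularCurve
open Fermat.Agent.H22.KL

/-- **Level-`M` regularity with the explicit parameter `H - H ^ (q ^ 2)`.** -/
def ModelLevelRegFrobStatement (M q : ℕ) [NeZero M] (h₀ : LaurentSeries ℚ) : Prop :=
  ∀ (K₁ : Type) [Field K₁] [Algebra ℚ K₁] [FiniteDimensional ℚ K₁]
    (A₀ : Type) [CommRing A₀] [IsDomain A₀] [IsDiscreteValuationRing A₀]
    [Algebra A₀ K₁] [IsFractionRing A₀ K₁]
    [Algebra A₀ (ModelField K₁ M)] [IsScalarTower A₀ K₁ (ModelField K₁ M)],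
    ¬ IsUnit ((q : ℕ) : A₀) →
    ∀ (ϖ : A₀), Irreducible ϖ →
    ∀ (x : ModelField K₁ M), (x : LaurentSeries K₁) = coeffEmb K₁ jq →
    ∀ 𝔫 : Ideal (chartClosure A₀ (ModelField K₁ M) x), 𝔫.IsMaximal →
      algebraMap A₀ (chartClosure A₀ (ModelField K₁ M) x) ϖ ∈ 𝔫 →
    ∀ (U : chartClosure A₀ (ModelField K₁ M) x) (H : ModelField K₁ M),
      (H : LaurentSeries K₁) = coeffEmb K₁ h₀ →
      (U : ModelField K₁ M) = H - H ^ (q ^ 2) → U ∈ 𝔫 →
      ∀ z ∈ 𝔫, ∃ s, s ∉ 𝔫 ∧ ∃ b₁ b₂ : chartClosure A₀ (ModelField K₁ M) x,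
        s * z = algebraMap A₀ (chartClosure A₀ (ModelField K₁ M) x) ϖ * b₁ + U * b₂

end Fermat.Agent.H59.SS
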