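import Mathlib
import Fermat.Agent.H22.SS.ChartChange

/-!
# P-SS / P-SS2 row 900 (input of the node generators): regularity with an explicit parameter,
abstract part (helper59)

* `ssp_reg_swap` (abstract, chart `H`): if `𝔫' ∋ ϖ, g(H), F(H)` with `ḡ` irreducible and `F̄`
  separable, then (REG) with parameters `(ϖ, g(H))` implies (REG) with parameters `(ϖ, F(H))`.
* `ssp_cch_reg_param` (abstract): the change of chart `H ↝ x` of helper22 (`cch_reg`) with an
  explicit parameter.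
-/

set_option autoImplicit false
set_option linter.style.haveILetI false
set_option linter.unusedSectionVars false
set_option maxHeartbeats 1000000

noncomputable section

open Polynomial

namespace Fermat.Agent.H59.SS

open Fermat.Agent.H22.KL Fermat.Agent.H22.SS
open Fermat.Agent.H41.SS (etale_aeval_mem_chartClosure ordPoint_exists_monic etale_point_chart)

section Abstract

variable (A : Type) [CommRing A] [IsDomain A] [IsDiscreteValuationRing A]
variable (E : Type) [Field E] [Algebra A E] [CharZero E]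

variable {A} in
/-- A polynomial with zero reduction is divisible by `ϖ`. -/
theorem ssp_exists_C_mul_of_map_eq_zero {ϖ : A} (hϖ : Irreducible ϖ) (p : A[X])
    (hp : p.map (IsLocalRing.residue A) = 0) : ∃ e : A[X], p = C ϖ * e := by
  have h1 : p ∈ RingHom.ker (mapRingHom (IsLocalRing.residue A)) := by
    rw [RingHom.mem_ker, coe_mapRingHom]
    exact hp
  rw [Polynomial.ker_mapRingHom, IsLocalRing.ker_residue, hϖ.maximalIdeal_eq, Ideal.map_span,
    Set.image_singleton, Ideal.mem_span_singleton] at h1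
  obtain ⟨e, he⟩ := h1
  exact ⟨e, he⟩

theorem ssp_cchEv_C (H : E) (a : A) :
    cchEv A E H (C a) = algebraMap A ↥(chartClosure A E H) a :=
  Subtype.ext (aeval_C H a)

/-- If the reductions of `g₁, g₂` are coprime, then `g₁(H), g₂(H)` do not both lie in a proper
ideal containing `ϖ`. -/
theorem ssp_not_mem_of_isCoprime {ϖ : A} (hϖ : Irreducible ϖ) (H : E)
    (𝔫' : Ideal ↥(chartClosure A E H)) (hne : 𝔫' ≠ ⊤)
    (hϖ𝔫' : algebraMap A ↥(chartClosure A E H) ϖ ∈ 𝔫') (g₁ g₂ : A[X])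
    (hcop : IsCoprime (g₁.map (IsLocalRing.residue A)) (g₂.map (IsLocalRing.residue A)))
    (h1 : cchEv A E H g₁ ∈ 𝔫') : cchEv A E H g₂ ∉ 𝔫' := by
  intro h2
  obtain ⟨a', b', hab⟩ := hcop
  obtain ⟨a, rfl⟩ := Polynomial.map_surjective _ IsLocalRing.residue_surjective a'
  obtain ⟨b, rfl⟩ := Polynomial.map_surjective _ IsLocalRing.residue_surjective b'
  have h0 : (a * g₁ + b * g₂ - 1).map (IsLocalRing.residue A) = 0 := by
    rw [Polynomial.map_sub, Polynomial.map_add, Polynomial.map_mul, Polynomial.map_mul,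
      Polynomial.map_one, hab, sub_self]
  obtain ⟨e, he⟩ := ssp_exists_C_mul_of_map_eq_zero hϖ _ h0
  have h3 := congrArg (cchEv A E H) he
  rw [map_sub, map_add, map_mul, map_mul, map_mul, map_one, ssp_cchEv_C] at h3
  apply hne
  rw [Ideal.eq_top_iff_one]
  have h4 : (1 : ↥(chartClosure A E H)) = cchEv A E H a * cchEv A E H g₁ +
      cchEv A E H b * cchEv A E H g₂ -
      algebraMap A ↥(chartClosure A E H) ϖ * cchEv A E H e := by
    rw [← h3]; ring
  rw [h4]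
  exact Ideal.sub_mem _ (Ideal.add_mem _ (Ideal.mul_mem_left _ _ h1) (Ideal.mul_mem_left _ _ h2))
    (Ideal.mul_mem_right _ _ hϖ𝔫')

/-- **Swap of the parameter**: if `𝔫' ∋ ϖ, g(H), F(H)` with `ḡ` irreducible and `F̄` separable,
then (REG) with parameters `(ϖ, g(H))` implies (REG) with parameters `(ϖ, F(H))`. -/
theorem ssp_reg_swap {ϖ : A} (hϖ : Irreducible ϖ) (H : E)
    (𝔫' : Ideal ↥(chartClosure A E H)) (h𝔫' : 𝔫'.IsPrime)
    (hϖ𝔫' : algebraMap A ↥(chartClosure A E H) ϖ ∈ 𝔫') (g F : A[X])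
    (hgirr : Irreducible (g.map (IsLocalRing.residue A)))
    (hg𝔫' : cchEv A E H g ∈ 𝔫') (hF𝔫' : cchEv A E H F ∈ 𝔫')
    (hFsep : (F.map (IsLocalRing.residue A)).Separable)
    (hreg : ∀ z ∈ 𝔫', ∃ s, s ∉ 𝔫' ∧ ∃ b₁ b₂ : ↥(chartClosure A E H),
      s * z = algebraMap A ↥(chartClosure A E H) ϖ * b₁ + cchEv A E H g * b₂) :
    ∀ z ∈ 𝔫', ∃ s, s ∉ 𝔫' ∧ ∃ b₁ b₂ : ↥(chartClosure A E H),
      s * z = algebraMap A ↥(chartClosure A E H) ϖ * b₁ + cchEv A E H F * b₂ := by
  -- `ḡ ∣ F̄`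
  have hdvd : g.map (IsLocalRing.residue A) ∣ F.map (IsLocalRing.residue A) := by
    by_contra hnd
    have hcop := (hgirr.coprime_iff_not_dvd).2 hnd
    exact ssp_not_mem_of_isCoprime A E hϖ H 𝔫' h𝔫'.ne_top hϖ𝔫' g F hcop hg𝔫' hF𝔫'
  obtain ⟨c', hc'⟩ := hdvd
  obtain ⟨c, rfl⟩ := Polynomial.map_surjective _ IsLocalRing.residue_surjective c'
  have hcop : IsCoprime (g.map (IsLocalRing.residue A)) (c.map (IsLocalRing.residue A)) := by
    rw [hc'] at hFsep
    exact hFsep.isCoprime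
  have hc𝔫' : cchEv A E H c ∉ 𝔫' :=
    ssp_not_mem_of_isCoprime A E hϖ H 𝔫' h𝔫'.ne_top hϖ𝔫' g c hcop hg𝔫'
  have h0 : (F - g * c).map (IsLocalRing.residue A) = 0 := by
    rw [Polynomial.map_sub, Polynomial.map_mul, hc', sub_self]
  obtain ⟨e, he⟩ := ssp_exists_C_mul_of_map_eq_zero hϖ _ h0
  have h3 := congrArg (cchEv A E H) he
  rw [map_sub, map_mul, map_mul, ssp_cchEv_C] at h3
  intro z hz
  obtain ⟨s, hs, b₁, b₂, hsz⟩ := hreg z hz
  refine ⟨cchEv A E H c * s, fun h => (h𝔫'.mem_or_mem h).elim hc𝔫' hs,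
    cchEv A E H c * b₁ - cchEv A E H e * b₂, b₂, ?_⟩
  have h4 : cchEv A E H F = cchEv A E H g * cchEv A E H c +
      algebraMap A ↥(chartClosure A E H) ϖ * cchEv A E H e := by
    rw [← h3]; ring
  rw [h4, mul_assoc, hsz]
  ring

/-- **Change of chart for the regularity, with an explicit parameter** (variant of
`Fermat.Agent.H22.SS.cch_reg`). -/
theorem ssp_cch_reg_param (ϖ : A) (x H : E) (P Q : A[X])
    (hrel : x * aeval H Q = aeval H P) (hH : H ∈ chartClosure A E x)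
    (v : E) (hv : v ∈ chartClosure A E x) (hvQ : v * aeval H Q = 1)
    (𝔫 : Ideal ↥(chartClosure A E x)) (h𝔫 : 𝔫.IsPrime)
    (U' : ↥(chartClosure A E H))
    (hreg : ∀ z ∈ 𝔫.comap (cchIncl A E x H hH), ∃ s, s ∉ 𝔫.comap (cchIncl A E x H hH) ∧
      ∃ b₁ b₂ : ↥(chartClosure A E H),
        s * z = algebraMap A ↥(chartClosure A E H) ϖ * b₁ + U' * b₂) :
    ∀ z ∈ 𝔫, ∃ s, s ∉ 𝔫 ∧ ∃ b₁ b₂ : ↥(chartClosure A E x),
      s * z = algebraMap A ↥(chartClosure A E x) ϖ * b₁ + cchIncl A E x H hH U' * b₂ := by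
  set ι := cchIncl A E x H hH with hι
  have hQunit : (⟨v, hv⟩ : ↥(chartClosure A E x)) * ι (cchEv A E H Q) = 1 :=
    Subtype.ext hvQ
  have hQ𝔫 : ι (cchEv A E H Q) ∉ 𝔫 := by
    intro hmem
    apply h𝔫.ne_top
    rw [Ideal.eq_top_iff_one, ← hQunit]
    exact Ideal.mul_mem_left _ _ hmem
  have hQ0 : aeval H Q ≠ 0 := by
    intro h0
    rw [h0, mul_zero] at hvQ
    exact zero_ne_one hvQ
  intro z hz
  obtain ⟨K, hK⟩ := cch_exists_pow_mul_intX P Q hQ0 hrel
    ((Fermat.Agent.H87.KL.mem_chartClosure_iff x z.1).1 z.2)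
  have hK' : aeval H Q ^ K * (z : E) ∈ chartClosure A E H :=
    (Fermat.Agent.H87.KL.mem_chartClosure_iff H _).2 hK
  set z' : ↥(chartClosure A E H) := ⟨aeval H Q ^ K * (z : E), hK'⟩ with hz'
  have hιz' : ι z' = ι (cchEv A E H Q) ^ K * z := Subtype.ext rfl
  have hz'mem : z' ∈ 𝔫.comap ι := by
    rw [Ideal.mem_comap, hιz']
    exact Ideal.mul_mem_left _ _ hz
  obtain ⟨s', hs', b₁, b₂, hsz⟩ := hreg z' hz'mem
  refine ⟨ι s' * ι (cchEv A E H Q) ^ K, ?_, ι b₁, ι b₂, ?_⟩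
  · intro hmem
    rcases h𝔫.mem_or_mem hmem with h1 | h2
    · exact hs' (Ideal.mem_comap.2 h1)
    · exact hQ𝔫 (h𝔫.mem_of_pow_mem K h2)
  · have h1 := congrArg ι hsz
    rw [map_mul, map_add, map_mul, map_mul, hιz', hι, cchIncl_algebraMap] at h1
    rw [← h1]
    ring

end Abstract

end Fermat.Agent.H59.SS
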