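import Mathlib
import Fermat.Agent.H59.SS.LevelRegAbs
import Fermat.Agent.H22.SS.LevelRegH4

/-!
# P-SS / P-SS2 row 900 (input of the node generators): level-`M` regularity below the
supersingular points with the EXPLICIT parameter `H - H ^ (q ^ 2)` (helper59)

* `modelLevelReg_h4_frob` : at level `M` (`4 ∣ M`, `q` an odd prime, `q ∤ M`), chart `j`, a
  maximal ideal `𝔫 ∋ ϖ` which contains `U = H - H ^ (q ^ 2)` is locally generated by `ϖ` and `U`.
-/

set_option autoImplicit false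
set_option linter.style.haveILetI false
set_option linter.unusedSectionVars false
set_option maxHeartbeats 1000000

noncomputable section

open Polynomial

namespace Fermat.Agent.H59.SS

open ModularCurve AlgebraicCurve
open Fermat.Agent.H22.KL Fermat.Agent.H8.SS Fermat.Agent.H22.SS
open Fermat.Agent.H41.SS (etale_aeval_mem_chartClosure ordPoint_exists_monic etale_point_chart)

section Model

/-- **REG' at level `M` with the explicit parameter `H - H ^ (q ^ 2)`** (`4 ∣ M`, `q` an odd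
prime, `q ∤ M`), chart `j`: a maximal ideal `𝔫 ∋ ϖ` of `B'(j)` which contains
`U = H - H ^ (q ^ 2)` (i.e. a point of the special fibre with `H`-value in `𝔽_{q²}`, e.g. the
image of a supersingular point of level `M q`) is locally generated by `ϖ` and `U`. -/
theorem modelLevelReg_h4_frob (M q : ℕ) [NeZero M] [NeZero q] (hq : q.Prime) (hq2 : q ≠ 2)
    (hqM : ¬ q ∣ M) (h4 : 4 ∣ M)
    (K₁ : Type) [Field K₁] [Algebra ℚ K₁] [FiniteDimensional ℚ K₁]
    (A₀ : Type) [CommRing A₀] [IsDomain A₀] [IsDiscreteValuationRing A₀]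
    [Algebra A₀ K₁] [IsFractionRing A₀ K₁]
    [Algebra A₀ (ModelField K₁ M)] [IsScalarTower A₀ K₁ (ModelField K₁ M)]
    (hqA : ¬ IsUnit ((q : ℕ) : A₀)) (ϖ : A₀) (hϖ : Irreducible ϖ)
    (x : ModelField K₁ M) (hx : (x : LaurentSeries K₁) = coeffEmb K₁ jq)
    (𝔫 : Ideal (chartClosure A₀ (ModelField K₁ M) x)) (h𝔫 : 𝔫.IsMaximal)
    (hϖ𝔫 : algebraMap A₀ (chartClosure A₀ (ModelField K₁ M) x) ϖ ∈ 𝔫)
    (U : chartClosure A₀ (ModelField K₁ M) x) (H : ModelField K₁ M)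
    (hH : (H : LaurentSeries K₁) = coeffEmb K₁ (h4S ℚ))
    (hU : (U : ModelField K₁ M) = H - H ^ (q ^ 2)) (hU𝔫 : U ∈ 𝔫) :
    ∀ z ∈ 𝔫, ∃ s, s ∉ 𝔫 ∧ ∃ b₁ b₂ : chartClosure A₀ (ModelField K₁ M) x,
      s * z = algebraMap A₀ (chartClosure A₀ (ModelField K₁ M) x) ϖ * b₁ + U * b₂ := by
  haveI : CharZero K₁ := algebraRat.charZero K₁
  haveI : CharZero (ModelField K₁ M) :=
    charZero_of_injective_algebraMap (algebraMap K₁ (ModelField K₁ M)).injective
  haveI hp𝔫 := h𝔫.isPrime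
  have hinj : Function.Injective (algebraMap A₀ (ModelField K₁ M)) := by
    rw [IsScalarTower.algebraMap_eq A₀ K₁ (ModelField K₁ M)]
    exact (algebraMap K₁ (ModelField K₁ M)).injective.comp (IsFractionRing.injective A₀ K₁)
  have hHser : (H : LaurentSeries K₁) = h4S K₁ := hH.trans (Fermat.Agent.H98.SS.coeffEmb_h4S K₁)
  have hrelM : x * H ^ 4 * (H + 16) = (H ^ 2 + 256 * H + 4096) ^ 3 := by
    apply Subtype.ext
    show (x : LaurentSeries K₁) * (H : LaurentSeries K₁) ^ 4 * ((H : LaurentSeries K₁) + 16) =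
      ((H : LaurentSeries K₁) ^ 2 + 256 * (H : LaurentSeries K₁) + 4096) ^ 3
    rw [hHser, hx, Fermat.Agent.H27.KLGB.coeffEmb_jq]
    exact h4S_j (k := K₁)
  have hH0 : H ≠ 0 := fun h => h4S_ne_zero (k := K₁) (by rw [← hHser, h]; rfl)
  have hH16 : H + 16 ≠ 0 := by
    intro h
    apply h4S_add_sixteen_ne_zero K₁
    rw [← hHser]
    have h1 : ((H + 16 : ModelField K₁ M) : LaurentSeries K₁) = 0 := by rw [h]; rfl
    exact h1
  -- membership in `B(x)` is integrality over `A₀[x]`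
  have hmem : ∀ z : ModelField K₁ M, z ∈ chartClosure A₀ (ModelField K₁ M) x ↔
      IsIntegral ↥(chartRing A₀ (ModelField K₁ M) x) z := fun z => Iff.rfl
  have hxint : IsIntegral ↥(chartRing A₀ (ModelField K₁ M) x) x := by
    have : x = algebraMap ↥(chartRing A₀ (ModelField K₁ M) x) (ModelField K₁ M)
        ⟨x, Algebra.self_mem_adjoin_singleton A₀ x⟩ := rfl
    rw [this]
    exact isIntegral_algebraMap
  -- `2` is a unit of `A₀`
  have h2 : IsUnit (((2 ^ 20 : ℕ) : ℕ) : A₀) := by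
    apply Fermat.Agent.H2.klbr_isUnit_natCast_of_coprime hqA
    apply Nat.Coprime.pow_left
    rw [Nat.coprime_primes Nat.prime_two hq]
    exact fun h => hq2 h.symm
  obtain ⟨c₀, hc₀⟩ := h2.exists_left_inv
  have hc : algebraMap A₀ ↥(chartRing A₀ (ModelField K₁ M) x) c₀ * 2 ^ 20 = 1 := by
    have := congrArg (algebraMap A₀ ↥(chartRing A₀ (ModelField K₁ M) x)) hc₀
    rw [map_mul, map_one] at this
    rw [← this]
    congr 1
    rw [map_natCast]
    push_cast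
    norm_num
  obtain ⟨hHint, u, huint, hu⟩ :=
    Fermat.Agent.H48.SSHaupt.isIntegral_haupt_unit _ hc x H hxint hH0 hH16 hrelM
  have hHB : H ∈ chartClosure A₀ (ModelField K₁ M) x := (hmem H).2 hHint
  have huB : u ∈ chartClosure A₀ (ModelField K₁ M) x := (hmem u).2 huint
  -- the inverse of `Q(H) = H⁴ (H + 16)`
  have h16B : (16 : ModelField K₁ M) ∈ chartClosure A₀ (ModelField K₁ M) x := by
    have : (16 : ModelField K₁ M) = algebraMap A₀ (ModelField K₁ M) 16 := (map_ofNat _ 16).symm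
    rw [this]
    exact (chartClosure A₀ (ModelField K₁ M) x).algebraMap_mem 16
  have hvB : u ^ 4 * (H + 16) ^ 3 ∈ chartClosure A₀ (ModelField K₁ M) x :=
    (chartClosure A₀ (ModelField K₁ M) x).mul_mem
      ((chartClosure A₀ (ModelField K₁ M) x).pow_mem huB 4)
      ((chartClosure A₀ (ModelField K₁ M) x).pow_mem
        ((chartClosure A₀ (ModelField K₁ M) x).add_mem hHB h16B) 3)
  have hvQ : u ^ 4 * (H + 16) ^ 3 * aeval H (h4Den A₀) = 1 := by
    rw [h4Den_aeval]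
    have : u ^ 4 * (H + 16) ^ 3 * (H ^ 4 * (H + 16)) = (u * (H * (H + 16))) ^ 4 := by ring
    rw [this, hu, one_pow]
  have hrel : x * aeval H (h4Den A₀) = aeval H (h4Num A₀) := by
    rw [h4Den_aeval, h4Num_aeval, ← hrelM]
    ring
  have hdeg : (h4Den A₀).natDegree < (h4Num A₀).natDegree := by
    rw [h4Den_natDegree, h4Num_natDegree]
    norm_num
  -- the contraction to the chart `H`
  set ι := cchIncl A₀ (ModelField K₁ M) x H hHB with hι
  set 𝔫' : Ideal ↥(chartClosure A₀ (ModelField K₁ M) H) := 𝔫.comap ι with h𝔫'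
  have h𝔫'max : 𝔫'.IsMaximal :=
    cch_isMaximal_comap A₀ (ModelField K₁ M) ϖ hϖ x H (h4Num A₀) (h4Den A₀) (h4Num_monic A₀)
      hdeg hrel hHB 𝔫 h𝔫 hϖ𝔫
  haveI hp𝔫' := h𝔫'max.isPrime
  have hϖ𝔫' : algebraMap A₀ ↥(chartClosure A₀ (ModelField K₁ M) H) ϖ ∈ 𝔫' := by
    rw [h𝔫', Ideal.mem_comap, hι, cchIncl_algebraMap]
    exact hϖ𝔫
  have hQunit : (⟨u ^ 4 * (H + 16) ^ 3, hvB⟩ : ↥(chartClosure A₀ (ModelField K₁ M) x)) *
      ι (cchEv A₀ (ModelField K₁ M) H (h4Den A₀)) = 1 := Subtype.ext hvQ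
  have hQ𝔫' : cchEv A₀ (ModelField K₁ M) H (h4Den A₀) ∉ 𝔫' := by
    intro hmem
    apply h𝔫.ne_top
    rw [Ideal.eq_top_iff_one, ← hQunit]
    exact Ideal.mul_mem_left _ _ (Ideal.mem_comap.1 hmem)
  -- regularity in the chart `H` with the parameter `g(H)`
  obtain ⟨g, hgm, hgirr, hg𝔫'⟩ :=
    ordPoint_exists_monic A₀ (ModelField K₁ M) ϖ hϖ H 𝔫' h𝔫'max hϖ𝔫'
  have hgen : ∀ F : A₀[X], (∃ p r : A₀[X], F = C ϖ * p + g * r) →
      cchEv A₀ (ModelField K₁ M) H F ∈ 𝔫' := by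
    rintro F ⟨p, r, rfl⟩
    rw [map_add, map_mul, map_mul, ssp_cchEv_C]
    exact Ideal.add_mem _ (Ideal.mul_mem_right _ _ hϖ𝔫') (Ideal.mul_mem_right _ _ hg𝔫')
  have hQsplit : cchEv A₀ (ModelField K₁ M) H (h4Den A₀) =
      cchEv A₀ (ModelField K₁ M) H X ^ 4 * cchEv A₀ (ModelField K₁ M) H (X + C 16) := by
    rw [h4Den, map_mul, map_pow]
  have hX : ¬ ∃ p r : A₀[X], (X : A₀[X]) = C ϖ * p + g * r := by
    intro h
    apply hQ𝔫'
    rw [hQsplit]
    exact Ideal.mul_mem_right _ _ (Ideal.pow_mem_of_mem _ (hgen _ h) 4 (by norm_num))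
  have hX16 : ¬ ∃ p r : A₀[X], (X + C 16 : A₀[X]) = C ϖ * p + g * r := by
    intro h
    apply hQ𝔫'
    rw [hQsplit]
    exact Ideal.mul_mem_left _ _ (hgen _ h)
  have hUN : UnramifiedNear A₀ (ModelField K₁ M) ϖ H g :=
    Fermat.Agent.H33.SS.modelUnramified_h4 M h4 K₁ A₀ ϖ hϖ H hH g hgm hgirr hX hX16
  have hGB : GoodBasis A₀ (ModelField K₁ M) ϖ H :=
    Fermat.Agent.H98.SS.modelGoodBasis_h4 M q hq hqM hq2 K₁ A₀ hqA ϖ hϖ H hH
  have hHtr : Transcendental A₀ H :=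
    Fermat.Agent.H98.SS.modelTranscendental_h4 M K₁ A₀ H hH
  have hregg : ∀ z ∈ 𝔫', ∃ s, s ∉ 𝔫' ∧ ∃ b₁ b₂ : ↥(chartClosure A₀ (ModelField K₁ M) H),
      s * z = algebraMap A₀ ↥(chartClosure A₀ (ModelField K₁ M) H) ϖ * b₁ +
        cchEv A₀ (ModelField K₁ M) H g * b₂ := by
    intro z hz
    obtain ⟨s, hs, b₁, hb₁, b₂, hb₂, hsz⟩ :=
      etale_point_chart A₀ (ModelField K₁ M) hinj ϖ hϖ H hHtr hGB g hgm hgirr hUN 𝔫' h𝔫'max z hz
    exact ⟨s, hs, ⟨b₁, hb₁⟩, ⟨b₂, hb₂⟩, Subtype.ext hsz⟩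
  -- the parameter `F(H)`, `F = X ^ (q ^ 2) - X`
  haveI hchar : CharP (IsLocalRing.ResidueField A₀) q := by
    rw [CharP.charP_iff_prime_eq_zero hq]
    have h1 : IsLocalRing.residue A₀ ((q : ℕ) : A₀) = 0 :=
      (IsLocalRing.residue_eq_zero_iff _).2 ((IsLocalRing.mem_maximalIdeal _).2 hqA)
    rwa [map_natCast] at h1
  have hFsep : ((X ^ (q ^ 2) - X : A₀[X]).map (IsLocalRing.residue A₀)).Separable := by
    rw [Polynomial.map_sub, Polynomial.map_pow, Polynomial.map_X]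
    exact galois_poly_separable q (q ^ 2) (dvd_pow_self q two_ne_zero)
  have hιF : ι (cchEv A₀ (ModelField K₁ M) H (X ^ (q ^ 2) - X)) = -U := by
    apply Subtype.ext
    show aeval H (X ^ (q ^ 2) - X : A₀[X]) = -(U : ModelField K₁ M)
    rw [hU, map_sub, map_pow, aeval_X]
    ring
  have hF𝔫' : cchEv A₀ (ModelField K₁ M) H (X ^ (q ^ 2) - X) ∈ 𝔫' := by
    rw [h𝔫', Ideal.mem_comap, hιF]
    exact neg_mem hU𝔫
  have hregF := ssp_reg_swap A₀ (ModelField K₁ M) hϖ H 𝔫' hp𝔫' hϖ𝔫' g (X ^ (q ^ 2) - X) hgirr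
    hg𝔫' hF𝔫' hFsep hregg
  have hfin := ssp_cch_reg_param A₀ (ModelField K₁ M) ϖ x H (h4Num A₀) (h4Den A₀) hrel hHB
    (u ^ 4 * (H + 16) ^ 3) hvB hvQ 𝔫 hp𝔫 _ hregF
  intro z hz
  obtain ⟨s, hs, b₁, b₂, hsz⟩ := hfin z hz
  refine ⟨s, hs, b₁, -b₂, ?_⟩
  rw [hsz, ← hι, hιF]
  ring

end Model

end Fermat.Agent.H59.SS
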