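import Mathlib
import Fermat.Agent.H59.SS.LevelRegFrobDefs
import Fermat.Agent.H59.SS.LevelRegSS

/-!
# P-SS2 row 900, input of (N) NodeGen: level-`M` regularity with the explicit Frobenius
parameter, level 4 (`q` odd, `4 ∣ M`) (helper59)
-/

set_option autoImplicit false

noncomputable section

namespace Fermat.Agent.H59.SS

open ModularCurve
open Fermat.Agent.H22.KL Fermat.Agent.H8.SS

/-- **Level-`M` regularity with the explicit parameter `H - H ^ (q ^ 2)`**, `H` the Hauptmodul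
of level `4` (`4 ∣ M`, `q` an odd prime, `q ∤ M`). -/
theorem modelLevelRegFrob_h4 (M q : ℕ) [NeZero M] [NeZero q] (hq : q.Prime) (hq2 : q ≠ 2)
    (hqM : ¬ q ∣ M) (h4 : 4 ∣ M) : ModelLevelRegFrobStatement M q (h4S ℚ) :=
  fun K₁ _ _ _ A₀ _ _ _ _ _ _ _ hqA ϖ hϖ x hx 𝔫 h𝔫 hϖ𝔫 U H hH hU hU𝔫 =>
    modelLevelReg_h4_frob M q hq hq2 hqM h4 K₁ A₀ hqA ϖ hϖ x hx 𝔫 h𝔫 hϖ𝔫 U H hH hU hU𝔫

/-- The same with the series written as `coeffMap (Int.castRingHom ℚ) h4Z`. -/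
theorem modelLevelRegFrob_h4Z (M q : ℕ) [NeZero M] [NeZero q] (hq : q.Prime) (hq2 : q ≠ 2)
    (hqM : ¬ q ∣ M) (h4 : 4 ∣ M) :
    ModelLevelRegFrobStatement M q (coeffMap (Int.castRingHom ℚ) h4Z) :=
  modelLevelRegFrob_h4 M q hq hq2 hqM h4

end Fermat.Agent.H59.SS
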