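import Mathlib
import Fermat.Agent.H35.KLGB.Tower

/-!
# KL-GB, tower step with a general denominator (helper59)

`goodBasis_towerD` : let `A` be a discrete valuation ring with uniformiser `ϖ`, `E ⊇ A` a field
of characteristic zero, `j, t ∈ E` with `t` transcendental over `A` and `j * D(t) = R(t)` for
`R, D ∈ A[X]`, `R` monic, `deg D < deg R`, `ϖ ∤ D`, `u R + v D = 1`.  Then
`GoodBasis A E ϖ j → GoodBasis A E ϖ t`.

This generalises `Fermat.Agent.H35.KLGB.goodBasis_tower` (`D = X ^ e`), with the same proof.
Application: the Hauptmodul `t = H₉` of level `9` over `j = t₃`, `t₃ (H² + 9 H + 27) = H³`.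
-/

set_option autoImplicit false
set_option linter.style.haveILetI false
set_option linter.unusedSectionVars false

noncomputable section

namespace Fermat.Agent.H59.SS

open Fermat.Agent.H91 Fermat.Agent.H22.KL Fermat.Agent.H35.KLGB Polynomial
open Fermat.Agent.H67.KLConn (PiDvd)

section TowerFacts

variable {A : Type} [CommRing A] {E : Type} [Field E] [Algebra A E] {j t : E}
  {R D : A[X]}

/-- `t` is integral over `A[j]` when `j D(t) = R(t)` with `R` monic, `deg D < deg R` -/
theorem towerD_isIntegral_t (hR : R.Monic) (hdeg : D.natDegree < R.natDegree)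
    (hrel : j * aeval t D = aeval t R) : IsIntegral ↥(chartRing A E j) t := by
  set jj : ↥(chartRing A E j) := ⟨j, Algebra.self_mem_adjoin_singleton A j⟩ with hjj
  refine ⟨R.map (algebraMap A ↥(chartRing A E j)) -
    C jj * D.map (algebraMap A ↥(chartRing A E j)), ?_, ?_⟩
  · refine Polynomial.Monic.sub_of_left (hR.map _) ?_
    rw [← Polynomial.smul_eq_C_mul]
    refine (Polynomial.degree_smul_le _ _).trans_lt ?_
    refine (Polynomial.degree_map_le).trans_lt ?_
    rw [Polynomial.degree_eq_natDegree (hR.map _).ne_zero, hR.natDegree_map]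
    exact lt_of_le_of_lt Polynomial.degree_le_natDegree (WithBot.coe_lt_coe.mpr hdeg)
  · rw [Polynomial.eval₂_sub, Polynomial.eval₂_map, Polynomial.eval₂_mul, Polynomial.eval₂_C,
      Polynomial.eval₂_map, ← IsScalarTower.algebraMap_eq, ← Polynomial.aeval_def]
    have h1 : algebraMap ↥(chartRing A E j) E jj = j := rfl
    have h2 : Polynomial.eval₂ (algebraMap A E) t D = aeval t D := (Polynomial.aeval_def t D).symm
    rw [h1, h2, hrel]
    exact sub_self _

theorem towerD_le_chartClosure (hR : R.Monic) (hdeg : D.natDegree < R.natDegree)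
    (hrel : j * aeval t D = aeval t R) :
    Algebra.adjoin A ({j, t} : Set E) ≤ chartClosure A E j := by
  refine Algebra.adjoin_le ?_
  intro y hy
  rcases hy with rfl | hy
  · have h : IsIntegral ↥(chartRing A E y) y :=
      isIntegral_algebraMap (R := ↥(chartRing A E y)) (A := E)
        (x := ⟨y, Algebra.self_mem_adjoin_singleton A y⟩)
    exact h
  · rw [Set.mem_singleton_iff] at hy
    subst hy
    exact towerD_isIntegral_t hR hdeg hrel

/-- `D(t)⁻¹ ∈ A[j, t]` when `u R + v D = 1` -/
theorem towerD_inv_mem {u v : A[X]} (hcop : u * R + v * D = 1)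
    (hrel : j * aeval t D = aeval t R) :
    (aeval t D)⁻¹ ∈ Algebra.adjoin A ({j, t} : Set E) := by
  have hjm : j ∈ Algebra.adjoin A ({j, t} : Set E) := Algebra.subset_adjoin (by simp)
  have hpm : ∀ p : A[X], aeval t p ∈ Algebra.adjoin A ({j, t} : Set E) := fun p =>
    Algebra.adjoin_mono (by simp) (Polynomial.aeval_mem_adjoin_singleton A t)
  have key : (aeval t u * j + aeval t v) * aeval t D = 1 := by
    have h1 := congrArg (aeval t) hcop
    rw [map_add, map_mul, map_mul, map_one, ← hrel] at h1
    rw [← h1]
    ring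
  have hinv : (aeval t D)⁻¹ = aeval t u * j + aeval t v :=
    (eq_inv_of_mul_eq_one_left key).symm
  rw [hinv]
  exact Subalgebra.add_mem _ (Subalgebra.mul_mem _ (hpm u) hjm) (hpm v)

/-- elements of `A[j]` become elements of `A[t]` after multiplication by a power of `D(t)` -/
theorem towerD_scale (hrel : j * aeval t D = aeval t R) :
    ∀ c ∈ chartRing A E j, ∃ k : ℕ, aeval t D ^ k * c ∈ chartRing A E t := by
  intro c hc
  have hDm : aeval t D ∈ chartRing A E t := Polynomial.aeval_mem_adjoin_singleton A t
  induction hc using Algebra.adjoin_induction with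
  | mem y hy =>
    rw [Set.mem_singleton_iff] at hy
    subst hy
    refine ⟨1, ?_⟩
    rw [pow_one, mul_comm, hrel]
    exact Polynomial.aeval_mem_adjoin_singleton A t
  | algebraMap a =>
    refine ⟨0, ?_⟩
    rw [pow_zero, one_mul]
    exact Subalgebra.algebraMap_mem _ a
  | add y z _ _ hy hz =>
    obtain ⟨k, hk⟩ := hy
    obtain ⟨l, hl⟩ := hz
    refine ⟨k + l, ?_⟩
    have h1 : aeval t D ^ (k + l) * (y + z) =
        aeval t D ^ l * (aeval t D ^ k * y) + aeval t D ^ k * (aeval t D ^ l * z) := by
      rw [pow_add]; ring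
    rw [h1]
    exact Subalgebra.add_mem _ (Subalgebra.mul_mem _ (Subalgebra.pow_mem _ hDm _) hk)
      (Subalgebra.mul_mem _ (Subalgebra.pow_mem _ hDm _) hl)
  | mul y z _ _ hy hz =>
    obtain ⟨k, hk⟩ := hy
    obtain ⟨l, hl⟩ := hz
    refine ⟨k + l, ?_⟩
    have h1 : aeval t D ^ (k + l) * (y * z) = (aeval t D ^ k * y) * (aeval t D ^ l * z) := by
      rw [pow_add]; ring
    rw [h1]
    exact Subalgebra.mul_mem _ hk hl

end TowerFacts

section Chart

variable {A : Type} [CommRing A] [IsDomain A] [IsDiscreteValuationRing A]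
  {E : Type} [Field E] [Algebra A E] {x : E}

/-- `ϖ` does not divide a power of `D(x)` in `A[x]` if `ϖ ∤ D` -/
theorem chartD_not_dvd_pow (hx : Transcendental A x) {ϖ : A} (hϖ : Irreducible ϖ) {D : A[X]}
    (hD : ¬ (C ϖ ∣ D)) (a : ℕ) :
    ¬ (algebraMap A ↥(chartRing A E x) ϖ) ∣
      (⟨aeval x D, Polynomial.aeval_mem_adjoin_singleton A x⟩ : ↥(chartRing A E x)) ^ a := by
  intro h
  have h1 := (chart_prime hx hϖ).dvd_of_dvd_pow h
  obtain ⟨r, hr⟩ := h1
  obtain ⟨p, rfl⟩ := (chartEquiv hx).surjective r
  have h2 : (chartEquiv hx) D = (chartEquiv hx) (C ϖ * p) := by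
    rw [map_mul, chartEquiv_C hx, ← hr]
    apply Subtype.ext
    rw [chartEquiv_coe hx]
  have h3 := (chartEquiv hx).injective h2
  exact hD ⟨p, h3⟩

end Chart

section Main

variable (A : Type) [CommRing A] [IsDomain A] [IsDiscreteValuationRing A]
  (E : Type) [Field E] [Algebra A E] [CharZero E]

theorem chartField_le_of_relD {j t : E} {R D : A[X]} (hD0 : aeval t D ≠ 0)
    (hrel : j * aeval t D = aeval t R) : chartField A E j ≤ chartField A E t := by
  have hjm : j ∈ chartField A E t := by
    have h1 : j = aeval t R / aeval t D := by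
      rw [← hrel, mul_div_assoc, div_self hD0, mul_one]
    rw [h1]
    exact div_mem (Subfield.subset_closure (Polynomial.aeval_mem_adjoin_singleton A t))
      (Subfield.subset_closure (Polynomial.aeval_mem_adjoin_singleton A t))
  have key : ∀ y, y ∈ Algebra.adjoin A ({j} : Set E) → y ∈ chartField A E t := by
    intro y hy
    induction hy using Algebra.adjoin_induction with
    | mem z hz =>
      rw [Set.mem_singleton_iff] at hz
      subst hz
      exact hjm
    | algebraMap a =>
      exact Subfield.subset_closure (Subalgebra.algebraMap_mem _ a)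
    | add y z _ _ hy hz => exact add_mem hy hz
    | mul y z _ _ hy hz => exact mul_mem hy hz
  exact Subfield.closure_le.mpr key

/-- **KL-GB, tower step with a general denominator.**  Let `j, t ∈ E` with `t` transcendental
over the discrete valuation ring `A` and `j * D(t) = R(t)`, `R` monic, `deg D < deg R`,
`ϖ ∤ D`, `u R + v D = 1`.  A good basis of `E` in the chart `j` gives a good basis of `E` in the
chart `t`. -/
theorem goodBasis_towerD
    (ϖ : A) (hϖ : Irreducible ϖ) (j t : E) (ht : Transcendental A t)
    (R D u v : A[X]) (hR : R.Monic) (hdeg : D.natDegree < R.natDegree)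
    (hD : ¬ (C ϖ ∣ D)) (hcop : u * R + v * D = 1) (hrel : j * aeval t D = aeval t R)
    (hGB : GoodBasis A E ϖ j) : GoodBasis A E ϖ t := by
  classical
  have hDne : D ≠ 0 := by
    rintro rfl
    exact hD (dvd_zero _)
  have hD0 : aeval t D ≠ 0 := by
    intro h0
    exact hDne ((transcendental_iff_injective.1 ht) (by rw [h0, map_zero]))
  have hintt : IsIntegral ↥(chartRing A E j) t := towerD_isIntegral_t hR hdeg hrel
  have hj : Transcendental A j := tower_transcendental ht hintt
  have hle : chartField A E j ≤ chartField A E t := chartField_le_of_relD A E hD0 hrel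
  have hS3 := towerD_le_chartClosure hR hdeg hrel
  -- instances for `j`
  letI algj : Algebra ↥(chartRing A E j) ↥(chartField A E j) := chartAlgebra A E j
  haveI towj : IsScalarTower ↥(chartRing A E j) ↥(chartField A E j) E := chartTower A E j
  haveI fracj : IsFractionRing ↥(chartRing A E j) ↥(chartField A E j) := chartFraction A E j
  haveI icj : IsIntegrallyClosed ↥(chartRing A E j) := chart_isIntegrallyClosed hj
  -- instances for `t`
  letI algt : Algebra ↥(chartRing A E t) ↥(chartField A E t) := chartAlgebra A E t
  haveI towt : IsScalarTower ↥(chartRing A E t) ↥(chartField A E t) E := chartTower A E t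
  haveI fract : IsFractionRing ↥(chartRing A E t) ↥(chartField A E t) := chartFraction A E t
  haveI ict : IsIntegrallyClosed ↥(chartRing A E t) := chart_isIntegrallyClosed ht
  haveI noet : IsNoetherianRing ↥(chartRing A E t) := chart_isNoetherianRing ht
  haveI ufmt : UniqueFactorizationMonoid ↥(chartRing A E t) := chart_ufm ht
  haveI pirt : IsPrincipalIdealRing
      (↥(chartRing A E t) ⧸ Ideal.span {algebraMap A ↥(chartRing A E t) ϖ}) :=
    chart_quot_pir ht hϖ
  -- the tower of fields
  letI algK : Algebra ↥(chartField A E j) ↥(chartField A E t) := subfieldAlgebra hle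
  haveI towK : IsScalarTower ↥(chartField A E j) ↥(chartField A E t) E := subfieldTower hle
  obtain ⟨n, b, hb, hd⟩ := hGB
  haveI fdj : FiniteDimensional ↥(chartField A E j) E := Module.Finite.of_basis b
  haveI fdt : FiniteDimensional ↥(chartField A E t) E :=
    FiniteDimensional.right ↥(chartField A E j) ↥(chartField A E t) E
  have hpj := chart_prime hj hϖ
  have hpt := chart_prime ht hϖ
  set g : ↥(chartRing A E t) := ⟨aeval t D, Polynomial.aeval_mem_adjoin_singleton A t⟩ with hg
  -- Step 1: good basis at `(ϖ)` for `j` in abstract form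
  have h1 : HasGoodBasisAt ↥(chartRing A E j) ↥(chartField A E j) E
      (Ideal.span {algebraMap A ↥(chartRing A E j) ϖ}) := by
    refine hasGoodBasisAt_of_basis b hb _ ?_
    rintro ⟨r, hr⟩
    apply hd
    refine ⟨r.1, r.2, ?_⟩
    rw [pow_one]
    refine hr.trans ?_
    rw [map_mul, Algebra.smul_def]
    rfl
  have h2 := h1.traceNondegAt_span hpj
  -- Step 2: the tower step for the trace form
  have h3 : TraceNondegAt ↥(chartRing A E t) ↥(chartField A E t) E
      (Ideal.span {algebraMap A ↥(chartRing A E t) ϖ}) := by
    have hpp : algebraMap ↥(chartRing A E j) E (algebraMap A ↥(chartRing A E j) ϖ)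
        = algebraMap ↥(chartRing A E t) E (algebraMap A ↥(chartRing A E t) ϖ) :=
      (subalg_algebraMap_base (chartRing A E j) ϖ).trans
        (subalg_algebraMap_base (chartRing A E t) ϖ).symm
    refine traceNondegAt_tower (R₁ := ↥(chartRing A E j)) (K₁ := ↥(chartField A E j))
      (R₂ := ↥(chartRing A E t)) (K₂ := ↥(chartField A E t)) (E := E)
      (p₁ := algebraMap A ↥(chartRing A E j) ϖ) (p₂ := algebraMap A ↥(chartRing A E t) ϖ)
      hpt hpp g (chartD_not_dvd_pow ht hϖ hD) ?_ ?_ ?_ h2
    · -- (a)
      intro x hx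
      have hx' : IsIntegral ↥(integralClosure ↥(chartRing A E j) E) x := by
        obtain ⟨a, ha⟩ := exists_pow_smul_isIntegral (S₁ := ↥(chartRing A E t))
          (S₂ := ↥(integralClosure ↥(chartRing A E j) E)) (E := E) 1
          (fun c => ⟨0, ⟨c.1, hS3 (Algebra.adjoin_mono (by simp) c.2)⟩, by
            rw [pow_zero, map_one, one_mul]; rfl⟩) hx
        rwa [one_pow, one_smul] at ha
      exact isIntegral_trans x hx'
    · -- (b)
      intro y hy
      refine exists_pow_smul_isIntegral (S₁ := ↥(chartRing A E j))
        (S₂ := ↥(chartRing A E t)) (E := E) _ (fun c => ?_) hy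
      obtain ⟨k, hk⟩ := towerD_scale hrel c.1 c.2
      refine ⟨k, ⟨_, hk⟩, ?_⟩
      rw [map_pow]
      rfl
    · -- (c)
      letI algjt : Algebra ↥(chartRing A E j) ↥(chartField A E t) :=
        subalgAlgebraComp (chartRing A E j) (chartField A E j) (chartField A E t)
          (chartRing_le_chartField A E j) hle
      haveI : IsScalarTower ↥(chartRing A E j) ↥(chartField A E j) ↥(chartField A E t) :=
        subalgTowerComp (chartRing A E j) (chartField A E j) (chartField A E t)
          (chartRing_le_chartField A E j) hle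
      haveI : IsScalarTower ↥(chartRing A E j) ↥(chartField A E t) E :=
        subalgTowerComp' (chartRing A E j) (chartField A E j) (chartField A E t)
          (chartRing_le_chartField A E j) hle
      haveI : FiniteDimensional ↥(chartField A E j) ↥(chartField A E t) :=
        FiniteDimensional.left ↥(chartField A E j) ↥(chartField A E t) E
      intro r a
      have hz : IsIntegral ↥(chartRing A E j)
          (algebraMap ↥(chartRing A E t) ↥(chartField A E t) r /
            algebraMap ↥(chartRing A E t) ↥(chartField A E t) g ^ a) := by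
        rw [← isIntegral_algebraMap_iff (algebraMap ↥(chartField A E t) E).injective]
        have himg := subalg_div_pow_coe (chartRing A E t) (chartField A E t)
          (chartRing_le_chartField A E t) r g a
        rw [himg]
        exact hS3 (Subalgebra.mul_mem _ (Algebra.adjoin_mono (by simp) r.2)
          (Subalgebra.pow_mem _ (towerD_inv_mem hcop hrel) a))
      exact IsIntegrallyClosed.isIntegral_iff.mp
        (Algebra.isIntegral_trace (R := ↥(chartRing A E j)) (L := ↥(chartField A E j)) hz)
  -- Step 3: a good basis for `t`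
  haveI : CharZero ↥(chartField A E t) :=
    RingHom.charZero (algebraMap ↥(chartField A E t) E)
  haveI : Algebra.IsSeparable ↥(chartField A E t) E :=
    Algebra.IsAlgebraic.isSeparable_of_perfectField
  haveI : Module.Finite ↥(chartRing A E t) ↥(integralClosure ↥(chartRing A E t) E) :=
    IsIntegralClosure.finite ↥(chartRing A E t) ↥(chartField A E t) E _
  have h4 := hasGoodBasisAt_of_traceNondegAt hpt h3
  obtain ⟨m, c, hc, hdc⟩ := exists_basis_of_hasGoodBasisAt h4
  refine ⟨m, c, hc, ?_⟩
  rintro ⟨r, hr, hrd⟩
  apply hdc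
  refine ⟨⟨r, hr⟩, ?_⟩
  rw [pow_one] at hrd
  refine hrd.trans ?_
  rw [map_mul, Algebra.smul_def]
  rfl

end Main

end Fermat.Agent.H59.SS
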