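import Mathlib
import Fermat.Agent.H59.SS.TowerD
import Fermat.Agent.H27.KLGB.ModelTower
import Fermat.Agent.H31.SS.Haupt9Field
import Fermat.Agent.H58.KL.ModelTr

/-!
# P-SS, level-9 twin of row 960 : the good basis in the chart `H₉` (helper59)

`modelGoodBasis_h9 (N ℓ) (hl : ℓ.Prime) (hN : ¬ ℓ ∣ N) (h3 : ℓ ≠ 3) :
    ModelGoodBasisStatement N ℓ (h9S ℚ)`

for the Hauptmodul `H₉` of level `9` of helper31 (`Fermat.Agent.H31.SS.h9S`); in the application
`ℓ = 2`.  Proof: the tower step with a general denominator (`goodBasis_towerD`) from the chart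
`t₃` (landed: `Fermat.Agent.H27.KLGB.modelGoodBasis_t3`) to the chart `H₉`, with the relation
`t₃ (H² + 9 H + 27) = H³` (`h9_cube`), `R = X³`, `D = X² + 9 X + 27`,
`729 = - (2 X + 9) X³ + (2 X² - 9 X + 27) D`.
-/

set_option autoImplicit false
set_option linter.style.haveILetI false
set_option linter.unusedSectionVars false
set_option synthInstance.maxHeartbeats 400000
set_option maxHeartbeats 1000000

noncomputable section

open ModularCurve Polynomial IntermediateField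
open Fermat.Agent.H22.KL Fermat.Agent.H67.KLConn

namespace Fermat.Agent.H59.SS

/-- `coeffEmb K₁ (t3 ℚ) = t3 K₁`. -/
theorem ssp_coeffEmb_t3 (K₁ : Type) [Field K₁] [Algebra ℚ K₁] :
    coeffEmb K₁ (Fermat.Agent.H1.ESD.t3 ℚ) = Fermat.Agent.H1.ESD.t3 K₁ := by
  rw [coeffEmb, Fermat.Agent.H1.ESD.coeffMap_t3]

section Poly

variable {A : Type} [CommRing A]

/-- the cusp polynomial `D = X² + 9 X + 27` of level `9` -/
def h9D (A : Type) [CommRing A] : A[X] := X ^ 2 + 9 * X + 27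

theorem h9D_eq : h9D A = X ^ 2 + (C 9 * X + C 27) := by
  unfold h9D
  rw [map_ofNat C 9, map_ofNat C 27]
  ring

theorem h9D_monic [Nontrivial A] : (h9D A).Monic := by
  rw [h9D_eq]
  refine Polynomial.monic_X_pow_add ?_
  exact lt_of_le_of_lt (Polynomial.degree_linear_le) (by norm_num)

theorem h9D_natDegree [Nontrivial A] : (h9D A).natDegree = 2 := by
  have hlt : (C (9 : A) * X + C 27 : A[X]).degree < (X ^ 2 : A[X]).degree := by
    rw [Polynomial.degree_X_pow]
    exact lt_of_le_of_lt (Polynomial.degree_linear_le) (by norm_num)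
  have h : (h9D A).degree = ((2 : ℕ) : WithBot ℕ) := by
    rw [h9D_eq, Polynomial.degree_add_eq_left_of_degree_lt hlt, Polynomial.degree_X_pow]
  exact Polynomial.natDegree_eq_of_degree_eq_some h

theorem h9D_aeval {E : Type} [CommRing E] [Algebra A E] (t : E) :
    aeval t (h9D A) = t ^ 2 + 9 * t + 27 := by
  unfold h9D
  simp only [map_add, map_pow, map_mul, aeval_X, map_ofNat]

/-- the Bezout relation `- w (2 X + 9) X³ + w (2 X² - 9 X + 27) D = 1` for `729 w = 1` -/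
theorem h9D_bezout (w : A) (hw : w * 729 = 1) :
    (C (-w) * (2 * X + 9)) * X ^ 3 + (C w * (2 * X ^ 2 - 9 * X + 27)) * h9D A = 1 := by
  unfold h9D
  have h1 : (C (-w) * (2 * X + 9)) * X ^ 3 +
      (C w * (2 * X ^ 2 - 9 * X + 27)) * (X ^ 2 + 9 * X + 27) = C w * 729 := by
    rw [C_neg]
    ring
  rw [h1, ← map_ofNat C 729, ← C_mul, hw, C_1]

end Poly

/-- **GB9**: the good basis statement in the chart `H₉` (Hauptmodul of level 9), for every
prime `ℓ ≠ 3`, `ℓ ∤ N`. -/
theorem modelGoodBasis_h9 (N ℓ : ℕ) [NeZero N] (hl : ℓ.Prime) (hN : ¬ ℓ ∣ N) (h3 : ℓ ≠ 3) :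
    ModelGoodBasisStatement N ℓ (Fermat.Agent.H31.SS.h9S ℚ) := by
  classical
  intro K₁ _ _ _ A₀ _ _ _ _ _ _ _ hℓ ϖ hϖ x hx
  haveI : CharZero K₁ := algebraRat.charZero K₁
  haveI : CharZero (ModelField K₁ N) :=
    charZero_of_injective_algebraMap (algebraMap K₁ (ModelField K₁ N)).injective
  set ι : ModelField K₁ N →+* LaurentSeries K₁ :=
    algebraMap (ModelField K₁ N) (LaurentSeries K₁) with hι
  have hιinj : Function.Injective ι := FaithfulSMul.algebraMap_injective _ _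
  have hιx : ι x = Fermat.Agent.H31.SS.h9S K₁ := by
    show (x : LaurentSeries K₁) = _
    rw [hx, Fermat.Agent.H31.SS.coeffEmb_h9S]
  -- `x` is transcendental
  have hxtr : Transcendental A₀ x :=
    Fermat.Agent.H58.modelTranscendental_of_order_ne_zero N (Fermat.Agent.H31.SS.h9S ℚ)
      (by rw [Fermat.Agent.H31.SS.h9S_order]; decide) K₁ A₀ x hx
  -- the quadratic factor
  set d : ModelField K₁ N := x ^ 2 + 9 * x + 27 with hd
  have hιd : ι d = Fermat.Agent.H31.SS.h9S K₁ ^ 2 + 9 * Fermat.Agent.H31.SS.h9S K₁ + 27 := by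
    rw [hd, map_add, map_add, map_mul, map_pow, hιx, map_ofNat, map_ofNat]
  have hd0 : d ≠ 0 := by
    intro h0
    apply Fermat.Agent.H31.SS.h9S_quad_ne_zero K₁
    rw [← hιd, h0, map_zero]
  -- `t₃` in the model field
  set t3E : ModelField K₁ N := x ^ 3 / d with ht3E
  have hrel0 : t3E * d = x ^ 3 := by
    rw [ht3E, div_mul_cancel₀ _ hd0]
  have hιt3 : ι t3E = Fermat.Agent.H1.ESD.t3 K₁ := by
    have h1 : ι t3E * ι d = ι x ^ 3 := by
      rw [← map_mul, hrel0, map_pow]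
    rw [hιx, Fermat.Agent.H31.SS.h9_cube K₁, hιd] at h1
    exact mul_right_cancel₀ (Fermat.Agent.H31.SS.h9S_quad_ne_zero K₁) h1
  have hGB3 : GoodBasis A₀ (ModelField K₁ N) ϖ t3E :=
    Fermat.Agent.H27.KLGB.modelGoodBasis_t3 N ℓ hl hN h3 K₁ A₀ hℓ ϖ hϖ t3E (by
      show ι t3E = _
      rw [hιt3, ssp_coeffEmb_t3])
  -- `729` is a unit
  have h729 : IsUnit ((729 : A₀)) := by
    have h4 := Fermat.Agent.H27.KLGB.isUnit_intCast_of_not_dvd ℓ hl hℓ _
      (Fermat.Agent.H27.KLGB.not_dvd_pow_of_prime_ne hl Nat.prime_three h3 6)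
    have h5 : ((((3 : ℕ) : ℤ) ^ 6 : ℤ) : A₀) = 729 := by
      push_cast
      norm_num
    rwa [h5] at h4
  obtain ⟨w, hw⟩ := h729.exists_left_inv
  -- the tower step `t₃ → H₉`
  have hrel : t3E * aeval x (h9D A₀) = aeval x (X ^ 3 : A₀[X]) := by
    rw [h9D_aeval, map_pow, aeval_X, ← hd, hrel0]
  have hD : ¬ (C ϖ ∣ h9D A₀) := by
    rintro ⟨r, hr⟩
    have h1 := congrArg (fun p : A₀[X] => p.coeff 2) hr
    simp only [coeff_C_mul] at h1
    have h2 : (h9D A₀).coeff 2 = 1 := by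
      have := (h9D_monic (A := A₀)).coeff_natDegree
      rwa [h9D_natDegree] at this
    rw [h2] at h1
    exact hϖ.not_isUnit (IsUnit.of_mul_eq_one _ h1.symm)
  exact goodBasis_towerD A₀ (ModelField K₁ N) ϖ hϖ t3E x hxtr (X ^ 3) (h9D A₀)
    (C (-w) * (2 * X + 9)) (C w * (2 * X ^ 2 - 9 * X + 27))
    (monic_X_pow 3) (by rw [h9D_natDegree, natDegree_X_pow]; norm_num) hD
    (h9D_bezout w hw) hrel hGB3

end Fermat.Agent.H59.SS
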