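import Mathlib
import Fermat.Agent.H59.SS.LocAModel
import Fermat.Agent.H59.SS.GoodBasisH9
import Fermat.Agent.H31.SS.CrossInterfaces9
import Fermat.Agent.H32.SS.ModelGenHaupt

/-!
# P-SS, row SSH-9, level-9 twin (`q = 2`, `9 ∣ M`) (helper59)

* `ssLocAModel9_of` : the good basis in the chart `H₉` (`modelGoodBasis_h9`) and the
  unramifiedness of the chart `H₉` off the cusps
  (`Fermat.Agent.H31.SS.ModelUnramifiedH9Statement M`) give the level-`M` tube
  `Fermat.Agent.H31.SS.SSLocAModel9Statement M q R` (`q ≠ 3` prime).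
* `ssPlaceGenCross9_of_data` : `Fermat.Agent.H45.SSPlaceGenCrossStatement M q jq R` from
  `Fermat.Agent.H31.SS.SSCrossData9Statement M q` (twin of row SSH-6) and
  `ModelUnramifiedH9Statement M`; everything else is plugged in.
-/

set_option autoImplicit false
set_option linter.unusedSectionVars false
set_option linter.style.haveILetI false

noncomputable section

namespace Fermat.Agent.H59.SS

open Polynomial IsLocalRing ModularCurve
open Fermat.Agent.H22.KL Fermat.Agent.H45 Fermat.Agent.H88.KLB Fermat.Agent.H41.SS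
open Fermat.Agent.H82.SS Fermat.Agent.H31.SS

section Units9

variable {A : Type} [CommRing A] [IsDomain A] [IsDiscreteValuationRing A]

/-- `p ∉ (ϖ, X - a₀)` if `p(a₀)` is a unit. -/
theorem ssp_not_mem_pair_eval {ϖ : A} (hϖ : Irreducible ϖ) (a₀ : A) (p : A[X])
    (hu : IsUnit (p.eval a₀)) :
    ¬ ∃ p' r : A[X], p = C ϖ * p' + (X - C a₀) * r := by
  rintro ⟨p', r, h⟩
  have h1 := congrArg (Polynomial.eval a₀) h
  simp only [eval_add, eval_X, eval_C, eval_mul, eval_sub, sub_self, zero_mul, add_zero] at h1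
  rw [h1] at hu
  exact hϖ.not_isUnit (isUnit_of_mul_isUnit_left hu)

/-- **No cusp at a point of residue characteristic `≠ 3`** (level `9`): if
`j H⁹ (H² + 9 H + 27) = (H + 9)³ (H³ + 243 H² + 2187 H + 6561)³` in a ring `B` and `𝔪` is a
prime ideal of `B` which contains no power of `3`, then `H ∉ 𝔪` and `H² + 9 H + 27 ∉ 𝔪`. -/
theorem ssp_h9_noncusp {B : Type} [CommRing B] (𝔪 : Ideal B) (h𝔪 : 𝔪.IsPrime) (xb Hb : B)
    (hrel : xb * Hb ^ 9 * (Hb ^ 2 + 9 * Hb + 27) =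
      (Hb + 9) ^ 3 * (Hb ^ 3 + 243 * Hb ^ 2 + 2187 * Hb + 6561) ^ 3)
    (h3 : ∀ n : ℕ, (3 : B) ^ n ∉ 𝔪) :
    Hb ∉ 𝔪 ∧ Hb ^ 2 + 9 * Hb + 27 ∉ 𝔪 := by
  have hR : ∀ z : B, xb * Hb ^ 9 * (Hb ^ 2 + 9 * Hb + 27) ∈ 𝔪 →
      Hb + 9 ∈ 𝔪 ∨ Hb ^ 3 + 243 * Hb ^ 2 + 2187 * Hb + 6561 ∈ 𝔪 := by
    intro _ h
    rw [hrel] at h
    rcases h𝔪.mem_or_mem h with h1 | h1
    · exact Or.inl (h𝔪.mem_of_pow_mem 3 h1)
    · exact Or.inr (h𝔪.mem_of_pow_mem 3 h1)
  constructor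
  · intro hH
    have hL : xb * Hb ^ 9 * (Hb ^ 2 + 9 * Hb + 27) ∈ 𝔪 :=
      Ideal.mul_mem_right _ _ (Ideal.mul_mem_left _ _ (Ideal.pow_mem_of_mem _ hH 9
        (by norm_num)))
    rcases hR 0 hL with h1 | h1
    · have h2 : (3 : B) ^ 2 ∈ 𝔪 := by
        have := Ideal.sub_mem _ h1 hH
        have e : Hb + 9 - Hb = (3 : B) ^ 2 := by ring
        rwa [e] at this
      exact h3 2 h2
    · have h2 : (3 : B) ^ 8 ∈ 𝔪 := by
        have h4 : Hb * (Hb ^ 2 + 243 * Hb + 2187) ∈ 𝔪 := Ideal.mul_mem_right _ _ hH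
        have := Ideal.sub_mem _ h1 h4
        have e : Hb ^ 3 + 243 * Hb ^ 2 + 2187 * Hb + 6561 - Hb * (Hb ^ 2 + 243 * Hb + 2187) =
            (3 : B) ^ 8 := by ring
        rwa [e] at this
      exact h3 8 h2
  · intro hQ
    have hL : xb * Hb ^ 9 * (Hb ^ 2 + 9 * Hb + 27) ∈ 𝔪 := Ideal.mul_mem_left _ _ hQ
    rcases hR 0 hL with h1 | h1
    · have h2 : (3 : B) ^ 3 ∈ 𝔪 := by
        have h4 : (Hb + 9) * Hb ∈ 𝔪 := Ideal.mul_mem_right _ _ h1
        have := Ideal.sub_mem _ hQ h4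
        have e : Hb ^ 2 + 9 * Hb + 27 - (Hb + 9) * Hb = (3 : B) ^ 3 := by ring
        rwa [e] at this
      exact h3 3 h2
    · -- `C - (H + 234) Q = 27 (2 H + 9)`, `4 Q - (2 H + 9)² = 27`
      have h5 : (3 : B) ^ 3 * (2 * Hb + 9) ∈ 𝔪 := by
        have h4 : (Hb + 234) * (Hb ^ 2 + 9 * Hb + 27) ∈ 𝔪 := Ideal.mul_mem_left _ _ hQ
        have := Ideal.sub_mem _ h1 h4
        have e : Hb ^ 3 + 243 * Hb ^ 2 + 2187 * Hb + 6561 -
            (Hb + 234) * (Hb ^ 2 + 9 * Hb + 27) = (3 : B) ^ 3 * (2 * Hb + 9) := by ring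
        rwa [e] at this
      have h6 : 2 * Hb + 9 ∈ 𝔪 := by
        rcases h𝔪.mem_or_mem h5 with h7 | h7
        · exact absurd h7 (h3 3)
        · exact h7
      have h2 : (3 : B) ^ 3 ∈ 𝔪 := by
        have h4 : (2 * Hb + 9) * (2 * Hb + 9) ∈ 𝔪 := Ideal.mul_mem_left _ _ h6
        have h8 : 4 * (Hb ^ 2 + 9 * Hb + 27) ∈ 𝔪 := Ideal.mul_mem_left _ _ hQ
        have := Ideal.sub_mem _ h8 h4
        have e : 4 * (Hb ^ 2 + 9 * Hb + 27) - (2 * Hb + 9) * (2 * Hb + 9) = (3 : B) ^ 3 := by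
          ring
        rwa [e] at this
      exact h3 3 h2

end Units9

section Rel9

/-- the relation `j H⁹ (H² + 9 H + 27) = (H + 9)³ (H³ + 243 H² + 2187 H + 6561)³` in a chart
closure of a model field, read off from the expansions. -/
theorem ssp_h9_rel_model (K₁ : Type) [Field K₁] [Algebra ℚ K₁] (N : ℕ) [NeZero N] (A₀ : Type)
    [CommRing A₀] [Algebra A₀ K₁] [Algebra A₀ (ModelField K₁ N)] (x : ModelField K₁ N)
    (xb Hb : chartClosure A₀ (ModelField K₁ N) x)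
    (e1 : ((xb : ModelField K₁ N) : LaurentSeries K₁) = jqModC K₁)
    (e2 : ((Hb : ModelField K₁ N) : LaurentSeries K₁) = h9S K₁) :
    xb * Hb ^ 9 * (Hb ^ 2 + 9 * Hb + 27) =
      (Hb + 9) ^ 3 * (Hb ^ 3 + 243 * Hb ^ 2 + 2187 * Hb + 6561) ^ 3 := by
  apply Subtype.ext
  apply Subtype.ext
  show ((xb : ModelField K₁ N) : LaurentSeries K₁) *
      ((Hb : ModelField K₁ N) : LaurentSeries K₁) ^ 9 *
      (((Hb : ModelField K₁ N) : LaurentSeries K₁) ^ 2 +
        9 * ((Hb : ModelField K₁ N) : LaurentSeries K₁) + 27) =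
    (((Hb : ModelField K₁ N) : LaurentSeries K₁) + 9) ^ 3 *
      (((Hb : ModelField K₁ N) : LaurentSeries K₁) ^ 3 +
        243 * ((Hb : ModelField K₁ N) : LaurentSeries K₁) ^ 2 +
        2187 * ((Hb : ModelField K₁ N) : LaurentSeries K₁) + 6561) ^ 3
  rw [e1, e2]
  exact h9_j K₁

end Rel9

section Model9

/-- **The level-`M` tube in the chart `H₉`** from the good basis and the unramifiedness off the
cusps (`q ≠ 3` a prime, in the application `q = 2`). -/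
theorem ssLocAModel9_of (M q : ℕ) [NeZero M] [NeZero q] (hq : q.Prime) (hq3 : q ≠ 3) (R : ℕ)
    (hGB : ModelGoodBasisStatement M q (h9S ℚ)) (hUnr : ModelUnramifiedH9Statement M) :
    SSLocAModel9Statement M q R := by
  intro K₁ _ _ _ A₀ _ _ _ _ _ _ _ hqnu hζ ϖ hϖ x hx W hW 𝔪 h𝔪 hϖ𝔪 hInf hZero H' hH'
  letI algL := ssAlgLevel K₁ M q
  letI algB := ssAlgBase K₁ M A₀
  haveI towerB : IsScalarTower A₀ K₁ (ModelField K₁ M) :=
    IsScalarTower.of_algebraMap_eq (fun _ => rfl)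
  haveI tower : IsScalarTower A₀ (ModelField K₁ M) (ModelField K₁ (M * q)) := by
    refine IsScalarTower.of_algebraMap_eq (fun a => ?_)
    rw [IsScalarTower.algebraMap_apply A₀ K₁ (ModelField K₁ (M * q))]
    exact ((heckeAlphaBar K₁ M q).commutes (algebraMap A₀ K₁ a)).symm
  haveI : CharZero K₁ := charZero_of_injective_algebraMap (algebraMap ℚ K₁).injective
  haveI : CharZero (ModelField K₁ M) :=
    charZero_of_injective_algebraMap (algebraMap K₁ (ModelField K₁ M)).injective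
  have hinj' : Function.Injective (algebraMap A₀ (ModelField K₁ M)) := by
    rw [IsScalarTower.algebraMap_eq A₀ K₁ (ModelField K₁ M)]
    exact (algebraMap K₁ (ModelField K₁ M)).injective.comp (IsFractionRing.injective A₀ K₁)
  have hH'emb : (H' : LaurentSeries K₁) = coeffEmb K₁ (h9S ℚ) := by
    rw [hH', coeffEmb_h9S]
  -- `x` comes from level `M`
  have hxr : x ∈ (algebraMap (ModelField K₁ M) (ModelField K₁ (M * q))).range := by
    have hjq : coeffEmb K₁ jq ∈ laurentBaseChange K₁ (modularFunctionFieldFull M) :=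
      coeffEmb_mem_laurentBaseChange K₁ (by
        have h := jqd_mem_full M (one_dvd M)
        rwa [qExpand_one_apply] at h)
    refine ⟨⟨coeffEmb K₁ jq, hjq⟩, ?_⟩
    apply Subtype.ext
    rw [hx]
    exact coe_heckeAlphaBar (L := K₁) (N := M) (ℓ := q) _
  haveI : Algebra.IsAlgebraic (ModelField K₁ M) (ModelField K₁ (M * q)) :=
    ssp_isAlgebraic_of_chart (A := A₀) x hxr
      (Fermat.Agent.H57.SS.modelFinite (M * q) K₁ A₀ x hx)
  -- `H ∈ B(x)`
  have hαH : ((algebraMap (ModelField K₁ M) (ModelField K₁ (M * q)) H' :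
      ModelField K₁ (M * q)) : LaurentSeries K₁) = h9S K₁ := by
    rw [← hH']
    exact coe_heckeAlphaBar (L := K₁) (N := M) (ℓ := q) H'
  have hy : algebraMap (ModelField K₁ M) (ModelField K₁ (M * q)) H' ∈
      chartClosure A₀ (ModelField K₁ (M * q)) x := by
    refine Fermat.Agent.H62.SS.mem_chartClosure_of_intJ (M * q) K₁ A₀ x _ hx ?_
    rw [hαH]
    exact intJ_h9S K₁
  -- the constants `3 ^ n` are units
  have hunit3 : ∀ n : ℕ, IsUnit ((3 : A₀) ^ n) := fun n => by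
    have h := Fermat.Agent.H27.KLGB.isUnit_intCast_of_not_dvd (A₀ := A₀) q hq hqnu _
      (Fermat.Agent.H27.KLGB.not_dvd_pow_of_prime_ne hq Nat.prime_three hq3 n)
    push_cast at h
    exact h
  have hnot𝔪 : ∀ c : A₀, IsUnit c →
      algebraMap A₀ (chartClosure A₀ (ModelField K₁ (M * q)) x) c ∉ 𝔪 := by
    intro c hc hmem
    exact h𝔪.ne_top (Ideal.eq_top_of_isUnit_mem _ hmem (hc.map _))
  -- the relation in `B(x)`
  have hxB : x ∈ chartClosure A₀ (ModelField K₁ (M * q)) x :=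
    Fermat.Agent.H62.SS.chartRing_le_chartClosure x (Fermat.Agent.H62.SS.self_mem_chartRing x)
  obtain ⟨Hb, hHb⟩ : ∃ Hb : chartClosure A₀ (ModelField K₁ (M * q)) x,
      Hb = ⟨algebraMap (ModelField K₁ M) (ModelField K₁ (M * q)) H', hy⟩ := ⟨_, rfl⟩
  obtain ⟨xb, hxb⟩ : ∃ xb : chartClosure A₀ (ModelField K₁ (M * q)) x, xb = ⟨x, hxB⟩ :=
    ⟨_, rfl⟩
  have hrel : xb * Hb ^ 9 * (Hb ^ 2 + 9 * Hb + 27) =
      (Hb + 9) ^ 3 * (Hb ^ 3 + 243 * Hb ^ 2 + 2187 * Hb + 6561) ^ 3 := by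
    have hxj : (x : LaurentSeries K₁) = jqModC K₁ := by
      rw [hx, coeffEmb, ← jqModC_rat, coeffMap_jqModC]
    refine ssp_h9_rel_model K₁ (M * q) A₀ x xb Hb ?_ ?_
    · rw [hxb]; exact hxj
    · rw [hHb]; exact hαH
  have h3B : ∀ n : ℕ, (3 : chartClosure A₀ (ModelField K₁ (M * q)) x) ^ n ∉ 𝔪 := by
    intro n
    have h := hnot𝔪 _ (hunit3 n)
    rwa [map_pow, map_ofNat] at h
  obtain ⟨hHn, hQn⟩ := ssp_h9_noncusp 𝔪 h𝔪.isPrime xb Hb hrel h3B
  refine ssLocA_of_tubeCoord hϖ x H' hy 𝔪 h𝔪.isPrime hϖ𝔪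
    (fun a₀ => IsUnit a₀ ∧ IsUnit (a₀ ^ 2 + 9 * a₀ + 27)) ?_ ?_
  · -- the values of `H` at a non-cuspidal point
    intro a₀ ha₀
    rw [← hHb] at ha₀
    have hpi : ∀ c : A₀, ¬ IsUnit c →
        algebraMap A₀ (chartClosure A₀ (ModelField K₁ (M * q)) x) c ∈ 𝔪 := by
      intro c hc
      obtain ⟨d, hd⟩ := ssp_dvd_of_not_isUnit hϖ hc
      rw [hd, map_mul]
      exact Ideal.mul_mem_left _ _ hϖ𝔪
    constructor
    · by_contra hnu
      apply hHn
      have := Ideal.add_mem _ ha₀ (hpi a₀ hnu)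
      rwa [sub_add_cancel] at this
    · by_contra hnu
      apply hQn
      have h1 := hpi _ hnu
      have h2 : (Hb - algebraMap A₀ (chartClosure A₀ (ModelField K₁ (M * q)) x) a₀) *
          (Hb + algebraMap A₀ (chartClosure A₀ (ModelField K₁ (M * q)) x) a₀ + 9) ∈ 𝔪 :=
        Ideal.mul_mem_right _ _ ha₀
      have h4 := Ideal.add_mem _ h2 h1
      have e : (Hb - algebraMap A₀ (chartClosure A₀ (ModelField K₁ (M * q)) x) a₀) *
          (Hb + algebraMap A₀ (chartClosure A₀ (ModelField K₁ (M * q)) x) a₀ + 9) +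
          algebraMap A₀ (chartClosure A₀ (ModelField K₁ (M * q)) x) (a₀ ^ 2 + 9 * a₀ + 27) =
          Hb ^ 2 + 9 * Hb + 27 := by
        simp only [map_add, map_mul, map_pow, map_ofNat]
        ring
      rwa [e] at h4
  · -- the tube coordinate at level `M`
    rintro a₀ ⟨hu1, hu2⟩ 𝔪' h𝔪' hϖ𝔪' hg𝔪'
    have htr : Transcendental A₀ H' :=
      Fermat.Agent.H58.modelTranscendental_of_order_ne_zero M (h9S ℚ)
        (by rw [h9S_order]; decide) K₁ A₀ H' hH'emb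
    have hGB' : GoodBasis A₀ (ModelField K₁ M) ϖ H' := hGB K₁ A₀ hqnu ϖ hϖ H' hH'emb
    have hgirr : Irreducible ((X - C a₀ : A₀[X]).map (IsLocalRing.residue A₀)) := by
      rw [Polynomial.map_sub, Polynomial.map_X, Polynomial.map_C]
      exact Polynomial.irreducible_X_sub_C _
    have hne0 : ¬ ∃ p r : A₀[X], (X : A₀[X]) = C ϖ * p + (X - C a₀) * r :=
      ssp_not_mem_pair_eval hϖ a₀ X (by rwa [eval_X])
    have hneQ : ¬ ∃ p r : A₀[X],
        (X ^ 2 + C 9 * X + C 27 : A₀[X]) = C ϖ * p + (X - C a₀) * r :=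
      ssp_not_mem_pair_eval hϖ a₀ _ (by
        simp only [eval_add, eval_pow, eval_X, eval_mul, eval_C]
        exact hu2)
    have hUN : UnramifiedNear A₀ (ModelField K₁ M) ϖ H' (X - C a₀) :=
      hUnr K₁ A₀ ϖ hϖ H' hH'emb (X - C a₀) (monic_X_sub_C a₀) hgirr hne0 hneQ
    exact isTubeCoordAt_of_etale hinj' ϖ hϖ H' htr hGB' (X - C a₀) (monic_X_sub_C a₀) hgirr
      hUN 𝔪' h𝔪' hϖ𝔪' hg𝔪'

/-- **Level 9, SSH-9 : place generators at the crossing points** (`9 ∣ M`, `q ≠ 3` prime,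
`q ∤ M`; in the application `q = 2`), from the twin of row SSH-6 (`SSCrossData9Statement`) and
the unramifiedness of the chart `H₉` off the cusps. -/
theorem ssPlaceGenCross9_of_data (M q : ℕ) [NeZero M] [NeZero q] (h9 : 9 ∣ M) (hq : q.Prime)
    (hq3 : q ≠ 3) (hqM : ¬ q ∣ M) (R : ℕ) (hUnr : ModelUnramifiedH9Statement M)
    (hData : SSCrossData9Statement M q) : SSPlaceGenCrossStatement M q jq R :=
  ssPlaceGenCross9_of M q h9 R hData
    (ssLocAModel9_of M q hq hq3 R (modelGoodBasis_h9 M q hq hqM hq3) hUnr)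
    (fun K₁ _ _ _ Hq hHq =>
      Fermat.Agent.H32.SSGen.adjoin_eq_top_h9S M q h9 hq hqM K₁ Hq hHq)

end Model9

end Fermat.Agent.H59.SS
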