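import Mathlib
import Fermat.Agent.H59.SS.LocAModel9
import Fermat.Agent.H31.SS.ModelUnramifiedH9

/-!
# P-SS, row SSH-9, level-9 twin: final assembly (helper59)

With `Fermat.Agent.H31.SS.modelUnramified_h9` (helper31) plugged in:

* `ssLocAModel9` : the level-`M` tube in the chart `H₉`, unconditional (`9 ∣ M`, `q ≠ 3` prime,
  `q ∤ M`);
* `ssPlaceGenCross9_of_crossData` : `SSPlaceGenCrossStatement M q jq R` from the crossing data
  `Fermat.Agent.H31.SS.SSCrossData9Statement M q` alone.
-/

set_option autoImplicit false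

noncomputable section

namespace Fermat.Agent.H59.SS

open ModularCurve
open Fermat.Agent.H22.KL Fermat.Agent.H45 Fermat.Agent.H88.KLB Fermat.Agent.H41.SS
open Fermat.Agent.H82.SS Fermat.Agent.H31.SS

/-- **The level-`M` tube in the chart `H₉`**, unconditional. -/
theorem ssLocAModel9 (M q : ℕ) [NeZero M] [NeZero q] (h9 : 9 ∣ M) (hq : q.Prime) (hq3 : q ≠ 3)
    (hqM : ¬ q ∣ M) (R : ℕ) : SSLocAModel9Statement M q R :=
  ssLocAModel9_of M q hq hq3 R (modelGoodBasis_h9 M q hq hqM hq3) (modelUnramified_h9 M h9)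

/-- **Level 9, SSH-9 : place generators at the crossing points** from the crossing data alone
(`9 ∣ M`, `q ≠ 3` prime, `q ∤ M`; in the application `q = 2`). -/
theorem ssPlaceGenCross9_of_crossData (M q : ℕ) [NeZero M] [NeZero q] (h9 : 9 ∣ M)
    (hq : q.Prime) (hq3 : q ≠ 3) (hqM : ¬ q ∣ M) (R : ℕ)
    (hData : SSCrossData9Statement M q) : SSPlaceGenCrossStatement M q jq R :=
  ssPlaceGenCross9_of_data M q h9 hq hq3 hqM R (modelUnramified_h9 M h9) hData

end Fermat.Agent.H59.SS
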