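import Mathlib
import Fermat.Agent.H59.SS.LocAAbs
import Fermat.Agent.H59.SS.CrossModel
import Fermat.Agent.H45.SS.Model2
import Fermat.Agent.H58.KL.ModelTr
import Fermat.Agent.H57.SS.ModelFinite

/-!
# P-SS, rows SSH-6 + SSH-9 : the crossing points for a GENERAL Hauptmodul (helper59)

The chain of `CrossModel` / `LocAModel` with the Hauptmodul of level `4` replaced by an arbitrary
`h₀ : LaurentSeries ℚ` of level `M` (in the applications `h₀ = h4S ℚ`, `4 ∣ M`, `q` odd, and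
`h₀ = h9S ℚ`, `9 ∣ M`, `q = 2`).

* `SSCrossDataStatementG M q h₀ R` (row SSH-6): at a crossing point `𝔪` the functions
  `H` (with `q`-expansion `h₀`) and `H_q = H(t^q)` lie in `B(j)` and form supersingular data.
* `SSUnramAtStatementG M q h₀ R` : at level `M` the chart `H` is unramified near the values
  `a₀` of `H` at the points of the chart `j` of level `M q` over `ϖ` (which are not cusps).
* `ssPlaceGenCrossG_of` : these two statements, the good basis in the chart `H` at level `M`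
  and `GEN` give `Fermat.Agent.H45.SSPlaceGenCrossStatement M q jq R`.
-/

set_option autoImplicit false
set_option linter.unusedSectionVars false
set_option linter.style.haveILetI false

noncomputable section

namespace Fermat.Agent.H59.SS

open Polynomial IsLocalRing ModularCurve
open scoped Polynomial.Bivariate
open Fermat.Agent.H22.KL Fermat.Agent.H45 Fermat.Agent.H60.SS Fermat.Agent.H88.KLB
open Fermat.Agent.H82.SS Fermat.Agent.H41.SS

/-- **SSH-6 for a general Hauptmodul `h₀`**: at a maximal ideal `𝔪 ∋ ϖ` of `B(x)`, `x = j`,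
lying on both components, the functions `H` (with `q`-expansion `h₀`) and `H_q = H(t^q)` lie in
`B(x)` and satisfy `Φ(H, H_q) = 0`, `Φ = D (Y - X^q)(X - Y^q) - q Ψ` with
`D(H, H_q), Ψ(H, H_q) ∉ 𝔪`, `H_q - H^q ∈ 𝔪`, `H - H_q^q ∈ 𝔪`.  (`K₁` may be assumed to contain
a primitive `R`-th root of unity.) -/
def SSCrossDataStatementG (M q : ℕ) [NeZero M] [NeZero q] (h₀ : LaurentSeries ℚ) (R : ℕ) :
    Prop :=
  ∀ (K₁ : Type) [Field K₁] [Algebra ℚ K₁] [FiniteDimensional ℚ K₁]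
    (A₀ : Type) [CommRing A₀] [IsDomain A₀] [IsDiscreteValuationRing A₀]
    [Algebra A₀ K₁] [IsFractionRing A₀ K₁]
    [Algebra A₀ (ModelField K₁ (M * q))] [IsScalarTower A₀ K₁ (ModelField K₁ (M * q))],
    ¬ IsUnit ((q : ℕ) : A₀) →
    (∃ ζ : K₁, IsPrimitiveRoot ζ R) →
    ∀ (ϖ : A₀), Irreducible ϖ →
    ∀ (x : ModelField K₁ (M * q)), (x : LaurentSeries K₁) = coeffEmb K₁ jq →
    ∀ (W : ModelField K₁ (M * q) ≃ₐ[K₁] ModelField K₁ (M * q)), IsAtkinLehnerModel K₁ M q W →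
    ∀ 𝔪 : Ideal (chartClosure A₀ (ModelField K₁ (M * q)) x), 𝔪.IsMaximal →
      algebraMap A₀ (chartClosure A₀ (ModelField K₁ (M * q)) x) ϖ ∈ 𝔪 →
      SSOnInfty K₁ (M * q) A₀ ϖ x 𝔪 → SSOnZero K₁ (M * q) A₀ ϖ W x 𝔪 →
      ∃ (D Ψ : A₀[X][Y]) (H Hq : chartClosure A₀ (ModelField K₁ (M * q)) x),
        (((H : ModelField K₁ (M * q)) : LaurentSeries K₁) = coeffEmb K₁ h₀) ∧
        (((Hq : ModelField K₁ (M * q)) : LaurentSeries K₁) = qExpand K₁ q (coeffEmb K₁ h₀)) ∧
        IsSSData 𝔪 q D Ψ H Hq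

/-- **The chart `H` of level `M` is unramified near the points of level `M q` over `ϖ`**: if
`H - a₀` lies in a maximal ideal `𝔪 ∋ ϖ` of `B(j)` (level `M q`), the chart `H` of level `M` is
unramified near `(ϖ, H - a₀)`.  (`𝔪` is not a cusp, and there are no elliptic points.) -/
def SSUnramAtStatementG (M q : ℕ) [NeZero M] [NeZero q] (h₀ : LaurentSeries ℚ) (R : ℕ) : Prop :=
  ∀ (K₁ : Type) [Field K₁] [Algebra ℚ K₁] [FiniteDimensional ℚ K₁]
    (A₀ : Type) [CommRing A₀] [IsDomain A₀] [IsDiscreteValuationRing A₀]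
    [Algebra A₀ K₁] [IsFractionRing A₀ K₁]
    [Algebra A₀ (ModelField K₁ (M * q))] [IsScalarTower A₀ K₁ (ModelField K₁ (M * q))],
    ¬ IsUnit ((q : ℕ) : A₀) →
    (∃ ζ : K₁, IsPrimitiveRoot ζ R) →
    ∀ (ϖ : A₀), Irreducible ϖ →
    ∀ (x : ModelField K₁ (M * q)), (x : LaurentSeries K₁) = coeffEmb K₁ jq →
    ∀ 𝔪 : Ideal (chartClosure A₀ (ModelField K₁ (M * q)) x), 𝔪.IsMaximal →
      algebraMap A₀ (chartClosure A₀ (ModelField K₁ (M * q)) x) ϖ ∈ 𝔪 →
      ∀ H' : ModelField K₁ M, ((H' : LaurentSeries K₁) = coeffEmb K₁ h₀) →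
      ∀ Hb : chartClosure A₀ (ModelField K₁ (M * q)) x,
        (((Hb : ModelField K₁ (M * q)) : LaurentSeries K₁) = coeffEmb K₁ h₀) →
      ∀ a₀ : A₀, Hb - algebraMap A₀ (chartClosure A₀ (ModelField K₁ (M * q)) x) a₀ ∈ 𝔪 →
        letI := ssAlgBase K₁ M A₀
        UnramifiedNear A₀ (ModelField K₁ M) ϖ H' (X - C a₀)

/-- **SSH-6 + SSH-9 for a general Hauptmodul**: place generators at the crossing points. -/
theorem ssPlaceGenCrossG_of (M q : ℕ) [NeZero M] [NeZero q] (h₀ : LaurentSeries ℚ) (R : ℕ)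
    (hmem : h₀ ∈ modularFunctionFieldFull M) (hord : h₀.order ≠ 0)
    (hGB : ModelGoodBasisStatement M q h₀) (hGen : ModelGenStatement M q h₀)
    (hUN : SSUnramAtStatementG M q h₀ R) (hData : SSCrossDataStatementG M q h₀ R) :
    SSPlaceGenCrossStatement M q jq R := by
  intro K₁ _ _ _ A₀ _ _ _ _ _ _ _ hq hζ ϖ hϖ x hx W hW 𝔪 h𝔪 hϖ𝔪 hInf hZero
  haveI : CharZero K₁ := charZero_of_injective_algebraMap (algebraMap ℚ K₁).injective
  have hinj : Function.Injective (algebraMap A₀ (ModelField K₁ (M * q))) := by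
    rw [IsScalarTower.algebraMap_eq A₀ K₁ (ModelField K₁ (M * q))]
    exact (algebraMap K₁ (ModelField K₁ (M * q))).injective.comp
      (IsFractionRing.injective A₀ K₁)
  have hq0 : ((q : ℕ) : A₀) ≠ 0 := by
    intro h0
    have h1 : algebraMap A₀ K₁ ((q : ℕ) : A₀) = 0 := by rw [h0, map_zero]
    rw [map_natCast] at h1
    exact NeZero.ne q (Nat.cast_injective (R := K₁) (by rw [h1, Nat.cast_zero]))
  obtain ⟨D, Ψ, H, Hq, hH, hHq, hs⟩ := hData K₁ A₀ hq hζ ϖ hϖ x hx W hW 𝔪 h𝔪 hϖ𝔪 hInf hZero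
  letI algL := ssAlgLevel K₁ M q
  letI algB := ssAlgBase K₁ M A₀
  haveI towerB : IsScalarTower A₀ K₁ (ModelField K₁ M) :=
    IsScalarTower.of_algebraMap_eq (fun _ => rfl)
  haveI tower : IsScalarTower A₀ (ModelField K₁ M) (ModelField K₁ (M * q)) := by
    refine IsScalarTower.of_algebraMap_eq (fun a => ?_)
    rw [IsScalarTower.algebraMap_apply A₀ K₁ (ModelField K₁ (M * q))]
    exact ((heckeAlphaBar K₁ M q).commutes (algebraMap A₀ K₁ a)).symm
  haveI : CharZero (ModelField K₁ M) :=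
    charZero_of_injective_algebraMap (algebraMap K₁ (ModelField K₁ M)).injective
  have hinj' : Function.Injective (algebraMap A₀ (ModelField K₁ M)) := by
    rw [IsScalarTower.algebraMap_eq A₀ K₁ (ModelField K₁ M)]
    exact (algebraMap K₁ (ModelField K₁ M)).injective.comp (IsFractionRing.injective A₀ K₁)
  set H' : ModelField K₁ M := ⟨coeffEmb K₁ h₀, coeffEmb_mem_laurentBaseChange K₁ hmem⟩
    with hH'def
  have hαH : ((algebraMap (ModelField K₁ M) (ModelField K₁ (M * q)) H' :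
      ModelField K₁ (M * q)) : LaurentSeries K₁) = coeffEmb K₁ h₀ :=
    coe_heckeAlphaBar (L := K₁) (N := M) (ℓ := q) H'
  have hH' : ((H : ModelField K₁ (M * q))) = algebraMap (ModelField K₁ M) _ H' := by
    apply Subtype.ext
    rw [hH, hαH]
  -- generation
  have hgen : Algebra.adjoin (ModelField K₁ M)
      ({(Hq : ModelField K₁ (M * q))} : Set (ModelField K₁ (M * q))) = ⊤ := by
    have hβ : heckeBetaBar K₁ M q H' = (Hq : ModelField K₁ (M * q)) := by
      apply Subtype.ext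
      rw [coe_heckeBetaBar, hHq]
    rw [eq_top_iff]
    intro z _
    obtain ⟨p, hp⟩ := hGen K₁ H' rfl z
    rw [hβ] at hp
    rw [hp]
    have h1 : p.eval₂ (heckeAlphaBar K₁ M q : ModelField K₁ M →+* ModelField K₁ (M * q))
        (Hq : ModelField K₁ (M * q)) = Polynomial.aeval (Hq : ModelField K₁ (M * q)) p := rfl
    rw [h1]
    exact Polynomial.aeval_mem_adjoin_singleton _ _
  -- `x` comes from level `M`; algebraicity
  have hxr : x ∈ (algebraMap (ModelField K₁ M) (ModelField K₁ (M * q))).range := by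
    have hjq : coeffEmb K₁ jq ∈ laurentBaseChange K₁ (modularFunctionFieldFull M) :=
      coeffEmb_mem_laurentBaseChange K₁ (by
        have h := jqd_mem_full M (one_dvd M)
        rwa [qExpand_one_apply] at h)
    refine ⟨⟨coeffEmb K₁ jq, hjq⟩, ?_⟩
    apply Subtype.ext
    rw [hx]
    exact coe_heckeAlphaBar (L := K₁) (N := M) (ℓ := q) _
  haveI : Algebra.IsAlgebraic (ModelField K₁ M) (ModelField K₁ (M * q)) :=
    ssp_isAlgebraic_of_chart (A := A₀) x hxr
      (Fermat.Agent.H57.SS.modelFinite (M * q) K₁ A₀ x hx)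
  -- the level-`M` tube
  have hy : algebraMap (ModelField K₁ M) (ModelField K₁ (M * q)) H' ∈
      chartClosure A₀ (ModelField K₁ (M * q)) x := by
    rw [← hH']
    exact H.2
  have htr : Transcendental A₀ H' :=
    Fermat.Agent.H58.modelTranscendental_of_order_ne_zero M h₀ hord K₁ A₀ H' rfl
  have hGB' : GoodBasis A₀ (ModelField K₁ M) ϖ H' := hGB K₁ A₀ hq ϖ hϖ H' rfl
  have hLoc : SSLocA A₀ (ModelField K₁ M) (ModelField K₁ (M * q)) x 𝔪 H' := by
    refine ssLocA_of_tubeCoord hϖ x H' hy 𝔪 h𝔪.isPrime hϖ𝔪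
      (fun a₀ => UnramifiedNear A₀ (ModelField K₁ M) ϖ H' (X - C a₀)) ?_ ?_
    · intro a₀ ha₀
      exact hUN K₁ A₀ hq hζ ϖ hϖ x hx 𝔪 h𝔪 hϖ𝔪 H' rfl
        ⟨algebraMap (ModelField K₁ M) (ModelField K₁ (M * q)) H', hy⟩ hαH a₀ ha₀
    · intro a₀ hUNa 𝔪' h𝔪' hϖ𝔪' hg𝔪'
      have hgirr : Irreducible ((X - C a₀ : A₀[X]).map (IsLocalRing.residue A₀)) := by
        rw [Polynomial.map_sub, Polynomial.map_X, Polynomial.map_C]
        exact Polynomial.irreducible_X_sub_C _
      exact isTubeCoordAt_of_etale hinj' ϖ hϖ H' htr hGB' (X - C a₀) (monic_X_sub_C a₀) hgirr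
        hUNa 𝔪' h𝔪' hϖ𝔪' hg𝔪'
  exact placeGenAt_of_ss hinj hϖ h𝔪 hϖ𝔪 hq0 hs hH' hgen hLoc

end Fermat.Agent.H59.SS
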