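import Mathlib
import Fermat.Agent.H59.SS.LevelRegAbs
import Fermat.Agent.H59.SS.LevelRegFrobDefs
import Fermat.Agent.H59.SS.GoodBasisH9
import Fermat.Agent.H66.SS.Haupt9Generic
import Fermat.Agent.H31.SS.ModelUnramifiedH9
import Fermat.Agent.H31.SS.Haupt9Member
import Fermat.Agent.H41.SS.EtaleChart
import Fermat.Agent.H2.KLBRModel

/-!
# P-SS2 row 900, input of (N) NodeGen: level-`M` regularity with the explicit Frobenius
parameter, level 9 (`q ≠ 3`, `9 ∣ M`; in the application `q = 2`) (helper59)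

* `modelLevelReg_h9_frob` : at level `M` (`9 ∣ M`, `q ≠ 3` prime, `q ∤ M`), chart `j`, a
  maximal ideal `𝔫 ∋ ϖ` which contains `U = H - H ^ (q ^ 2)` (`H` the Hauptmodul of level `9`)
  is locally generated by `ϖ` and `U`.
* `modelLevelRegFrob_h9`, `modelLevelRegFrob_h9Z` : the same as
  `ModelLevelRegFrobStatement M q (h9S ℚ)` resp. `… (coeffMap (Int.castRingHom ℚ) h9Z)`.
-/

set_option autoImplicit false
set_option linter.style.haveILetI false
set_option linter.unusedSectionVars false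
set_option maxHeartbeats 1000000

noncomputable section

open Polynomial

namespace Fermat.Agent.H59.SS

open ModularCurve AlgebraicCurve
open Fermat.Agent.H22.KL Fermat.Agent.H31.SS Fermat.Agent.H22.SS
open Fermat.Agent.H41.SS (etale_aeval_mem_chartClosure ordPoint_exists_monic etale_point_chart)

section Polys9

variable (A : Type) [CommRing A]

/-- numerator of `j` in the chart `H₉` of level 9 -/
def ssp9Num : A[X] := (X + C 9) ^ 3 * (X ^ 3 + C 243 * X ^ 2 + C 2187 * X + C 6561) ^ 3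

/-- denominator of `j` in the chart `H₉` of level 9 -/
def ssp9Den : A[X] := X ^ 9 * (X ^ 2 + C 9 * X + C 27)

theorem ssp9Num_monic : (ssp9Num A).Monic := by
  unfold ssp9Num
  monicity!

theorem ssp9Num_natDegree [Nontrivial A] : (ssp9Num A).natDegree = 12 := by
  unfold ssp9Num
  compute_degree!

theorem ssp9Den_natDegree [Nontrivial A] : (ssp9Den A).natDegree = 11 := by
  unfold ssp9Den
  compute_degree!

theorem ssp9Num_aeval {E : Type} [CommRing E] [Algebra A E] (h : E) :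
    aeval h (ssp9Num A) = (h + 9) ^ 3 * (h ^ 3 + 243 * h ^ 2 + 2187 * h + 6561) ^ 3 := by
  unfold ssp9Num
  simp only [map_pow, map_add, map_mul, aeval_X, aeval_C, map_ofNat]

theorem ssp9Den_aeval {E : Type} [CommRing E] [Algebra A E] (h : E) :
    aeval h (ssp9Den A) = h ^ 9 * (h ^ 2 + 9 * h + 27) := by
  unfold ssp9Den
  simp only [map_pow, map_add, map_mul, aeval_X, aeval_C, map_ofNat]

end Polys9

section Model9

/-- **REG' at level `M` with the explicit parameter `H - H ^ (q ^ 2)`**, level 9 (`9 ∣ M`,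
`q ≠ 3` a prime, `q ∤ M`), chart `j`. -/
theorem modelLevelReg_h9_frob (M q : ℕ) [NeZero M] [NeZero q] (hq : q.Prime) (hq3 : q ≠ 3)
    (hqM : ¬ q ∣ M) (h9 : 9 ∣ M)
    (K₁ : Type) [Field K₁] [Algebra ℚ K₁] [FiniteDimensional ℚ K₁]
    (A₀ : Type) [CommRing A₀] [IsDomain A₀] [IsDiscreteValuationRing A₀]
    [Algebra A₀ K₁] [IsFractionRing A₀ K₁]
    [Algebra A₀ (ModelField K₁ M)] [IsScalarTower A₀ K₁ (ModelField K₁ M)]
    (hqA : ¬ IsUnit ((q : ℕ) : A₀)) (ϖ : A₀) (hϖ : Irreducible ϖ)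
    (x : ModelField K₁ M) (hx : (x : LaurentSeries K₁) = coeffEmb K₁ jq)
    (𝔫 : Ideal (chartClosure A₀ (ModelField K₁ M) x)) (h𝔫 : 𝔫.IsMaximal)
    (hϖ𝔫 : algebraMap A₀ (chartClosure A₀ (ModelField K₁ M) x) ϖ ∈ 𝔫)
    (U : chartClosure A₀ (ModelField K₁ M) x) (H : ModelField K₁ M)
    (hH : (H : LaurentSeries K₁) = coeffEmb K₁ (h9S ℚ))
    (hU : (U : ModelField K₁ M) = H - H ^ (q ^ 2)) (hU𝔫 : U ∈ 𝔫) :
    ∀ z ∈ 𝔫, ∃ s, s ∉ 𝔫 ∧ ∃ b₁ b₂ : chartClosure A₀ (ModelField K₁ M) x,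
      s * z = algebraMap A₀ (chartClosure A₀ (ModelField K₁ M) x) ϖ * b₁ + U * b₂ := by
  haveI : CharZero K₁ := algebraRat.charZero K₁
  haveI : CharZero (ModelField K₁ M) :=
    charZero_of_injective_algebraMap (algebraMap K₁ (ModelField K₁ M)).injective
  haveI hp𝔫 := h𝔫.isPrime
  have hinj : Function.Injective (algebraMap A₀ (ModelField K₁ M)) := by
    rw [IsScalarTower.algebraMap_eq A₀ K₁ (ModelField K₁ M)]
    exact (algebraMap K₁ (ModelField K₁ M)).injective.comp (IsFractionRing.injective A₀ K₁)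
  have hHser : (H : LaurentSeries K₁) = h9S K₁ := hH.trans (coeffEmb_h9S K₁)
  have hrelM : x * H ^ 9 * (H ^ 2 + 9 * H + 27) =
      (H + 9) ^ 3 * (H ^ 3 + 243 * H ^ 2 + 2187 * H + 6561) ^ 3 := by
    apply Subtype.ext
    show (x : LaurentSeries K₁) * (H : LaurentSeries K₁) ^ 9 *
        ((H : LaurentSeries K₁) ^ 2 + 9 * (H : LaurentSeries K₁) + 27) =
      ((H : LaurentSeries K₁) + 9) ^ 3 * ((H : LaurentSeries K₁) ^ 3 +
        243 * (H : LaurentSeries K₁) ^ 2 + 2187 * (H : LaurentSeries K₁) + 6561) ^ 3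
    rw [hHser, hx, Fermat.Agent.H27.KLGB.coeffEmb_jq]
    exact h9_j K₁
  have hH0 : H ≠ 0 := fun h => h9S_ne_zero K₁ (by rw [← hHser, h]; rfl)
  have hHD : H ^ 2 + 9 * H + 27 ≠ 0 := by
    intro h
    apply h9S_quad_ne_zero K₁
    rw [← hHser]
    have h1 : ((H ^ 2 + 9 * H + 27 : ModelField K₁ M) : LaurentSeries K₁) = 0 := by
      rw [h]; rfl
    exact h1
  -- membership in `B(x)` is integrality over `A₀[x]`
  have hmem : ∀ z : ModelField K₁ M, z ∈ chartClosure A₀ (ModelField K₁ M) x ↔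
      IsIntegral ↥(chartRing A₀ (ModelField K₁ M) x) z := fun z => Iff.rfl
  have hxint : IsIntegral ↥(chartRing A₀ (ModelField K₁ M) x) x := by
    have : x = algebraMap ↥(chartRing A₀ (ModelField K₁ M) x) (ModelField K₁ M)
        ⟨x, Algebra.self_mem_adjoin_singleton A₀ x⟩ := rfl
    rw [this]
    exact isIntegral_algebraMap
  -- `3` is a unit of `A₀`
  have h3u : IsUnit (((3 ^ 48 : ℕ) : ℕ) : A₀) := by
    apply Fermat.Agent.H2.klbr_isUnit_natCast_of_coprime hqA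
    apply Nat.Coprime.pow_left
    rw [Nat.coprime_primes Nat.prime_three hq]
    exact fun h => hq3 h.symm
  obtain ⟨c₀, hc₀⟩ := h3u.exists_left_inv
  have h348 : (3 ^ 48 : ℕ) = 79766443076872509863361 := by norm_num
  rw [h348] at hc₀
  have hc : algebraMap A₀ ↥(chartRing A₀ (ModelField K₁ M) x) c₀
      * 79766443076872509863361 = 1 := by
    have := congrArg (algebraMap A₀ ↥(chartRing A₀ (ModelField K₁ M) x)) hc₀
    rw [map_mul, map_one, map_natCast, Nat.cast_ofNat] at this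
    exact this
  obtain ⟨hHint, u, huint, hu⟩ :=
    Fermat.Agent.H66.SSHaupt9.isIntegral_haupt9_unit _ hc x H hxint hH0 hHD hrelM
  have hHB : H ∈ chartClosure A₀ (ModelField K₁ M) x := (hmem H).2 hHint
  have huB : u ∈ chartClosure A₀ (ModelField K₁ M) x := (hmem u).2 huint
  -- the inverse of `Q(H) = H⁹ (H² + 9 H + 27)`
  have hnB : ∀ n : ℕ, ((n : ℕ) : ModelField K₁ M) ∈ chartClosure A₀ (ModelField K₁ M) x := by
    intro n
    have : ((n : ℕ) : ModelField K₁ M) = algebraMap A₀ (ModelField K₁ M) (n : A₀) :=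
      (map_natCast _ n).symm
    rw [this]
    exact (chartClosure A₀ (ModelField K₁ M) x).algebraMap_mem _
  have hDB : H ^ 2 + 9 * H + 27 ∈ chartClosure A₀ (ModelField K₁ M) x := by
    have h9B : (9 : ModelField K₁ M) ∈ chartClosure A₀ (ModelField K₁ M) x := by
      have := hnB 9
      rwa [Nat.cast_ofNat] at this
    have h27B : (27 : ModelField K₁ M) ∈ chartClosure A₀ (ModelField K₁ M) x := by
      have := hnB 27
      rwa [Nat.cast_ofNat] at this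
    exact (chartClosure A₀ (ModelField K₁ M) x).add_mem
      ((chartClosure A₀ (ModelField K₁ M) x).add_mem
        ((chartClosure A₀ (ModelField K₁ M) x).pow_mem hHB 2)
        ((chartClosure A₀ (ModelField K₁ M) x).mul_mem h9B hHB)) h27B
  have hvB : u ^ 9 * (H ^ 2 + 9 * H + 27) ^ 8 ∈ chartClosure A₀ (ModelField K₁ M) x :=
    (chartClosure A₀ (ModelField K₁ M) x).mul_mem
      ((chartClosure A₀ (ModelField K₁ M) x).pow_mem huB 9)
      ((chartClosure A₀ (ModelField K₁ M) x).pow_mem hDB 8)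
  have hvQ : u ^ 9 * (H ^ 2 + 9 * H + 27) ^ 8 * aeval H (ssp9Den A₀) = 1 := by
    rw [ssp9Den_aeval]
    have : u ^ 9 * (H ^ 2 + 9 * H + 27) ^ 8 * (H ^ 9 * (H ^ 2 + 9 * H + 27)) =
        (u * (H * (H ^ 2 + 9 * H + 27))) ^ 9 := by ring
    rw [this, hu, one_pow]
  have hrel : x * aeval H (ssp9Den A₀) = aeval H (ssp9Num A₀) := by
    rw [ssp9Den_aeval, ssp9Num_aeval, ← hrelM]
    ring
  have hdeg : (ssp9Den A₀).natDegree < (ssp9Num A₀).natDegree := by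
    rw [ssp9Den_natDegree, ssp9Num_natDegree]
    norm_num
  -- the contraction to the chart `H`
  set ι := cchIncl A₀ (ModelField K₁ M) x H hHB with hι
  set 𝔫' : Ideal ↥(chartClosure A₀ (ModelField K₁ M) H) := 𝔫.comap ι with h𝔫'
  have h𝔫'max : 𝔫'.IsMaximal :=
    cch_isMaximal_comap A₀ (ModelField K₁ M) ϖ hϖ x H (ssp9Num A₀) (ssp9Den A₀)
      (ssp9Num_monic A₀) hdeg hrel hHB 𝔫 h𝔫 hϖ𝔫
  haveI hp𝔫' := h𝔫'max.isPrime
  have hϖ𝔫' : algebraMap A₀ ↥(chartClosure A₀ (ModelField K₁ M) H) ϖ ∈ 𝔫' := by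
    rw [h𝔫', Ideal.mem_comap, hι, cchIncl_algebraMap]
    exact hϖ𝔫
  have hQunit : (⟨u ^ 9 * (H ^ 2 + 9 * H + 27) ^ 8, hvB⟩ :
      ↥(chartClosure A₀ (ModelField K₁ M) x)) *
      ι (cchEv A₀ (ModelField K₁ M) H (ssp9Den A₀)) = 1 := Subtype.ext hvQ
  have hQ𝔫' : cchEv A₀ (ModelField K₁ M) H (ssp9Den A₀) ∉ 𝔫' := by
    intro hmem
    apply h𝔫.ne_top
    rw [Ideal.eq_top_iff_one, ← hQunit]
    exact Ideal.mul_mem_left _ _ (Ideal.mem_comap.1 hmem)
  -- regularity in the chart `H` with the parameter `g(H)`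
  obtain ⟨g, hgm, hgirr, hg𝔫'⟩ :=
    ordPoint_exists_monic A₀ (ModelField K₁ M) ϖ hϖ H 𝔫' h𝔫'max hϖ𝔫'
  have hgen : ∀ F : A₀[X], (∃ p r : A₀[X], F = C ϖ * p + g * r) →
      cchEv A₀ (ModelField K₁ M) H F ∈ 𝔫' := by
    rintro F ⟨p, r, rfl⟩
    rw [map_add, map_mul, map_mul, ssp_cchEv_C]
    exact Ideal.add_mem _ (Ideal.mul_mem_right _ _ hϖ𝔫') (Ideal.mul_mem_right _ _ hg𝔫')
  have hQsplit : cchEv A₀ (ModelField K₁ M) H (ssp9Den A₀) =
      cchEv A₀ (ModelField K₁ M) H X ^ 9 *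
        cchEv A₀ (ModelField K₁ M) H (X ^ 2 + C 9 * X + C 27) := by
    rw [ssp9Den, map_mul, map_pow]
  have hX : ¬ ∃ p r : A₀[X], (X : A₀[X]) = C ϖ * p + g * r := by
    intro h
    apply hQ𝔫'
    rw [hQsplit]
    exact Ideal.mul_mem_right _ _ (Ideal.pow_mem_of_mem _ (hgen _ h) 9 (by norm_num))
  have hXD : ¬ ∃ p r : A₀[X], (X ^ 2 + C 9 * X + C 27 : A₀[X]) = C ϖ * p + g * r := by
    intro h
    apply hQ𝔫'
    rw [hQsplit]
    exact Ideal.mul_mem_left _ _ (hgen _ h)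
  have hUN : UnramifiedNear A₀ (ModelField K₁ M) ϖ H g :=
    modelUnramified_h9 M h9 K₁ A₀ ϖ hϖ H hH g hgm hgirr hX hXD
  have hGB : GoodBasis A₀ (ModelField K₁ M) ϖ H :=
    modelGoodBasis_h9 M q hq hqM hq3 K₁ A₀ hqA ϖ hϖ H hH
  have hHtr : Transcendental A₀ H :=
    Fermat.Agent.H58.modelTranscendental_of_order_ne_zero M (h9S ℚ)
      (by rw [h9S_order]; decide) K₁ A₀ H hH
  have hregg : ∀ z ∈ 𝔫', ∃ s, s ∉ 𝔫' ∧ ∃ b₁ b₂ : ↥(chartClosure A₀ (ModelField K₁ M) H),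
      s * z = algebraMap A₀ ↥(chartClosure A₀ (ModelField K₁ M) H) ϖ * b₁ +
        cchEv A₀ (ModelField K₁ M) H g * b₂ := by
    intro z hz
    obtain ⟨s, hs, b₁, hb₁, b₂, hb₂, hsz⟩ :=
      etale_point_chart A₀ (ModelField K₁ M) hinj ϖ hϖ H hHtr hGB g hgm hgirr hUN 𝔫' h𝔫'max z hz
    exact ⟨s, hs, ⟨b₁, hb₁⟩, ⟨b₂, hb₂⟩, Subtype.ext hsz⟩
  -- the parameter `F(H)`, `F = X ^ (q ^ 2) - X`
  haveI hchar : CharP (IsLocalRing.ResidueField A₀) q := by
    rw [CharP.charP_iff_prime_eq_zero hq]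
    have h1 : IsLocalRing.residue A₀ ((q : ℕ) : A₀) = 0 :=
      (IsLocalRing.residue_eq_zero_iff _).2 ((IsLocalRing.mem_maximalIdeal _).2 hqA)
    rwa [map_natCast] at h1
  have hFsep : ((X ^ (q ^ 2) - X : A₀[X]).map (IsLocalRing.residue A₀)).Separable := by
    rw [Polynomial.map_sub, Polynomial.map_pow, Polynomial.map_X]
    exact galois_poly_separable q (q ^ 2) (dvd_pow_self q two_ne_zero)
  have hιF : ι (cchEv A₀ (ModelField K₁ M) H (X ^ (q ^ 2) - X)) = -U := by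
    apply Subtype.ext
    show aeval H (X ^ (q ^ 2) - X : A₀[X]) = -(U : ModelField K₁ M)
    rw [hU, map_sub, map_pow, aeval_X]
    ring
  have hF𝔫' : cchEv A₀ (ModelField K₁ M) H (X ^ (q ^ 2) - X) ∈ 𝔫' := by
    rw [h𝔫', Ideal.mem_comap, hιF]
    exact neg_mem hU𝔫
  have hregF := ssp_reg_swap A₀ (ModelField K₁ M) hϖ H 𝔫' hp𝔫' hϖ𝔫' g (X ^ (q ^ 2) - X) hgirr
    hg𝔫' hF𝔫' hFsep hregg
  have hfin := ssp_cch_reg_param A₀ (ModelField K₁ M) ϖ x H (ssp9Num A₀) (ssp9Den A₀) hrel hHB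
    (u ^ 9 * (H ^ 2 + 9 * H + 27) ^ 8) hvB hvQ 𝔫 hp𝔫 _ hregF
  intro z hz
  obtain ⟨s, hs, b₁, b₂, hsz⟩ := hfin z hz
  refine ⟨s, hs, b₁, -b₂, ?_⟩
  rw [hsz, ← hι, hιF]
  ring

/-- **Level-`M` regularity with the explicit parameter `H - H ^ (q ^ 2)`**, `H` the Hauptmodul
of level `9` (`9 ∣ M`, `q ≠ 3` a prime, `q ∤ M`). -/
theorem modelLevelRegFrob_h9 (M q : ℕ) [NeZero M] [NeZero q] (hq : q.Prime) (hq3 : q ≠ 3)
    (hqM : ¬ q ∣ M) (h9 : 9 ∣ M) : ModelLevelRegFrobStatement M q (h9S ℚ) :=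
  fun K₁ _ _ _ A₀ _ _ _ _ _ _ _ hqA ϖ hϖ x hx 𝔫 h𝔫 hϖ𝔫 U H hH hU hU𝔫 =>
    modelLevelReg_h9_frob M q hq hq3 hqM h9 K₁ A₀ hqA ϖ hϖ x hx 𝔫 h𝔫 hϖ𝔫 U H hH hU hU𝔫

/-- The same with the series written as `coeffMap (Int.castRingHom ℚ) h9Z`. -/
theorem modelLevelRegFrob_h9Z (M q : ℕ) [NeZero M] [NeZero q] (hq : q.Prime) (hq3 : q ≠ 3)
    (hqM : ¬ q ∣ M) (h9 : 9 ∣ M) :
    ModelLevelRegFrobStatement M q (coeffMap (Int.castRingHom ℚ) h9Z) := by
  rw [coeffMap_h9Z]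
  exact modelLevelRegFrob_h9 M q hq hq3 hqM h9

end Model9

end Fermat.Agent.H59.SS
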